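import Fermat.Agent.Corollaries.HIT.Defs

/-!
# (ALG): a proper partial product of the `X - y_i` does not have polynomial coefficients

If `a(s) ∏_{i ∈ S} (X - y_i(s)) = G(s, X)` for `s` near `0` with `G ∈ ℚ[t][X]`, then `G(s, X)` divides
`f(s, X)`. Now `f` is irreducible over `ℚ(t)` (Gauss) and `0 < deg G < deg f`, so that
`u f + v G = r(t) ≠ 0` with `u, v ∈ ℚ[t][X]`; hence `G(s, X)`, of positive degree, divides `r(s)`
for all `s` near `0` and `r = 0`, a contradiction.
-/

set_option autoImplicit false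

open Polynomial Filter Topology

namespace Fermat.Agent.Cor.HIT

namespace Alg

/-- clearing the denominators of a polynomial -/
theorem exists_clear {R K : Type} [CommRing R] [IsDomain R] [Field K] [Algebra R K]
    [IsFractionRing R K] (p : K[X]) :
    ∃ (q : R[X]) (c : R), c ≠ 0 ∧ q.map (algebraMap R K) = C (algebraMap R K c) * p := by
  obtain ⟨c, hc, h⟩ := IsLocalization.integerNormalization_spec (nonZeroDivisors R) p
  refine ⟨IsLocalization.integerNormalization (nonZeroDivisors R) p, c,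
    nonZeroDivisors.ne_zero hc, ?_⟩
  rw [h, ← IsScalarTower.algebraMap_smul K c p, Polynomial.smul_eq_C_mul]

/-- Bézout with a denominator: `f` irreducible over `ℚ[t]`, `0 < deg G < deg f`. -/
theorem exists_bezout {R : Type} [CommRing R] [IsDomain R] [NormalizedGCDMonoid R]
    (f G : R[X]) (hf : Irreducible f) (hG : G ≠ 0)
    (hlt : G.natDegree < f.natDegree) :
    ∃ (u v : R[X]) (r : R), r ≠ 0 ∧ u * f + v * G = C r := by
  let K := FractionRing R
  have hinj : Function.Injective (algebraMap R K) := IsFractionRing.injective R K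
  have hprim : f.IsPrimitive := hf.isPrimitive (by omega)
  have hirr : Irreducible (f.map (algebraMap R K)) :=
    (hprim.irreducible_iff_irreducible_map_fraction_map (K := K)).1 hf
  have hG' : G.map (algebraMap R K) ≠ 0 := by
    rwa [Ne, Polynomial.map_eq_zero_iff hinj]
  have hnd : ¬ f.map (algebraMap R K) ∣ G.map (algebraMap R K) := by
    intro h
    have h1 := Polynomial.natDegree_le_of_dvd h hG'
    rw [Polynomial.natDegree_map_eq_of_injective hinj,
      Polynomial.natDegree_map_eq_of_injective hinj] at h1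
    omega
  obtain ⟨a, b, hab⟩ := (hirr.coprime_iff_not_dvd).2 hnd
  obtain ⟨u, c₁, h0₁, hc₁⟩ := exists_clear (R := R) a
  obtain ⟨v, c₂, h0₂, hc₂⟩ := exists_clear (R := R) b
  refine ⟨C c₂ * u, C c₁ * v, c₁ * c₂, mul_ne_zero h0₁ h0₂, ?_⟩
  apply Polynomial.map_injective _ hinj
  simp only [Polynomial.map_add, Polynomial.map_mul, Polynomial.map_C, hc₁, hc₂, map_mul]
  linear_combination (C (algebraMap R K c₁) * C (algebraMap R K c₂)) * hab

/-- a polynomial with rational coefficients vanishing at all real `s` near `0` -/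
theorem eq_zero_of_eventually (r : ℚ[X])
    (h : ∀ᶠ s : ℝ in 𝓝 0, eval₂ (algebraMap ℚ ℂ) (s : ℂ) r = 0) : r = 0 := by
  have hinf : {s : ℝ | eval₂ (algebraMap ℚ ℂ) (s : ℂ) r = 0}.Infinite :=
    infinite_of_mem_nhds 0 h
  have h1 : r.map (algebraMap ℚ ℂ) = 0 := by
    apply Polynomial.eq_zero_of_infinite_isRoot
    refine Set.Infinite.mono ?_ (hinf.image (f := fun s : ℝ => (s : ℂ))
      (Complex.ofReal_injective.injOn))
    rintro _ ⟨s, hs, rfl⟩
    simpa [Polynomial.IsRoot, Polynomial.eval_map] using hs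
  rwa [Polynomial.map_eq_zero_iff (algebraMap ℚ ℂ).injective] at h1

end Alg

open Alg in
/-- **(ALG)** -/
theorem algStmt : AlgStmt := by
  intro f y S P hf hS hne hy hP
  have hf0 : f ≠ 0 := hf.ne_zero
  have ha0 : f.leadingCoeff ≠ 0 := leadingCoeff_ne_zero.2 hf0
  have hk : 0 < S.card := S.card_pos.2 hS
  have hkn : S.card < f.natDegree := by
    have h2 : S.card < Fintype.card (Fin f.natDegree) := by
      rw [← Finset.card_univ]
      exact Finset.card_lt_card (Finset.ssubset_univ_iff.2 hne)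
    simpa using h2
  -- the polynomial `G`
  let G : ℚ[X][X] := ∑ j ∈ Finset.range (S.card + 1), C (P j) * X ^ j
  have hGc : ∀ j, G.coeff j = if j ≤ S.card then P j else 0 := by
    intro j
    simp only [G, finsetSum_coeff, coeff_C_mul_X_pow]
    rw [Finset.sum_ite_eq]
    simp
  -- the values of `G`
  have hP' : ∀ᶠ s : ℝ in 𝓝 0, ∀ j ≤ S.card, eval₂ (algebraMap ℚ ℂ) (s : ℂ) f.leadingCoeff *
      (∏ i ∈ S, (X - C (y i s))).coeff j = eval₂ (algebraMap ℚ ℂ) (s : ℂ) (P j) :=
    (Filter.eventually_all_finset (Finset.range (S.card + 1))).2 (fun j hj =>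
      hP j (Nat.lt_succ_iff.1 (Finset.mem_range.1 hj))) |>.mono
      (fun s hs j hj => hs j (Finset.mem_range.2 (Nat.lt_succ_iff.2 hj)))
  have hmon : ∀ s : ℝ, (∏ i ∈ S, (X - C (y i s))).Monic := fun s =>
    monic_prod_of_monic _ _ (fun i _ => monic_X_sub_C _)
  have hdeg : ∀ s : ℝ, (∏ i ∈ S, (X - C (y i s))).natDegree = S.card := fun s => by
    rw [natDegree_prod_of_monic _ _ (fun i _ => monic_X_sub_C _)]
    simp
  have hspG : ∀ᶠ s : ℝ in 𝓝 0, sp G s =
      C (eval₂ (algebraMap ℚ ℂ) (s : ℂ) f.leadingCoeff) * ∏ i ∈ S, (X - C (y i s)) := by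
    filter_upwards [hP'] with s hs
    ext j
    rw [coeff_C_mul, sp, coeff_map, hGc]
    split_ifs with hj
    · exact (hs j hj).symm
    · rw [coeff_eq_zero_of_natDegree_lt (by rw [hdeg]; omega)]
      simp
  -- the leading coefficient of `G`
  have hPk : P S.card = f.leadingCoeff := by
    rw [← sub_eq_zero]
    apply eq_zero_of_eventually
    filter_upwards [hP'] with s hs
    have h1 := hs S.card le_rfl
    have h2 : (∏ i ∈ S, (X - C (y i s))).coeff S.card = 1 := by
      have := (hmon s).coeff_natDegree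
      rwa [hdeg s] at this
    rw [h2, mul_one] at h1
    rw [eval₂_sub, ← h1, sub_self]
  have hGk : G.coeff S.card ≠ 0 := by
    rw [hGc, if_pos le_rfl, hPk]; exact ha0
  have hG0 : G ≠ 0 := fun h => hGk (by rw [h, coeff_zero])
  have hGd : G.natDegree ≤ S.card := by
    rw [natDegree_le_iff_coeff_eq_zero]
    intro j hj
    rw [hGc, if_neg (by omega)]
  obtain ⟨u, v, r, hr0, huv⟩ := exists_bezout f G hf hG0 (by omega)
  apply mul_ne_zero ha0 hr0
  apply eq_zero_of_eventually
  filter_upwards [hy, hspG] with s hs hsG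
  rw [eval₂_mul]
  by_cases ha : eval₂ (algebraMap ℚ ℂ) (s : ℂ) f.leadingCoeff = 0
  · rw [ha, zero_mul]
  · have h1 : (∏ i ∈ S, (X - C (y i s))) ∣ C (eval₂ (algebraMap ℚ ℂ) (s : ℂ) r) := by
      have h2 : C (eval₂ (algebraMap ℚ ℂ) (s : ℂ) r) =
          sp u s * sp f s + sp v s * sp G s := by
        have := congrArg (fun q : ℚ[X][X] => q.map (eval₂RingHom (algebraMap ℚ ℂ) (s : ℂ))) huv
        simp only [Polynomial.map_add, Polynomial.map_mul, Polynomial.map_C] at this
        simpa [sp] using this.symm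
      rw [h2, hs.2, hsG]
      refine dvd_add (Dvd.dvd.mul_left (Dvd.dvd.mul_left ?_ _) _)
        (Dvd.dvd.mul_left (dvd_mul_left _ _) _)
      exact Finset.prod_dvd_prod_of_subset _ _ _ (Finset.subset_univ S)
    have h3 : eval₂ (algebraMap ℚ ℂ) (s : ℂ) r = 0 := by
      by_contra hr
      have h4 := Polynomial.natDegree_le_of_dvd h1 (C_ne_zero.2 hr)
      rw [hdeg, natDegree_C] at h4
      omega
    rw [h3, mul_zero]

end Fermat.Agent.Cor.HIT
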