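import Fermat.Agent.Corollaries.HIT.AltDefs

/-!
# The discriminant of `Xⁿ - tX - t`
-/

set_option autoImplicit false

open Polynomial Finset

namespace Fermat.Agent.Cor.HIT

namespace AltDisc

/-- `∏_i ∏_{j ≠ i} (x_i - x_j) = ± ∏_{i < j} (x_j - x_i)²` -/
theorem exists_prod_erase {E : Type} [Field E] {n : ℕ} (x : Fin n → E) :
    ∃ N : ℕ, ∏ i, ∏ j ∈ univ.erase i, (x i - x j) =
      (-1) ^ N * (Matrix.vandermonde x).det ^ 2 := by
  classical
  refine ⟨∑ i : Fin n, #(Ioi i), ?_⟩
  rw [Matrix.det_vandermonde]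
  have h1 : ∀ i : Fin n, ∏ j ∈ univ.erase i, (x i - x j) =
      (∏ j ∈ Ioi i, (x i - x j)) * ∏ j ∈ Iio i, (x i - x j) := by
    intro i
    rw [← prod_union]
    · refine prod_congr ?_ fun _ _ => rfl
      ext j
      rw [mem_erase, mem_union, mem_Ioi, mem_Iio]
      constructor
      · rintro ⟨h, -⟩
        exact (lt_or_gt_of_ne h).symm
      · rintro (h | h)
        · exact ⟨h.ne', mem_univ _⟩
        · exact ⟨h.ne, mem_univ _⟩
    · rw [disjoint_left]
      intro j hj hj'
      rw [mem_Ioi] at hj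
      rw [mem_Iio] at hj'
      exact lt_asymm hj hj'
  rw [prod_congr rfl fun i _ => h1 i, prod_mul_distrib]
  have h2 : ∏ i : Fin n, ∏ j ∈ Iio i, (x i - x j) = ∏ i : Fin n, ∏ j ∈ Ioi i, (x j - x i) := by
    refine prod_comm' fun i j => ?_
    simp only [mem_univ, mem_Iio, mem_Ioi, true_and, and_true]
  have h3 : ∏ i : Fin n, ∏ j ∈ Ioi i, (x i - x j) =
      (-1) ^ (∑ i : Fin n, #(Ioi i)) * ∏ i : Fin n, ∏ j ∈ Ioi i, (x j - x i) := by
    rw [← prod_pow_eq_pow_sum, ← prod_mul_distrib]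
    refine prod_congr rfl fun i _ => ?_
    rw [← prod_const, ← prod_mul_distrib]
    exact prod_congr rfl fun j _ => by ring
  rw [h2, h3]
  ring

end AltDisc

/-- (D) -/
theorem altDiscStmt : AltDiscStmt := by
  intro K E _ _ _ _ n t x hn ht hf
  classical
  have : CharZero E := charZero_of_injective_algebraMap (algebraMap K E).injective
  obtain ⟨k, rfl⟩ : ∃ k, n = k + 2 := ⟨n - 2, by omega⟩
  set T : E := algebraMap K E t with hT
  have hT0 : T ≠ 0 := (map_ne_zero (algebraMap K E)).mpr ht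
  have hf' : (X ^ (k + 2) - C T * X - C T : E[X]) = ∏ i, (X - C (x i)) := by
    rw [← hf]
    simp only [Polynomial.map_sub, Polynomial.map_mul, Polynomial.map_pow, map_X, map_C, hT]
  have hev : ∀ y : E, y ^ (k + 2) - T * y - T = ∏ i, (y - x i) := by
    intro y
    have h1 := congrArg (eval y) hf'
    simpa only [eval_sub, eval_mul, eval_pow, eval_X, eval_C, eval_prod] using h1
  have hroot : ∀ i, x i ^ (k + 2) = T * x i + T := by
    intro i
    have h1 := hev (x i)
    rw [prod_eq_zero (mem_univ i) (sub_self _)] at h1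
    linear_combination h1
  have hder : ∀ i, ((k : E) + 2) * x i ^ (k + 1) - T = ∏ j ∈ univ.erase i, (x i - x j) := by
    intro i
    have h1 : eval (x i) (derivative (X ^ (k + 2) - C T * X - C T : E[X])) =
        eval (x i) (derivative (∏ i, (X - C (x i)))) := by rw [hf']
    have h0 : eval (x i) (X - C (x i)) = 0 := by rw [eval_sub, eval_X, eval_C, sub_self]
    rw [← mul_prod_erase univ _ (mem_univ i), derivative_mul, eval_add, eval_mul, eval_mul,
      derivative_X_sub_C, eval_one, one_mul, h0, zero_mul, add_zero, eval_prod] at h1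
    simp only [derivative_sub, derivative_X_pow, derivative_C_mul, derivative_X, derivative_C,
      mul_one, sub_zero, eval_sub, eval_mul, eval_pow, eval_X, eval_C] at h1
    rw [← h1]
    push_cast
    ring
  set c : E := (k : E) + 1 with hc
  have hc0 : c ≠ 0 := Nat.cast_add_one_ne_zero k
  have hprod : ∏ i, x i = (-1) ^ (k + 1) * T := by
    have h1 := hev 0
    have h2 : ∏ i, ((0 : E) - x i) = (-1) ^ (k + 2) * ∏ i, x i := by
      have h3 : ∀ i, (0 : E) - x i = (-1) * x i := fun i => by ring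
      rw [prod_congr rfl fun i _ => h3 i, prod_mul_distrib, prod_const, card_univ,
        Fintype.card_fin]
    rw [h2, zero_pow (by omega)] at h1
    have h3 : ((-1 : E) ^ (k + 2)) * (-1) ^ (k + 2) = 1 := by
      rw [← mul_pow]; norm_num
    calc ∏ i, x i = ((-1 : E) ^ (k + 2)) * ((-1) ^ (k + 2) * ∏ i, x i) := by
          rw [← mul_assoc, h3, one_mul]
      _ = ((-1 : E) ^ (k + 2)) * (0 - T * 0 - T) := by rw [h1]
      _ = _ := by ring
  have hlin : ∏ i, (c * x i + (c + 1)) = (c + 1) ^ (k + 2) + (-1) ^ k * c ^ (k + 1) * T := by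
    have h1 := hev (-(c + 1) / c)
    have h2 : ∀ i, -(c + 1) / c - x i = (-c)⁻¹ * (c * x i + (c + 1)) := by
      intro i
      field_simp
      ring
    rw [prod_congr rfl fun i _ => h2 i, prod_mul_distrib, prod_const, card_univ,
      Fintype.card_fin] at h1
    have h3 : (-c) ^ (k + 2) * ((-c)⁻¹ ^ (k + 2)) = 1 := by
      rw [← mul_pow, mul_inv_cancel₀ (neg_ne_zero.mpr hc0), one_pow]
    calc ∏ i, (c * x i + (c + 1))
        = (-c) ^ (k + 2) * ((-c)⁻¹ ^ (k + 2) * ∏ i, (c * x i + (c + 1))) := by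
          rw [← mul_assoc, h3, one_mul]
      _ = (-c) ^ (k + 2) * ((-(c + 1) / c) ^ (k + 2) - T * (-(c + 1) / c) - T) := by rw [h1]
      _ = (-c * (-(c + 1) / c)) ^ (k + 2) + (-c) ^ (k + 1) * (-c * (- T * (-(c + 1) / c) - T)) := by
          rw [mul_pow]; ring
      _ = (c + 1) ^ (k + 2) + (-c) ^ (k + 1) * (-T) := by
          congr 2
          · field_simp
          · field_simp
            ring
      _ = _ := by rw [neg_pow c]; ring
  have hfp : (∏ i, (((k : E) + 2) * x i ^ (k + 1) - T)) * ((-1) ^ (k + 1) * T) =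
      T ^ (k + 2) * ((c + 1) ^ (k + 2) + (-1) ^ k * c ^ (k + 1) * T) := by
    rw [← hprod, ← hlin, ← prod_mul_distrib]
    have h1 : ∀ i, (((k : E) + 2) * x i ^ (k + 1) - T) * x i = T * (c * x i + (c + 1)) := by
      intro i
      have h2 := hroot i
      rw [hc]
      linear_combination ((k : E) + 2) * h2
    rw [prod_congr rfl fun i _ => h1 i, prod_mul_distrib, prod_const, card_univ,
      Fintype.card_fin]
  obtain ⟨N, hN⟩ := AltDisc.exists_prod_erase x
  rw [← prod_congr rfl fun i _ => hder i] at hN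
  rw [hN] at hfp
  have hsq : ∀ M : ℕ, ((-1 : E) ^ M) * (-1) ^ M = 1 := fun M => by
    rw [← mul_pow]; norm_num
  refine ⟨(-1) ^ (N + k + 1) * ((k : ℚ) + 2) ^ (k + 2),
    (-1) ^ (N + k + 1) * ((-1) ^ k * ((k : ℚ) + 1) ^ (k + 1)), by positivity, by positivity, ?_⟩
  have hfin : (Matrix.vandermonde x).det ^ 2 =
      (-1) ^ (N + k + 1) * (T ^ (k + 1) * ((c + 1) ^ (k + 2) + (-1) ^ k * c ^ (k + 1) * T)) := by
    have h1 : T * (Matrix.vandermonde x).det ^ 2 = T * ((-1) ^ (N + k + 1) *
        (T ^ (k + 1) * ((c + 1) ^ (k + 2) + (-1) ^ k * c ^ (k + 1) * T))) := by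
      have h2 := hsq (N + k + 1)
      calc T * (Matrix.vandermonde x).det ^ 2
          = ((-1) ^ (N + k + 1) * (-1) ^ (N + k + 1)) * (T * (Matrix.vandermonde x).det ^ 2) := by
            rw [h2, one_mul]
        _ = (-1) ^ (N + k + 1) *
            ((-1) ^ N * (Matrix.vandermonde x).det ^ 2 * ((-1) ^ (k + 1) * T)) := by
            rw [show N + k + 1 = N + (k + 1) by ring, pow_add]; ring
        _ = _ := by rw [hfp]; ring
    exact mul_left_cancel₀ hT0 h1
  rw [hfin, hc]
  simp only [map_mul, map_pow, map_add, Rat.cast_mul, Rat.cast_pow, Rat.cast_add, Rat.cast_neg,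
    Rat.cast_one, Rat.cast_natCast, Rat.cast_ofNat, map_neg, map_one, map_natCast, map_ofNat, ← hT]
  rw [show k + 2 - 1 = k + 1 by omega]
  ring

end Fermat.Agent.Cor.HIT
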