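import Fermat.Agent.Corollaries.HIT.AltDefs

/-!
# `A_n` is a Galois group over `ℚ`: the group-theoretic step

`E/K` Galois, generated by `n` distinct elements `x_i` which are permuted by the Galois group, of
order `n!`. Then `Gal(E/K(δ))`, `δ` the Vandermonde determinant of the `x_i`, is the alternating
group.
-/

set_option autoImplicit false

open Polynomial

namespace Fermat.Agent.Cor.HIT

theorem altGrpStmt : AltGrpStmt := by
  intro K E _ _ _ _ _ _ n x hx hgen hperm hcard
  choose f hf using hperm
  have hinv : ∀ (σ : E ≃ₐ[K] E) i, f σ⁻¹ (f σ i) = i := fun σ i => by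
    apply hx
    rw [← hf, ← hf]
    exact σ.symm_apply_apply (x i)
  let Φ : (E ≃ₐ[K] E) →* Equiv.Perm (Fin n) :=
    { toFun := fun σ => ⟨f σ, f σ⁻¹, hinv σ, fun i => by
        have h1 := hinv σ⁻¹ i
        rwa [inv_inv] at h1⟩
      map_one' := by
        ext1 i
        apply hx
        change x (f 1 i) = x i
        rw [← hf]
        rfl
      map_mul' := fun σ τ => by
        ext1 i
        apply hx
        change x (f (σ * τ) i) = x (f σ (f τ i))
        rw [← hf, ← hf, ← hf]
        rfl }
  have hΦ : ∀ σ i, x (Φ σ i) = σ (x i) := fun σ i => (hf σ i).symm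
  -- injectivity
  have hinj : Function.Injective Φ := by
    rw [injective_iff_map_eq_one]
    intro σ hσ
    have h1 : (⊤ : IntermediateField K E) ≤ IntermediateField.fixedField Φ.ker := by
      rw [← hgen, IntermediateField.adjoin_le_iff]
      rintro _ ⟨i, rfl⟩
      refine (IntermediateField.mem_fixedField_iff _ _).mpr fun τ hτ => ?_
      rw [← hΦ, MonoidHom.mem_ker.mp hτ]
      rfl
    ext y
    exact (IntermediateField.mem_fixedField_iff _ _).mp (h1 (IntermediateField.mem_top (x := y))) σ
      (MonoidHom.mem_ker.mpr hσ)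
  have hbij : Function.Bijective Φ := by
    refine (Nat.bijective_iff_injective_and_card Φ).mpr ⟨hinj, ?_⟩
    rw [hcard, Nat.card_perm, Nat.card_fin]
  -- the Vandermonde determinant
  set δ : E := (Matrix.vandermonde x).det with hδ
  have hδ0 : δ ≠ 0 := Matrix.det_vandermonde_ne_zero_iff.mpr hx
  have hσδ : ∀ σ : E ≃ₐ[K] E, σ δ = ((Equiv.Perm.sign (Φ σ) : ℤ) : E) * δ := by
    intro σ
    have h1 : (Matrix.vandermonde x).map σ = (Matrix.vandermonde x).submatrix (Φ σ) id := by
      ext i j
      rw [Matrix.map_apply, Matrix.submatrix_apply, Matrix.vandermonde_apply,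
        Matrix.vandermonde_apply, map_pow, hΦ]
      rfl
    rw [hδ, ← Matrix.det_permute, ← h1]
    exact (RingHom.map_det (σ : E →+* E) _)
  have hfix : (IntermediateField.adjoin K {δ}).fixingSubgroup =
      (alternatingGroup (Fin n)).comap Φ := by
    apply le_antisymm
    · intro σ hσ
      have h1 : σ δ = δ := (IntermediateField.mem_fixingSubgroup_iff _ _).mp hσ δ
        (IntermediateField.mem_adjoin_simple_self K δ)
      rw [hσδ] at h1
      rw [Subgroup.mem_comap, Equiv.Perm.mem_alternatingGroup]
      rcases Int.units_eq_one_or (Equiv.Perm.sign (Φ σ)) with h2 | h2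
      · exact h2
      · exfalso
        rw [h2] at h1
        have h3 : (2 : E) * δ = 0 := by
          push_cast at h1
          linear_combination -h1
        have : CharZero E := charZero_of_injective_algebraMap (algebraMap K E).injective
        exact hδ0 ((mul_eq_zero.mp h3).resolve_left two_ne_zero)
    · rw [← IntermediateField.le_iff_le, IntermediateField.adjoin_le_iff]
      rintro _ rfl
      refine (IntermediateField.mem_fixedField_iff _ _).mpr fun σ hσ => ?_
      rw [Subgroup.mem_comap, Equiv.Perm.mem_alternatingGroup] at hσ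
      rw [hσδ, hσ]
      simp
  -- the isomorphism
  let e : (E ≃ₐ[K] E) ≃* Equiv.Perm (Fin n) := MulEquiv.ofBijective Φ hbij
  have hmap : (IntermediateField.adjoin K {δ}).fixingSubgroup.map (e : (E ≃ₐ[K] E) →* _) =
      alternatingGroup (Fin n) := by
    rw [hfix]
    exact Subgroup.map_comap_eq_self_of_surjective hbij.2 _
  exact ⟨((IntermediateField.fixingSubgroupEquiv (IntermediateField.adjoin K {δ})).symm.trans
    (e.subgroupMap _)).trans (MulEquiv.subgroupCongr hmap)⟩

end Fermat.Agent.Cor.HIT
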