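import Fermat.Agent.Corollaries.HIT.AltDefs

/-!
# `A_n` is a Galois group over `ℚ` (Hilbert 1892): the fixed field of `A_n` is rational

If `δ² = X^m (a + b X)` with `a, b ∈ ℚ` not zero then `ℚ(X)(δ) = ℚ(v)` with `v = δ/X^k` for
`m = 2k` (`X = (v² - a)/b`) and `v = δ/X^(k + 1)` for `m = 2k + 1` (`X = a/(v² - b)`).
-/

set_option autoImplicit false

open Polynomial IntermediateField

namespace Fermat.Agent.Cor.HIT.AltRat

variable {F E : Type} [Field F] [Field E] [Algebra F E] [Algebra (RatFunc F) E]

/-- `F(X)(δ) = F(v)` if `X ∈ F(v)`, `δ ∈ F(v)` and `v ∈ F(X)(δ)`. -/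
theorem nonempty_of (hc : ∀ c : F, algebraMap (RatFunc F) E (RatFunc.C c) = algebraMap F E c)
    {δ v : E} (h1 : v ∈ (RatFunc F)⟮δ⟯) (h2 : δ ∈ F⟮v⟯)
    (h3 : algebraMap (RatFunc F) E RatFunc.X ∈ F⟮v⟯) :
    Nonempty (RatFunc F ≃+* (RatFunc F)⟮δ⟯) := by
  have htr : Transcendental F v := by
    intro hv
    have halg : Algebra.IsAlgebraic F F⟮v⟯ :=
      IntermediateField.isAlgebraic_adjoin_simple hv.isIntegral
    have hx : IsAlgebraic F (algebraMap (RatFunc F) E RatFunc.X) := by
      have := halg.isAlgebraic (⟨_, h3⟩ : F⟮v⟯)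
      exact (isAlgebraic_algebraMap_iff (A := E) (algebraMap F⟮v⟯ E).injective).mpr this
    obtain ⟨p, hp0, hp⟩ := hx
    refine RatFunc.transcendental_X (K := F) ⟨p, hp0, ?_⟩
    apply (algebraMap (RatFunc F) E).injective
    rw [map_zero, ← hp, aeval_def, aeval_def, hom_eval₂]
    congr 1
    ext c
    exact hc c
  have hS : (F⟮v⟯).toSubfield = ((RatFunc F)⟮δ⟯).toSubfield := by
    apply le_antisymm
    · rw [IntermediateField.adjoin_toSubfield, Subfield.closure_le]
      rintro x (⟨q, rfl⟩ | hx)
      · rw [← hc q]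
        exact IntermediateField.algebraMap_mem _ _
      · rw [Set.mem_singleton_iff.mp hx]
        exact h1
    · rw [IntermediateField.adjoin_toSubfield, Subfield.closure_le]
      rintro x (⟨q, rfl⟩ | hx)
      · have hpoly : ∀ p : F[X], algebraMap (RatFunc F) E (algebraMap F[X] (RatFunc F) p) ∈
            (F⟮v⟯).toSubfield := by
          intro p
          induction p using Polynomial.induction_on' with
          | add p q hp hq => rw [map_add, map_add]; exact add_mem hp hq
          | monomial n c =>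
            rw [← Polynomial.C_mul_X_pow_eq_monomial, map_mul, map_mul, map_pow, map_pow,
              RatFunc.algebraMap_X, RatFunc.algebraMap_C, hc]
            exact mul_mem (IntermediateField.algebraMap_mem _ _) (pow_mem h3 n)
        rw [← RatFunc.num_div_denom q, map_div₀]
        exact div_mem (hpoly _) (hpoly _)
      · rw [Set.mem_singleton_iff.mp hx]
        exact h2
  exact ⟨(RatFunc.algEquivOfTranscendental v htr).toRingEquiv.trans (RingEquiv.subfieldCongr hS)⟩

end Fermat.Agent.Cor.HIT.AltRat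

namespace Fermat.Agent.Cor.HIT

open AltRat in
theorem altRatStmt : AltRatStmt := by
  intro E _ _ δ m a b ha hb h
  have : CharZero E := charZero_of_injective_algebraMap (algebraMap (RatFunc ℚ) E).injective
  have hc : ∀ c : ℚ, algebraMap (RatFunc ℚ) E (RatFunc.C c) = algebraMap ℚ E c := by
    intro c
    rw [← RingHom.comp_apply]
    exact congrArg (fun f : ℚ →+* E => f c) (Subsingleton.elim _ _)
  set X := algebraMap (RatFunc ℚ) E RatFunc.X with hX
  have hX0 : X ≠ 0 := by
    rw [hX, Ne, map_eq_zero]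
    exact RatFunc.X_ne_zero
  have h' : δ ^ 2 = X ^ m * ((a : E) + b * X) := by
    rw [h]
    simp [hX]
  have hbE : (b : E) ≠ 0 := by exact_mod_cast hb
  have haE : (a : E) ≠ 0 := by exact_mod_cast ha
  have hδ : δ ∈ (RatFunc ℚ)⟮δ⟯ := IntermediateField.mem_adjoin_simple_self _ _
  have hXm : X ∈ (RatFunc ℚ)⟮δ⟯ := IntermediateField.algebraMap_mem _ _
  rcases Nat.even_or_odd' m with ⟨k, rfl | rfl⟩
  · set v := δ / X ^ k with hv
    have hvm : v ∈ ℚ⟮v⟯ := IntermediateField.mem_adjoin_simple_self _ _
    have hv2 : v ^ 2 = a + b * X := by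
      rw [hv, div_pow, h', ← pow_mul, mul_comm k 2]
      field_simp
    have hXv : X ∈ ℚ⟮v⟯ := by
      have : X = (v ^ 2 - a) / b := by
        rw [hv2]; field_simp; ring
      rw [this]
      exact div_mem (sub_mem (pow_mem hvm 2) (SubfieldClass.ratCast_mem _ a))
        (SubfieldClass.ratCast_mem _ b)
    refine nonempty_of hc (v := v) (div_mem hδ (pow_mem hXm k)) ?_ hXv
    have : δ = v * X ^ k := by rw [hv]; field_simp
    rw [this]
    exact mul_mem hvm (pow_mem hXv k)
  · set v := δ / X ^ (k + 1) with hv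
    have hvm : v ∈ ℚ⟮v⟯ := IntermediateField.mem_adjoin_simple_self _ _
    have hv2 : v ^ 2 * X = a + b * X := by
      rw [hv, div_pow, h', ← pow_mul]
      field_simp
      ring
    have hne : v ^ 2 - b ≠ 0 := by
      intro h0
      apply haE
      have : v ^ 2 = b := sub_eq_zero.mp h0
      rw [this] at hv2
      linear_combination -hv2
    have hXv : X ∈ ℚ⟮v⟯ := by
      have : X = a / (v ^ 2 - b) := by
        rw [eq_div_iff hne]
        linear_combination hv2
      rw [this]
      exact div_mem (SubfieldClass.ratCast_mem _ a)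
        (sub_mem (pow_mem hvm 2) (SubfieldClass.ratCast_mem _ b))
    refine nonempty_of hc (v := v) (div_mem hδ (pow_mem hXm (k + 1))) ?_ hXv
    have : δ = v * X ^ (k + 1) := by rw [hv]; field_simp
    rw [this]
    exact mul_mem hvm (pow_mem hXv (k + 1))

end Fermat.Agent.Cor.HIT
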