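import Fermat.Agent.Corollaries.HIT.AltDefs
import Fermat.Agent.Corollaries.InvGal.Radicals

/-!
# The Galois group of `Xⁿ - tX - t` over `ℚ(t)` has `n!` elements

`E` a finite Galois extension of `ℚ(t)`, `t₀ ∈ ℚ`: there is a number field `L` of degree at most
`[E : ℚ(t)]` such that every monic `F ∈ ℚ[t][X]` which splits in `E` splits in `L` at `t = t₀`
(`exists_residue_ratFunc`).
-/

set_option autoImplicit false

open Polynomial Ideal
open scoped Pointwise

namespace Fermat.Agent.Cor.HIT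

attribute [local instance] Ideal.Quotient.field in
/-- `G` finite, acting on `B` with invariants `A`, `ψ : A → ℚ` a surjective homomorphism with kernel
`P`, `Q` a maximal ideal of `B` above `P`: the degree of `B/Q` over `ℚ` is at most `#G`. -/
theorem exists_residue {A B G : Type} [CommRing A] [CommRing B] [Algebra A B] [Group G]
    [Finite G] [MulSemiringAction G B] [SMulCommClass G A B] [Algebra.IsInvariant A B G]
    (P : Ideal A) (Q : Ideal B) [P.IsPrime] [Q.IsMaximal] [Q.LiesOver P] (ψ : A →+* ℚ)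
    (hψ : Function.Surjective ψ) (hker : RingHom.ker ψ = P) :
    ∃ (L : Type) (_ : Field L) (_ : NumberField L) (π : B →+* L),
      (∀ a, π (algebraMap A B a) = algebraMap ℚ L (ψ a)) ∧ Module.finrank ℚ L ≤ Nat.card G := by
  have hker2 : RingHom.ker ψ ≤ RingHom.ker (algebraMap A (B ⧸ Q)) := by
    intro a ha
    rw [hker, Ideal.over_def Q P, Ideal.mem_comap] at ha
    rw [RingHom.mem_ker, IsScalarTower.algebraMap_apply A B (B ⧸ Q)]
    exact Ideal.Quotient.eq_zero_iff_mem.mpr ha
  let θ : ℚ →+* (B ⧸ Q) := ψ.liftOfSurjective hψ ⟨algebraMap A (B ⧸ Q), hker2⟩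
  have hθ : ∀ a, θ (ψ a) = algebraMap A (B ⧸ Q) a := fun a =>
    ψ.liftOfSurjective_comp_apply hψ ⟨algebraMap A (B ⧸ Q), hker2⟩ a
  have hchar : CharZero (B ⧸ Q) := charZero_of_injective_ringHom θ.injective
  have hθ' : θ = algebraMap ℚ (B ⧸ Q) := Subsingleton.elim _ _
  let φ : (A ⧸ P) →+* ℚ := Ideal.Quotient.lift P ψ fun a ha => by
    rwa [← hker, RingHom.mem_ker] at ha
  have hφ : ∀ a, φ (Ideal.Quotient.mk P a) = ψ a := fun a => Ideal.Quotient.lift_mk _ _ _
  have hφinj : Function.Injective φ := by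
    rw [injective_iff_map_eq_zero]
    intro x hx
    obtain ⟨a, rfl⟩ := Ideal.Quotient.mk_surjective x
    rw [hφ] at hx
    rw [Ideal.Quotient.eq_zero_iff_mem, ← hker]
    exact hx
  let _ : Algebra (A ⧸ P) ℚ := φ.toAlgebra
  have : FaithfulSMul (A ⧸ P) ℚ := (faithfulSMul_iff_algebraMap_injective (A ⧸ P) ℚ).mpr hφinj
  have : IsFractionRing (A ⧸ P) ℚ := IsFractionRing.of_field (A ⧸ P) ℚ fun q => by
    obtain ⟨a, ha⟩ := hψ q
    refine ⟨Ideal.Quotient.mk P a, 1, ?_⟩
    rw [map_one, div_one]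
    exact (ha.symm.trans (hφ a).symm)
  have : IsScalarTower (A ⧸ P) ℚ (B ⧸ Q) := IsScalarTower.of_algebraMap_eq fun x => by
    obtain ⟨a, rfl⟩ := Ideal.Quotient.mk_surjective x
    have h1 : algebraMap (A ⧸ P) ℚ (Ideal.Quotient.mk P a) = ψ a := hφ a
    rw [h1, ← hθ', hθ]
    rfl
  have hnormal : Normal ℚ (B ⧸ Q) := Ideal.IsFractionRing.normal G P Q ℚ (B ⧸ Q)
  have hgal : IsGalois ℚ (B ⧸ Q) := { __ := hnormal }
  have hfin : Module.Finite ℚ (B ⧸ Q) := Ideal.IsFractionRing.finite_of_isInvariant G P Q ℚ (B ⧸ Q)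
  have hnf : NumberField (B ⧸ Q) := { to_charZero := hchar, to_finiteDimensional := hfin }
  refine ⟨B ⧸ Q, inferInstance, hnf, Ideal.Quotient.mk Q, fun a => ?_, ?_⟩
  · rw [← hθ', hθ]
    rfl
  · have hsurj := IsFractionRing.stabilizerHom_surjective G P Q ℚ (B ⧸ Q)
    have hcard : Nat.card ((B ⧸ Q) ≃ₐ[ℚ] (B ⧸ Q)) = Module.finrank ℚ (B ⧸ Q) :=
      IsGalois.card_aut_eq_finrank ℚ (B ⧸ Q)
    rw [← hcard]
    exact (Nat.card_le_card_of_surjective _ hsurj).trans (Subgroup.card_le_card_group _)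

/-- Specialization of a Galois extension of `ℚ(t)` at `t = t₀`. -/
theorem exists_residue_ratFunc (E : Type) [Field E] [Algebra (RatFunc ℚ) E]
    [FiniteDimensional (RatFunc ℚ) E] [IsGalois (RatFunc ℚ) E] (t₀ : ℚ) :
    ∃ (L : Type) (_ : Field L) (_ : NumberField L),
      Module.finrank ℚ L ≤ Nat.card (E ≃ₐ[RatFunc ℚ] E) ∧ ∀ F : ℚ[X][X], F.Monic →
        ((F.map (algebraMap ℚ[X] (RatFunc ℚ))).map (algebraMap (RatFunc ℚ) E)).Splits →
        ((F.map (evalRingHom t₀)).map (algebraMap ℚ L)).Splits := by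
  let _ : Algebra ℚ[X] E := ((algebraMap (RatFunc ℚ) E).comp (algebraMap ℚ[X] (RatFunc ℚ))).toAlgebra
  have : IsScalarTower ℚ[X] (RatFunc ℚ) E := IsScalarTower.of_algebraMap_eq fun _ => rfl
  have hinj : Function.Injective (algebraMap ℚ[X] E) :=
    (algebraMap (RatFunc ℚ) E).injective.comp (IsFractionRing.injective ℚ[X] (RatFunc ℚ))
  have : FaithfulSMul ℚ[X] E := (faithfulSMul_iff_algebraMap_injective ℚ[X] E).mpr hinj
  have halg : Algebra.IsAlgebraic ℚ[X] E := by
    have := IsLocalization.isAlgebraic (RatFunc ℚ) (nonZeroDivisors ℚ[X])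
    exact Algebra.IsAlgebraic.trans ℚ[X] (RatFunc ℚ) E
  have : IsFractionRing (integralClosure ℚ[X] E) E :=
    integralClosure.isFractionRing_of_finite_extension (RatFunc ℚ) E
  let _ : MulSemiringAction (E ≃ₐ[RatFunc ℚ] E) (integralClosure ℚ[X] E) :=
    IsIntegralClosure.MulSemiringAction ℚ[X] (RatFunc ℚ) E (integralClosure ℚ[X] E)
  have : SMulCommClass (E ≃ₐ[RatFunc ℚ] E) ℚ[X] (integralClosure ℚ[X] E) :=
    ⟨fun σ a b => map_smul (galRestrict ℚ[X] (RatFunc ℚ) E (integralClosure ℚ[X] E) σ) a b⟩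
  have : Algebra.IsInvariant ℚ[X] (integralClosure ℚ[X] E) (E ≃ₐ[RatFunc ℚ] E) :=
    Algebra.isInvariant_of_isGalois ℚ[X] (RatFunc ℚ) E (integralClosure ℚ[X] E)
  have hsurj : Function.Surjective (evalRingHom t₀ : ℚ[X] →+* ℚ) := fun q => ⟨C q, by simp⟩
  have hmax : (RingHom.ker (evalRingHom t₀ : ℚ[X] →+* ℚ)).IsMaximal :=
    RingHom.ker_isMaximal_of_surjective _ hsurj
  obtain ⟨Q, hQ, hQover⟩ := Ideal.exists_maximal_ideal_liesOver_of_isIntegral
    (S := integralClosure ℚ[X] E) (RingHom.ker (evalRingHom t₀ : ℚ[X] →+* ℚ))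
  have hprime := hmax.isPrime
  have := Finite.of_fintype (E ≃ₐ[RatFunc ℚ] E)
  obtain ⟨L, hL, hN, π, hπ, hdeg⟩ := exists_residue (G := E ≃ₐ[RatFunc ℚ] E)
    (RingHom.ker (evalRingHom t₀ : ℚ[X] →+* ℚ)) Q (evalRingHom t₀) hsurj rfl
  refine ⟨L, hL, hN, hdeg, fun F hF hs => ?_⟩
  have h1 : (F.map (algebraMap ℚ[X] (integralClosure ℚ[X] E))).Splits := by
    refine Splits.of_splits_map_of_injective (i := algebraMap (integralClosure ℚ[X] E) E)
      (FaithfulSMul.algebraMap_injective _ _) ?_ fun a ha => ?_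
    · rw [Polynomial.map_map]
      rw [Polynomial.map_map] at hs
      exact hs
    · have hint : IsIntegral ℚ[X] a := by
        refine ⟨F, hF, ?_⟩
        have h2 := isRoot_of_mem_roots ha
        rw [Polynomial.map_map, IsRoot.def, eval_map] at h2
        exact h2
      exact ⟨⟨a, hint⟩, rfl⟩
  have h2 := h1.map π
  rw [Polynomial.map_map] at h2 ⊢
  have h3 : π.comp (algebraMap ℚ[X] (integralClosure ℚ[X] E)) =
      (algebraMap ℚ L).comp (evalRingHom t₀) := RingHom.ext hπ
  rwa [h3] at h2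

theorem altSymStmt : AltSymStmt := by
  intro n hn
  set E := (altPoly n).SplittingField with hE
  have hnormal : Normal (RatFunc ℚ) E := inferInstance
  have hchar : CharZero (RatFunc ℚ) := inferInstance
  have hgal : IsGalois (RatFunc ℚ) E := { __ := hnormal }
  refine le_antisymm ?_ ?_
  · -- at most `n!`
    have hfin : Finite (Equiv.Perm ((altPoly n).rootSet E)) := inferInstance
    have : Fact (((altPoly n).map (algebraMap (RatFunc ℚ) E)).Splits) :=
      ⟨SplittingField.splits _⟩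
    have h1 : Nat.card ((altPoly n).Gal) ≤ Nat.card (Equiv.Perm ((altPoly n).rootSet E)) :=
      Nat.card_le_card_of_injective _ (Gal.galActionHom_injective (altPoly n) E)
    have h0 : (altPoly n).natDegree ≤ n := by
      have h3 : altPoly n = X ^ n - (C (RatFunc.X : RatFunc ℚ) * X + C (RatFunc.X : RatFunc ℚ)) := by
        rw [altPoly]
        ring
      rw [h3]
      refine (natDegree_sub_le _ _).trans (max_le (natDegree_X_pow_le n) ?_)
      exact natDegree_linear_le.trans (by omega)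
    have h2 : Nat.card ((altPoly n).rootSet E) ≤ n := by
      rw [Nat.card_coe_set_eq]
      exact (ncard_rootSet_le _ _).trans h0
    rw [Nat.card_perm] at h1
    exact h1.trans (Nat.factorial_le h2)
  · obtain ⟨L, hL, hN, hdeg, hsp⟩ := exists_residue_ratFunc E 1
    refine le_trans ?_ hdeg
    let F : ℚ[X][X] := X ^ n - C (X : ℚ[X]) * X - C (X : ℚ[X])
    have hF : F.Monic := by
      have h0 : F = X ^ n - (C (X : ℚ[X]) * X + C (X : ℚ[X])) := by ring
      rw [h0]
      exact monic_X_pow_sub (lt_of_le_of_lt degree_linear_le (by exact_mod_cast hn))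
    have hF1 : F.map (algebraMap ℚ[X] (RatFunc ℚ)) = altPoly n := by
      simp [F, altPoly, RatFunc.algebraMap_X]
    have hF2 : F.map (evalRingHom 1) = X ^ n - X - 1 := by
      simp [F]
    have h1 := hsp F hF (by
      rw [hF1]
      exact SplittingField.splits _)
    rw [hF2] at h1
    have h2 : Module.finrank ℚ (X ^ n - X - 1 : ℚ[X]).SplittingField ≤ Module.finrank ℚ L :=
      LinearMap.finrank_le_finrank_of_injective
        (f := (SplittingField.lift (X ^ n - X - 1 : ℚ[X]) h1).toLinearMap)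
        (SplittingField.lift (X ^ n - X - 1 : ℚ[X]) h1).injective
    refine le_trans ?_ h2
    have hsep : (X ^ n - X - 1 : ℚ[X]).Separable := by
      have := InvGal.Sym.irreducible_pol (n := n) hn
      exact this.separable
    rw [← Gal.card_of_separable hsep]
    obtain ⟨e⟩ := nonempty_gal_mulEquiv hn
    rw [Nat.card_congr e.toEquiv, Nat.card_perm, Nat.card_eq_fintype_card, Fintype.card_fin]

end Fermat.Agent.Cor.HIT
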