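import Fermat.Agent.Corollaries.HIT.AltFinal
import Fermat.Agent.Corollaries.HIT.AltSym
import Fermat.Agent.Corollaries.HIT.AltDisc
import Fermat.Agent.Corollaries.HIT.AltRat
import Fermat.Agent.Corollaries.HIT.AltGrp

/-!
# The alternating groups are Galois groups over `ℚ` (Hilbert 1892)

`exists_galois_alternatingGroup`: for every `n` there is a Galois number field `L` with
`Gal(L/ℚ) ≅ A_n`. Hilbert's irreducibility theorem (`HIT.Galois`) is used over the field of
rational functions `ℚ(t)(δ)`, `δ² = ± disc (Xⁿ - tX - t)`.
-/

set_option autoImplicit false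

namespace Fermat.Agent.Cor.HIT

theorem altStmt : AltStmt := altStmt_of altSymStmt altDiscStmt altRatStmt altGrpStmt

/-- **Hilbert (1892)**: every alternating group is the Galois group of a number field over `ℚ`. -/
theorem exists_galois_alternatingGroup (n : ℕ) :
    ∃ (L : Type) (_ : Field L) (_ : NumberField L), IsGalois ℚ L ∧
      Nonempty ((L ≃ₐ[ℚ] L) ≃* alternatingGroup (Fin n)) := altStmt n

end Fermat.Agent.Cor.HIT
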