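import Mathlib

/-!
# `A_n` is a Galois group over `ℚ` (Hilbert 1892): the cut

`f = Xⁿ - tX - t` over `K = ℚ(t)`, `E` its splitting field, `x 0, …, x (n - 1)` the roots,
`δ = ∏_{i < j} (x j - x i)`.

(S) `#Gal(E/K) = n!`, because `Xⁿ - X - 1` (`t = 1`) has the group `S_n` over `ℚ`;
(D) `δ² = t^(n - 1) (a + b t)`, `a, b ∈ ℚ` not zero;
(R) so `K(δ)` is a field of rational functions in one variable;
(G) `Gal(E/K(δ)) ≅ A_n`; (F) Hilbert's theorem over `K(δ)`.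
-/

set_option autoImplicit false

open Polynomial

namespace Fermat.Agent.Cor.HIT

/-- `Xⁿ - tX - t` over `ℚ(t)` -/
noncomputable def altPoly (n : ℕ) : (RatFunc ℚ)[X] :=
  X ^ n - C (RatFunc.X : RatFunc ℚ) * X - C (RatFunc.X : RatFunc ℚ)

/-- (S) -/
def AltSymStmt : Prop := ∀ n : ℕ, 2 ≤ n →
  Nat.card ((altPoly n).SplittingField ≃ₐ[RatFunc ℚ] (altPoly n).SplittingField) = n.factorial

/-- (D) -/
def AltDiscStmt : Prop := ∀ (K E : Type) [Field K] [CharZero K] [Field E] [Algebra K E]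
  (n : ℕ) (t : K) (x : Fin n → E), 2 ≤ n → t ≠ 0 →
  (X ^ n - C t * X - C t : K[X]).map (algebraMap K E) = ∏ i, (X - C (x i)) →
  ∃ a b : ℚ, a ≠ 0 ∧ b ≠ 0 ∧ (Matrix.vandermonde x).det ^ 2 =
    algebraMap K E (t ^ (n - 1) * ((a : K) + (b : K) * t))

/-- (R) -/
def AltRatStmt : Prop := ∀ (E : Type) [Field E] [Algebra (RatFunc ℚ) E] (δ : E) (m : ℕ) (a b : ℚ),
  a ≠ 0 → b ≠ 0 → δ ^ 2 = algebraMap (RatFunc ℚ) E
    ((RatFunc.X : RatFunc ℚ) ^ m * ((a : RatFunc ℚ) + (b : RatFunc ℚ) * RatFunc.X)) →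
  Nonempty (RatFunc ℚ ≃+* IntermediateField.adjoin (RatFunc ℚ) {δ})

/-- (G) -/
def AltGrpStmt : Prop := ∀ (K E : Type) [Field K] [CharZero K] [Field E] [Algebra K E]
  [FiniteDimensional K E] [IsGalois K E] (n : ℕ) (x : Fin n → E), Function.Injective x →
  IntermediateField.adjoin K (Set.range x) = ⊤ → (∀ (σ : E ≃ₐ[K] E) (i : Fin n), ∃ j, σ (x i) = x j) →
  Nat.card (E ≃ₐ[K] E) = n.factorial →
  Nonempty ((E ≃ₐ[IntermediateField.adjoin K {(Matrix.vandermonde x).det}] E) ≃*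
    alternatingGroup (Fin n))

/-- (F) -/
def AltStmt : Prop := ∀ n : ℕ, ∃ (L : Type) (_ : Field L) (_ : NumberField L), IsGalois ℚ L ∧
  Nonempty ((L ≃ₐ[ℚ] L) ≃* alternatingGroup (Fin n))

end Fermat.Agent.Cor.HIT
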