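import Fermat.Agent.Corollaries.HIT.Galois
import Fermat.Agent.Corollaries.HIT.AltDefs

/-!
# `A_n` is a Galois group over `ℚ` (Hilbert 1892): the assembly

`altStmt_of`: the statements (S), (D), (R), (G) of `AltDefs` imply that every alternating group is
the Galois group of a number field over `ℚ`.
-/

set_option autoImplicit false

open Polynomial

namespace Fermat.Agent.Cor.HIT

/-- Hilbert's theorem over a field isomorphic to `ℚ(t)`. -/
theorem exists_galois_of_equiv (M E : Type) [Field M] [Field E] [Algebra M E]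
    [FiniteDimensional M E] [IsGalois M E] (ι : RatFunc ℚ ≃+* M) :
    ∃ (L : Type) (_ : Field L) (_ : NumberField L), IsGalois ℚ L ∧
      Nonempty ((L ≃ₐ[ℚ] L) ≃* (E ≃ₐ[M] E)) := by
  let _ : Algebra (RatFunc ℚ) M := ι.toRingHom.toAlgebra
  let _ : Algebra (RatFunc ℚ) E := ((algebraMap M E).comp ι.toRingHom).toAlgebra
  have : IsScalarTower (RatFunc ℚ) M E := IsScalarTower.of_algebraMap_eq fun _ => rfl
  have : FiniteDimensional (RatFunc ℚ) M :=
    Module.Finite.of_surjective (Algebra.linearMap (RatFunc ℚ) M) ι.surjective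
  have : FiniteDimensional (RatFunc ℚ) E := FiniteDimensional.trans (RatFunc ℚ) M E
  have : IsGalois (RatFunc ℚ) E := IsGalois.of_equiv_equiv (F := M) (E := E)
    (f := ι.symm) (g := RingEquiv.refl E) (by
      ext m
      change algebraMap M E (ι (ι.symm m)) = algebraMap M E m
      rw [RingEquiv.apply_symm_apply])
  obtain ⟨L, hL, hN, hG, ⟨e⟩⟩ := exists_galois E
  refine ⟨L, hL, hN, hG, ⟨e.trans ?_⟩⟩
  exact
    { toFun := fun f => AlgEquiv.ofRingEquiv (f := f.toRingEquiv) fun m => by
        have h1 := f.commutes (ι.symm m)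
        have h2 : algebraMap (RatFunc ℚ) E (ι.symm m) = algebraMap M E m :=
          congrArg (algebraMap M E) (ι.apply_symm_apply m)
        rw [h2] at h1
        exact h1
      invFun := fun f => f.restrictScalars (RatFunc ℚ)
      left_inv := fun f => AlgEquiv.ext fun _ => rfl
      right_inv := fun f => AlgEquiv.ext fun _ => rfl
      map_mul' := fun f g => AlgEquiv.ext fun _ => rfl }

theorem monic_altPoly {n : ℕ} (hn : 2 ≤ n) : (altPoly n).Monic := by
  have h3 : altPoly n = X ^ n - (C (RatFunc.X : RatFunc ℚ) * X + C (RatFunc.X : RatFunc ℚ)) := by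
    rw [altPoly]
    ring
  rw [h3]
  exact monic_X_pow_sub (lt_of_le_of_lt degree_linear_le (by exact_mod_cast hn))

theorem natDegree_altPoly {n : ℕ} (hn : 2 ≤ n) : (altPoly n).natDegree = n := by
  have h3 : altPoly n = X ^ n - (C (RatFunc.X : RatFunc ℚ) * X + C (RatFunc.X : RatFunc ℚ)) := by
    rw [altPoly]
    ring
  rw [h3, natDegree_sub_eq_left_of_natDegree_lt, natDegree_X_pow]
  rw [natDegree_X_pow]
  exact lt_of_le_of_lt natDegree_linear_le (by omega)

theorem altStmt_of (hS : AltSymStmt) (hD : AltDiscStmt) (hR : AltRatStmt) (hG : AltGrpStmt) :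
    AltStmt := by
  intro n
  rcases Nat.lt_or_ge n 2 with hn | hn
  · have h1 : Subsingleton (Equiv.Perm (Fin n)) := by
      have : Subsingleton (Fin n) := by
        rw [Fin.subsingleton_iff_le_one]
        omega
      infer_instance
    refine ⟨ℚ, inferInstance, inferInstance, IsGalois.self ℚ,
      ⟨MulEquiv.ofBijective (1 : (ℚ ≃ₐ[ℚ] ℚ) →* alternatingGroup (Fin n)) ⟨?_, ?_⟩⟩⟩
    · intro a b _
      exact AlgEquiv.ext fun z => (a.commutes z).trans (b.commutes z).symm
    · intro b
      exact ⟨1, Subsingleton.elim _ _⟩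
  classical
  set E := (altPoly n).SplittingField with hE
  have hnormal : Normal (RatFunc ℚ) E := inferInstance
  have hchar : CharZero (RatFunc ℚ) := inferInstance
  have hgal : IsGalois (RatFunc ℚ) E := { __ := hnormal }
  have hcard := hS n hn
  -- the roots are distinct
  obtain ⟨s, hs⟩ : ∃ s, s = ((altPoly n).map (algebraMap (RatFunc ℚ) E)).roots := ⟨_, rfl⟩
  have hsplit : ((altPoly n).map (algebraMap (RatFunc ℚ) E)).Splits := SplittingField.splits _
  have hmonic : ((altPoly n).map (algebraMap (RatFunc ℚ) E)).Monic := (monic_altPoly hn).map _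
  have hscard : Multiset.card s = n := by
    rw [hs, ← hsplit.natDegree_eq_card_roots, natDegree_map, natDegree_altPoly hn]
  have hsset : (altPoly n).rootSet E = (s.toFinset : Set E) := by
    rw [hs]
    rfl
  have hrs : Nat.card ((altPoly n).rootSet E) = s.toFinset.card := by
    rw [hsset, Nat.card_coe_set_eq, Set.ncard_coe_finset]
  have hle : n.factorial ≤ (s.toFinset.card).factorial := by
    have : Fact (((altPoly n).map (algebraMap (RatFunc ℚ) E)).Splits) := ⟨hsplit⟩
    have h1 : Nat.card ((altPoly n).Gal) ≤ Nat.card (Equiv.Perm ((altPoly n).rootSet E)) :=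
      Nat.card_le_card_of_injective _ (Gal.galActionHom_injective (altPoly n) E)
    rw [Nat.card_perm, hrs] at h1
    rw [← hcard]
    exact h1
  have hcs : s.toFinset.card = n := by
    refine le_antisymm ((Multiset.toFinset_card_le s).trans hscard.le) ?_
    by_contra hlt
    push Not at hlt
    rcases Nat.eq_zero_or_pos s.toFinset.card with h0 | h0
    · rw [h0] at hle
      have h1 : 2 ≤ n.factorial := (Nat.self_le_factorial n).trans' hn
      rw [Nat.factorial_zero] at hle
      omega
    · exact absurd hle (not_le.mpr ((Nat.factorial_lt h0).mpr hlt))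
  have hnodup : s.Nodup := by
    rw [← Multiset.toFinset_card_eq_card_iff_nodup, hcs, hscard]
  obtain ⟨e⟩ : Nonempty (Fin n ≃ s.toFinset) := ⟨(s.toFinset.equivFinOfCardEq hcs).symm⟩
  let x : Fin n → E := fun i => (e i : E)
  have hxinj : Function.Injective x := fun i j h => e.injective (Subtype.ext h)
  have hprod : (altPoly n).map (algebraMap (RatFunc ℚ) E) = ∏ i, (X - C (x i)) := by
    rw [hsplit.eq_prod_roots_of_monic hmonic, ← hs]
    have h1 : ∏ i, (X - C (x i)) = ∏ a : s.toFinset, (X - C (a : E)) :=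
      e.prod_comp fun a : s.toFinset => (X - C (a : E) : E[X])
    rw [h1, Finset.prod_coe_sort s.toFinset fun a => (X - C a : E[X]), Finset.prod,
      Multiset.toFinset_val, Multiset.dedup_eq_self.mpr hnodup]
  have hrange : Set.range x = (altPoly n).rootSet E := by
    rw [hsset]
    ext a
    constructor
    · rintro ⟨i, rfl⟩
      exact (e i).2
    · intro ha
      exact ⟨e.symm ⟨a, ha⟩, by simp [x]⟩
  have htop : IntermediateField.adjoin (RatFunc ℚ) (Set.range x) = ⊤ := by
    rw [hrange, eq_top_iff]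
    intro y _
    have h1 : y ∈ Algebra.adjoin (RatFunc ℚ) ((altPoly n).rootSet E) := by
      rw [SplittingField.adjoin_rootSet]
      trivial
    exact IntermediateField.algebra_adjoin_le_adjoin _ _ h1
  have hperm : ∀ (σ : E ≃ₐ[RatFunc ℚ] E) (i : Fin n), ∃ j, σ (x i) = x j := by
    intro σ i
    have h1 : x i ∈ (altPoly n).rootSet E := by
      rw [← hrange]
      exact ⟨i, rfl⟩
    have h2 : σ (x i) ∈ (altPoly n).rootSet E := by
      rw [mem_rootSet] at h1 ⊢
      refine ⟨h1.1, ?_⟩
      have h3 := aeval_algHom_apply (σ : E →ₐ[RatFunc ℚ] E) (x i) (altPoly n)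
      rw [h1.2, map_zero] at h3
      exact h3
    rw [← hrange] at h2
    obtain ⟨j, hj⟩ := h2
    exact ⟨j, hj.symm⟩
  obtain ⟨a, b, ha, hb, hδ⟩ := hD (RatFunc ℚ) E n RatFunc.X x hn RatFunc.X_ne_zero hprod
  obtain ⟨ι⟩ := hR E (Matrix.vandermonde x).det (n - 1) a b ha hb hδ
  obtain ⟨g⟩ := hG (RatFunc ℚ) E n x hxinj htop hperm hcard
  obtain ⟨L, hL, hN, hGL, ⟨e'⟩⟩ := exists_galois_of_equiv
    (IntermediateField.adjoin (RatFunc ℚ) {(Matrix.vandermonde x).det}) E ι
  exact ⟨L, hL, hN, hGL, ⟨e'.trans g⟩⟩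

end Fermat.Agent.Cor.HIT
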