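import Fermat.Agent.Corollaries.HIT.Alt
import Fermat.Agent.Corollaries.InvGal.SymA

/-!
# `A_m × S_{n₁} × ⋯ × S_{n_k} × A` is a Galois group over `ℚ`
-/

set_option autoImplicit false

namespace Fermat.Agent.Cor.HIT

/-- `A_m × S_{n₁} × ⋯ × S_{n_k} × A` is a Galois group over `ℚ`, `A` a finite abelian group. -/
theorem exists_galois_alternatingGroup_pi_perm (m k : ℕ) (n : Fin k → ℕ) (A : Type) [CommGroup A]
    [Finite A] : ∃ (L : Type) (_ : Field L) (_ : NumberField L) (_ : IsGalois ℚ L),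
      Nonempty ((L ≃ₐ[ℚ] L) ≃*
        alternatingGroup (Fin m) × ((i : Fin k) → Equiv.Perm (Fin (n i))) × A) := by
  obtain ⟨L, h1, h2, h3, h4⟩ := exists_galois_alternatingGroup m
  exact exists_galois_prod_pi_perm ⟨L, h1, h2, h3, h4⟩ k n A

end Fermat.Agent.Cor.HIT
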