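import Fermat.Agent.Corollaries.HIT.Alt
import Fermat.Agent.Corollaries.InvGal.Prod

/-!
# `A_n × A` is a Galois group over `ℚ`, for `A` finite abelian
-/

set_option autoImplicit false

namespace Fermat.Agent.Cor.HIT

/-- `A_n × A` is a Galois group over `ℚ` for every `n` and every finite abelian group `A`. -/
theorem exists_galois_alternatingGroup_prod (n : ℕ) (A : Type*) [CommGroup A] [Finite A] :
    ∃ (L : Type) (_ : Field L) (_ : NumberField L) (_ : IsGalois ℚ L),
      Nonempty ((L ≃ₐ[ℚ] L) ≃* alternatingGroup (Fin n) × A) := by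
  obtain ⟨L, h1, h2, h3, h4⟩ := exists_galois_alternatingGroup n
  exact exists_galois_prod_comm ⟨L, h1, h2, h3, h4⟩ A

end Fermat.Agent.Cor.HIT
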