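import Fermat.Agent.Corollaries.HIT.Sparse

/-!
# Analytic functions with integral values at `1 / n`

`c` analytic at `0`: if `D n^e c(1/n)` is an integer for a set of `n` which is not sparse, then `c`
is a polynomial (`anaStmt_of`).
-/

set_option autoImplicit false

open Polynomial Filter Topology

namespace Fermat.Agent.Cor.HIT.Ana

/-- `d/dz (v(1/z)) = (T v)(1/z)` -/
noncomputable def T (v : ℝ → ℝ) : ℝ → ℝ := fun s => -s ^ 2 * deriv v s

/-- analytic near `0`, zero at `0`, not zero near `0` -/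
def Good (r : ℝ) (v : ℝ → ℝ) : Prop :=
  AnalyticOnNhd ℝ v (Metric.ball 0 r) ∧ v 0 = 0 ∧ ¬ ∀ᶠ s in 𝓝 (0 : ℝ), v s = 0

theorem Good.T {r : ℝ} (hr : 0 < r) {v : ℝ → ℝ} (h : Good r v) : Good r (T v) := by
  obtain ⟨ha, h0, hne⟩ := h
  refine ⟨?_, by simp [Ana.T], ?_⟩
  · intro s hs
    have h1 : AnalyticAt ℝ (fun s : ℝ => -s ^ 2) s := (analyticAt_id.pow 2).neg
    exact h1.mul (ha.deriv s hs)
  · intro hT
    apply hne
    have hmem : (0 : ℝ) ∈ Metric.ball (0 : ℝ) r := Metric.mem_ball_self hr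
    have hd : AnalyticAt ℝ (deriv v) 0 := ha.deriv 0 hmem
    have h1 : ∀ᶠ s in 𝓝[≠] (0 : ℝ), deriv v s = 0 := by
      filter_upwards [hT.filter_mono nhdsWithin_le_nhds, self_mem_nhdsWithin] with s hs hs0
      have hs0' : s ≠ 0 := hs0
      have h2 : -s ^ 2 ≠ 0 := neg_ne_zero.mpr (pow_ne_zero 2 hs0')
      exact (mul_eq_zero.mp hs).resolve_left h2
    have h2 : ∀ᶠ s in 𝓝 (0 : ℝ), deriv v s = 0 :=
      hd.frequently_zero_iff_eventually_zero.mp h1.frequently
    obtain ⟨ε, hε, hball⟩ := Metric.eventually_nhds_iff_ball.mp h2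
    have hmin : 0 < min ε r := lt_min hε hr
    filter_upwards [Metric.ball_mem_nhds (0 : ℝ) hmin] with s hs
    have h3 := Metric.isOpen_ball.is_const_of_deriv_eq_zero (s := Metric.ball (0 : ℝ) (min ε r))
      (convex_ball _ _).isPreconnected
      (fun x hx => (ha x (Metric.ball_subset_ball (min_le_right _ _) hx)).differentiableAt.differentiableWithinAt)
      (fun x hx => hball x (Metric.ball_subset_ball (min_le_left _ _) hx)) hs
      (Metric.mem_ball_self hmin)
    rw [h3, h0]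

theorem Good.iter {r : ℝ} (hr : 0 < r) {v : ℝ → ℝ} (h : Good r v) (j : ℕ) :
    Good r (Ana.T^[j] v) := by
  induction j with
  | zero => exact h
  | succ j ih =>
    rw [Function.iterate_succ_apply']
    exact ih.T hr

theorem Good.hasDerivAt {r : ℝ} (hr : 0 < r) {v : ℝ → ℝ} (h : Good r v) {z : ℝ} (hz : 1 / r < z) :
    HasDerivAt (fun z : ℝ => v (1 / z)) (Ana.T v (1 / z)) z := by
  have hz0 : 0 < z := (one_div_pos.mpr hr).trans hz
  have hmem : 1 / z ∈ Metric.ball (0 : ℝ) r := by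
    rw [Metric.mem_ball, Real.dist_eq, sub_zero, abs_of_pos (one_div_pos.mpr hz0)]
    exact (one_div_lt hz0 hr).mpr hz
  have h1 := (h.1 _ hmem).differentiableAt.hasDerivAt
  have h2 : HasDerivAt (fun z : ℝ => 1 / z) (-(z ^ 2)⁻¹) z := by
    simpa only [one_div] using hasDerivAt_inv hz0.ne'
  have h3 := h1.comp z h2
  have h4 : Ana.T v (1 / z) = deriv v (1 / z) * -(z ^ 2)⁻¹ := by
    unfold Ana.T
    rw [one_div, inv_pow]
    ring
  rw [h4]
  exact h3

theorem Good.tendsto {r : ℝ} (hr : 0 < r) {v : ℝ → ℝ} (h : Good r v) :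
    Tendsto (fun z : ℝ => v (1 / z)) atTop (𝓝 0) := by
  have h1 : ContinuousAt v 0 := (h.1 0 (Metric.mem_ball_self hr)).continuousAt
  have h2 : Tendsto (fun z : ℝ => 1 / z) atTop (𝓝 0) := by
    simpa only [one_div] using tendsto_inv_atTop_zero
  have h3 := h1.tendsto.comp h2
  rwa [h.2.1] at h3

theorem Good.ne_zero {r : ℝ} (hr : 0 < r) {v : ℝ → ℝ} (h : Good r v) :
    ∀ᶠ z : ℝ in atTop, v (1 / z) ≠ 0 := by
  have h1 : ∀ᶠ s in 𝓝[≠] (0 : ℝ), v s ≠ 0 :=
    (h.1 0 (Metric.mem_ball_self hr)).eventually_eq_zero_or_eventually_ne_zero.resolve_left h.2.2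
  have h2 : Tendsto (fun z : ℝ => 1 / z) atTop (𝓝[≠] 0) := by
    refine tendsto_nhdsWithin_iff.mpr ⟨by simpa only [one_div] using tendsto_inv_atTop_zero, ?_⟩
    filter_upwards [eventually_gt_atTop (0 : ℝ)] with z hz
    exact (one_div_pos.mpr hz).ne'
  exact h2.eventually h1

/-- Taylor's formula: `c = P + s^k w`. -/
theorem exists_taylor {c : ℝ → ℝ} (hc : AnalyticAt ℝ c 0) (k : ℕ) :
    ∃ (P : ℝ[X]) (w : ℝ → ℝ), AnalyticAt ℝ w 0 ∧ P.degree < k ∧
      ∀ s, c s = P.eval s + s ^ k * w s := by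
  induction k with
  | zero => exact ⟨0, c, hc, by simp, fun s => by simp⟩
  | succ k ih =>
    obtain ⟨P, w, hw, hP, h⟩ := ih
    obtain ⟨p, hp⟩ := hw
    refine ⟨P + C (w 0) * X ^ k, dslope w 0, ⟨_, hp.has_fpower_series_dslope_fslope⟩, ?_, ?_⟩
    · refine (degree_add_le _ _).trans_lt (max_lt ?_ ?_)
      · exact hP.trans (by exact_mod_cast Nat.lt_succ_self k)
      · exact (degree_C_mul_X_pow_le k (w 0)).trans_lt (by exact_mod_cast Nat.lt_succ_self k)
    · intro s
      have h1 : s * dslope w 0 s = w s - w 0 := by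
        have := sub_smul_dslope w 0 s
        rwa [sub_zero, smul_eq_mul] at this
      rw [h s, eval_add, eval_mul, eval_C, eval_pow, eval_X, pow_succ, mul_assoc, h1]
      ring

theorem anaStmt_of (hD : DorgeStmt) : AnaStmt := by
  intro c D e hD0 hc
  obtain ⟨P, w, hw, hP, hcs⟩ := exists_taylor hc (e + 1)
  set v : ℝ → ℝ := fun s => s * w s with hv
  have hva : AnalyticAt ℝ v 0 := analyticAt_id.mul hw
  by_cases hev : ∀ᶠ s in 𝓝 (0 : ℝ), v s = 0
  · left
    refine ⟨P, ?_⟩
    filter_upwards [hev] with s hs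
    have h1 : s ^ (e + 1) * w s = s ^ e * v s := by
      rw [hv]
      ring
    rw [hcs s, h1, hs, mul_zero, add_zero]
  · right
    obtain ⟨r, hr, hball⟩ := Metric.eventually_nhds_iff_ball.mp hva.eventually_analyticAt
    have hgood : Good r v := ⟨fun x hx => hball x hx, by simp [hv], hev⟩
    -- the polynomial part
    set Q : ℝ[X] := ∑ i ∈ Finset.range (e + 1), C (P.coeff i) * X ^ (e - i) with hQ
    have hQdeg : Q.natDegree < e + 1 := by
      refine Nat.lt_succ_of_le (natDegree_sum_le_of_forall_le _ _ fun i _ => ?_)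
      exact (natDegree_C_mul_X_pow_le _ _).trans (Nat.sub_le _ _)
    have hPnat : P.natDegree < e + 1 := by
      by_cases hP0 : P = 0
      · rw [hP0, natDegree_zero]
        omega
      · exact (natDegree_lt_iff_degree_lt hP0).mpr hP
    have hQP : ∀ z : ℝ, z ≠ 0 → Q.eval z = z ^ e * P.eval (1 / z) := by
      intro z hz
      rw [hQ, eval_finsetSum, eval_eq_sum_range' hPnat, Finset.mul_sum]
      refine Finset.sum_congr rfl fun i hi => ?_
      have hi' : i ≤ e := Nat.lt_succ_iff.mp (Finset.mem_range.mp hi)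
      rw [eval_mul, eval_C, eval_pow, eval_X]
      have h1 : z ^ e = z ^ (e - i) * z ^ i := by rw [← pow_add, Nat.sub_add_cancel hi']
      rw [h1, one_div, inv_pow]
      field_simp
    set G : ℕ → ℝ → ℝ := fun j z =>
      (D : ℝ) * (derivative^[j] Q).eval z + (D : ℝ) * (Ana.T^[j] v) (1 / z) with hG
    have hsp := hD (e + 1) G (1 / r) (fun j _ z hz => by
      have h1 : HasDerivAt (fun z : ℝ => (derivative^[j] Q).eval z)
          ((derivative^[j + 1] Q).eval z) z := by
        rw [Function.iterate_succ_apply']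
        exact (derivative^[j] Q).hasDerivAt z
      have h2 : HasDerivAt (fun z : ℝ => (Ana.T^[j] v) (1 / z)) ((Ana.T^[j + 1] v) (1 / z)) z := by
        rw [Function.iterate_succ_apply']
        exact (hgood.iter hr j).hasDerivAt hr hz
      exact (h1.const_mul (D : ℝ)).add (h2.const_mul (D : ℝ))) ?_ ?_
    · refine hsp.mono_of 1 fun n hn => ?_
      rintro ⟨a, ha⟩
      refine ⟨a, ?_⟩
      have hn0 : (n : ℝ) ≠ 0 := by
        have : 0 < n := hn
        positivity
      rw [← ha]
      simp only [hG, Function.iterate_zero, id_eq, hv]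
      rw [hQP _ hn0, hcs]
      have h5 : (1 / (n : ℝ)) ^ (e + 1) = 1 / (n : ℝ) * (1 / (n : ℝ) ^ e) := by
        rw [pow_succ, one_div_pow]
        ring
      have h6 : (n : ℝ) ^ e * (1 / (n : ℝ) ^ e) = 1 := by
        rw [mul_one_div, div_self (pow_ne_zero _ hn0)]
      rw [h5]
      linear_combination (-((D : ℝ) * (1 / (n : ℝ)) * w (1 / (n : ℝ)))) * h6
    · have h1 : ∀ z, G (e + 1) z = (D : ℝ) * (Ana.T^[e + 1] v) (1 / z) := by
        intro z
        simp only [hG]
        rw [iterate_derivative_eq_zero hQdeg, eval_zero, mul_zero, zero_add]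
      have h2 := ((hgood.iter hr (e + 1)).tendsto hr).const_mul (D : ℝ)
      rw [mul_zero] at h2
      exact h2.congr fun z => (h1 z).symm
    · filter_upwards [(hgood.iter hr (e + 1)).ne_zero hr] with z hz
      have h1 : G (e + 1) z = (D : ℝ) * (Ana.T^[e + 1] v) (1 / z) := by
        simp only [hG]
        rw [iterate_derivative_eq_zero hQdeg, eval_zero, mul_zero, zero_add]
      rw [h1]
      exact mul_ne_zero (by positivity) hz

end Fermat.Agent.Cor.HIT.Ana
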