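import Fermat.Agent.Corollaries.HIT.Defs

/-!
# Analytic branches of the roots

If `f(0, X)` has the same degree as `f` and no multiple roots, the roots of `f(s, X)` are analytic
functions of `s` near `0`, by the implicit function theorem.
-/

set_option autoImplicit false

open Polynomial Filter Topology
open scoped ContDiff

namespace Fermat.Agent.Cor.HIT

namespace Branch

/-- A polynomial of degree at most `d` with `d` distinct roots. -/
theorem eq_of_roots {ι : Type*} [Fintype ι] (p : ℂ[X]) (hp : p.natDegree ≤ Fintype.card ι)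
    (r : ι → ℂ) (hr : Function.Injective r) (h : ∀ i, p.eval (r i) = 0) :
    p = C (p.coeff (Fintype.card ι)) * ∏ i, (X - C (r i)) := by
  classical
  set q : ℂ[X] := ∏ i, (X - C (r i)) with hq
  have hqm : q.Monic := monic_prod_of_monic _ _ fun i _ => monic_X_sub_C (r i)
  have hqd : q.natDegree = Fintype.card ι := by
    rw [hq, natDegree_prod_of_monic _ _ fun i _ => monic_X_sub_C (r i)]
    simp
  rw [← sub_eq_zero]
  refine Polynomial.eq_zero_of_degree_lt_of_eval_index_eq_zero (s := Finset.univ) (v := r) hr.injOn ?_ ?_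
  · rw [Finset.card_univ, degree_lt_iff_coeff_zero]
    intro m hm
    rw [coeff_sub, coeff_C_mul]
    rcases hm.eq_or_lt with h1 | h1
    · rw [← h1, ← hqd, hqm.coeff_natDegree, mul_one, sub_self]
    · rw [coeff_eq_zero_of_natDegree_lt (hp.trans_lt h1),
        coeff_eq_zero_of_natDegree_lt (hqd.trans_lt h1), mul_zero, sub_zero]
  · intro i _
    rw [eval_sub, h i, eval_mul, hq, eval_prod,
      Finset.prod_eq_zero (Finset.mem_univ i) (by simp), mul_zero, sub_zero]

/-- the polynomial as a function of two variables -/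
noncomputable def Phi (f : ℚ[X][X]) (u : ℝ × ℂ) : ℂ := (sp f u.1).eval u.2

theorem coeff_sp (f : ℚ[X][X]) (s : ℂ) (k : ℕ) :
    (sp f s).coeff k = eval₂ (algebraMap ℚ ℂ) s (f.coeff k) := by
  rw [sp, coeff_map, coe_eval₂RingHom]

theorem natDegree_sp_le (f : ℚ[X][X]) (s : ℂ) : (sp f s).natDegree ≤ f.natDegree :=
  natDegree_map_le

theorem Phi_eq (f : ℚ[X][X]) (u : ℝ × ℂ) :
    Phi f u = ∑ k ∈ Finset.range (f.natDegree + 1),
      (∑ j ∈ Finset.range ((f.coeff k).natDegree + 1),
        (algebraMap ℚ ℂ ((f.coeff k).coeff j)) * (u.1 : ℂ) ^ j) * u.2 ^ k := by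
  rw [Phi, eval_eq_sum_range' (Nat.lt_succ_of_le (natDegree_sp_le f _))]
  refine Finset.sum_congr rfl fun k _ => ?_
  rw [coeff_sp, eval₂_eq_sum_range]

theorem contDiff_Phi (f : ℚ[X][X]) : ContDiff ℝ ω (Phi f) := by
  have h : Phi f = fun u => ∑ k ∈ Finset.range (f.natDegree + 1),
      (∑ j ∈ Finset.range ((f.coeff k).natDegree + 1),
        (algebraMap ℚ ℂ ((f.coeff k).coeff j)) * (u.1 : ℂ) ^ j) * u.2 ^ k := funext (Phi_eq f)
  rw [h]
  refine ContDiff.sum fun k _ => ContDiff.mul (ContDiff.sum fun j _ => ?_) (contDiff_snd.pow k)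
  exact contDiff_const.mul ((Complex.ofRealCLM.contDiff.comp contDiff_fst).pow j)

theorem isInvertible (f : ℚ[X][X]) (s : ℝ) (a : ℂ) (h : (derivative (sp f s)).eval a ≠ 0) :
    (fderiv ℝ (Phi f) (s, a) ∘L .inr ℝ ℝ ℂ).IsInvertible := by
  let e : ℂ ≃L[ℝ] ℂ :=
    (ContinuousLinearEquiv.unitsEquivAut ℂ (Units.mk0 _ h)).restrictScalars ℝ
  refine ⟨e, ?_⟩
  have h1 : HasFDerivAt (fun x : ℂ => Phi f (s, x)) (fderiv ℝ (Phi f) (s, a) ∘L .inr ℝ ℝ ℂ) a :=
    (((contDiff_Phi f).differentiable (by simp)) (s, a)).hasFDerivAt.comp a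
      (hasFDerivAt_prodMk_right s a)
  have h2 : HasFDerivAt (fun x : ℂ => Phi f (s, x)) (e : ℂ →L[ℝ] ℂ) a := by
    have h3 := ((sp f s).hasDerivAt a).hasFDerivAt.restrictScalars ℝ
    refine h3.congr_fderiv ?_
    ext x
    simp [e]
  exact h2.unique h1

end Branch

open Branch in
/-- **The roots of `f(s, X)` are analytic functions of `s`.** -/
theorem branchStmt : BranchStmt := by
  classical
  intro f hdeg hsep
  set p : ℂ[X] := sp f 0 with hp
  have hp0 : p ≠ 0 := hsep.ne_zero
  have hcard : p.roots.toFinset.card = f.natDegree := by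
    rw [Multiset.toFinset_card_of_nodup (nodup_roots hsep),
      ← (IsAlgClosed.splits p).natDegree_eq_card_roots, hdeg]
  let a : Fin f.natDegree → ℂ := fun i => ((p.roots.toFinset.equivFinOfCardEq hcard).symm i).1
  have ha : Function.Injective a := Subtype.val_injective.comp (Equiv.injective _)
  have hroot : ∀ i, p.eval (a i) = 0 := fun i => by
    have h1 := ((p.roots.toFinset.equivFinOfCardEq hcard).symm i).2
    rw [Multiset.mem_toFinset, mem_roots hp0] at h1
    exact h1
  have hder : ∀ i, (derivative (sp f ((0 : ℝ) : ℂ))).eval (a i) ≠ 0 := fun i => by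
    rw [Complex.ofReal_zero]
    exact hsep.eval₂_derivative_ne_zero (RingHom.id ℂ) (hroot i)
  have hω : (ω : ℕ∞ω) ≠ 0 := by simp
  have hc : ∀ i, ContDiffAt ℝ ω (Phi f) ((0 : ℝ), a i) := fun i => (contDiff_Phi f).contDiffAt
  let y : Fin f.natDegree → ℝ → ℂ := fun i =>
    (hc i).implicitFunction hω (isInvertible f 0 (a i) (hder i))
  have hy0 : ∀ i, y i 0 = a i := fun i =>
    (hc i).implicitFunction_apply_self hω (isInvertible f 0 (a i) (hder i))
  have hyan : ∀ i, AnalyticAt ℝ (y i) 0 := fun i =>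
    ((hc i).contDiffAt_implicitFunction hω (isInvertible f 0 (a i) (hder i))).analyticAt
  have hyroot : ∀ i, ∀ᶠ s : ℝ in 𝓝 0, (sp f s).eval (y i s) = 0 := fun i => by
    filter_upwards [(hc i).eventually_apply_implicitFunction hω
      (isInvertible f 0 (a i) (hder i))] with s hs
    have h1 : Phi f ((0 : ℝ), a i) = 0 := by
      rw [Phi]
      simp only [Complex.ofReal_zero]
      exact hroot i
    rw [h1] at hs
    exact hs
  have hyinj : ∀ᶠ s : ℝ in 𝓝 0, Function.Injective (fun i => y i s) := by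
    have h1 : ∀ i j, i ≠ j → ∀ᶠ s : ℝ in 𝓝 0, y i s ≠ y j s := fun i j hij => by
      have h2 := ((hyan i).continuousAt.sub (hyan j).continuousAt).eventually_ne (y := 0)
        (sub_ne_zero.mpr (by rw [hy0, hy0]; exact fun h => hij (ha h)))
      filter_upwards [h2] with s hs
      exact sub_ne_zero.mp hs
    have h2 : ∀ᶠ s : ℝ in 𝓝 0, ∀ i j, i ≠ j → y i s ≠ y j s :=
      eventually_all.mpr fun i => eventually_all.mpr fun j => by
        by_cases hij : i = j
        · exact Eventually.of_forall fun s h => absurd hij h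
        · filter_upwards [h1 i j hij] with s hs _ using hs
    filter_upwards [h2] with s hs i j hij
    by_contra hne
    exact hs i j hne hij
  refine ⟨y, hyan, ?_⟩
  filter_upwards [hyinj, eventually_all.mpr hyroot] with s h1 h2
  refine ⟨h1, ?_⟩
  have h3 := eq_of_roots (sp f s) (by rw [Fintype.card_fin]; exact natDegree_sp_le f _) _ h1 h2
  rw [Fintype.card_fin, coeff_sp] at h3
  exact h3

end Fermat.Agent.Cor.HIT
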