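import Fermat.Agent.Corollaries.HIT.Defs

/-!
# Sparse sets of natural numbers
-/

set_option autoImplicit false

open Polynomial Filter Topology

namespace Fermat.Agent.Cor.HIT

theorem Sparse.mono_of {A B : Set ℕ} (hB : Sparse B) (N : ℕ) (h : ∀ n ≥ N, n ∈ A → n ∈ B) :
    Sparse A := by
  obtain ⟨m, hm⟩ := hB
  refine ⟨m, fun L => ?_⟩
  obtain ⟨n₀, hn₀⟩ := hm L
  refine ⟨max n₀ N, fun n hn => ?_⟩
  refine le_trans (Set.ncard_le_ncard ?_ ?_) (hn₀ n ((le_max_left _ _).trans hn))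
  · rintro x ⟨hxA, hx⟩
    exact ⟨h x (((le_max_right _ _).trans hn).trans hx.1) hxA, hx⟩
  · exact (Set.finite_Ico _ _).subset Set.inter_subset_right

theorem Sparse.mono {A B : Set ℕ} (hB : Sparse B) (h : A ⊆ B) : Sparse A :=
  hB.mono_of 0 fun _ _ hn => h hn

theorem Sparse.union {A B : Set ℕ} (hA : Sparse A) (hB : Sparse B) : Sparse (A ∪ B) := by
  obtain ⟨m, hm⟩ := hA
  obtain ⟨m', hm'⟩ := hB
  refine ⟨m + m', fun L => ?_⟩
  obtain ⟨n₀, hn₀⟩ := hm L
  obtain ⟨n₁, hn₁⟩ := hm' L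
  refine ⟨max n₀ n₁, fun n hn => ?_⟩
  rw [Set.union_inter_distrib_right]
  exact (Set.ncard_union_le _ _).trans (Nat.add_le_add (hn₀ n ((le_max_left _ _).trans hn))
    (hn₁ n ((le_max_right _ _).trans hn)))

theorem sparse_of_finite {A : Set ℕ} (hA : A.Finite) : Sparse A := by
  obtain ⟨N, hN⟩ := hA.bddAbove
  refine ⟨0, fun L => ⟨N + 1, fun n hn => ?_⟩⟩
  rw [Nat.le_zero, Set.ncard_eq_zero ((Set.finite_Ico _ _).subset Set.inter_subset_right)]
  ext x
  simp only [Set.mem_inter_iff, Set.mem_Ico, Set.mem_empty_iff_false, iff_false, not_and, not_lt]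
  intro hx hnx
  have := hN hx
  omega

theorem sparse_biUnion {ι : Type*} (s : Finset ι) {A : ι → Set ℕ} (h : ∀ i ∈ s, Sparse (A i)) :
    Sparse (⋃ i ∈ s, A i) := by
  classical
  induction s using Finset.induction_on with
  | empty => simpa using sparse_of_finite (Set.finite_empty)
  | insert a s _ ih =>
    rw [Finset.set_biUnion_insert]
    exact (h a (Finset.mem_insert_self _ _)).union
      (ih fun i hi => h i (Finset.mem_insert_of_mem hi))

/-- The complement of a sparse set is infinite. -/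
theorem Sparse.infinite_compl {A : Set ℕ} (hA : Sparse A) : Aᶜ.Infinite := by
  obtain ⟨m, hm⟩ := hA
  obtain ⟨n₀, hn₀⟩ := hm (m + 1)
  refine Set.infinite_of_not_bddAbove ?_
  rintro ⟨N, hN⟩
  have h1 := hn₀ (max n₀ (N + 1)) (le_max_left _ _)
  have h2 : A ∩ Set.Ico (max n₀ (N + 1)) (max n₀ (N + 1) + (m + 1)) =
      Set.Ico (max n₀ (N + 1)) (max n₀ (N + 1) + (m + 1)) := by
    refine Set.inter_eq_right.mpr fun x hx => ?_
    by_contra hxA
    have h3 := hN hxA
    have h4 := (le_max_right n₀ (N + 1)).trans hx.1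
    omega
  rw [h2] at h1
  have h3 : (Set.Ico (max n₀ (N + 1)) (max n₀ (N + 1) + (m + 1))).ncard = m + 1 := by
    rw [← Finset.coe_Ico, Set.ncard_coe_finset, Nat.card_Ico]
    omega
  omega

end Fermat.Agent.Cor.HIT
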