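import Fermat.Agent.Corollaries.HIT.Defs2
import Fermat.Agent.Corollaries.HIT.Sparse

/-!
# Hilbert's irreducibility theorem: the main argument

If `f(0, X)` is separable and has the same degree as `f`, the set of the `n` for which `f(1/n, X)`
is reducible is sparse.
-/

set_option autoImplicit false

open Polynomial Filter Topology

namespace Fermat.Agent.Cor.HIT.Core

theorem map_spQ (f : ℚ[X][X]) (q : ℚ) : (spQ f q).map (algebraMap ℚ ℂ) = sp f (q : ℂ) := by
  rw [spQ, sp, Polynomial.map_map]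
  congr 1
  ext
  · simp
  · simp

theorem analyticAt_eval₂ (p : ℚ[X]) :
    AnalyticAt ℝ (fun s : ℝ => eval₂ (algebraMap ℚ ℂ) (s : ℂ) p) 0 := by
  have hr : AnalyticAt ℝ (fun s : ℝ => (s : ℂ)) 0 := Complex.ofRealCLM.analyticAt 0
  have h : (fun s : ℝ => eval₂ (algebraMap ℚ ℂ) (s : ℂ) p) = fun s : ℝ =>
      ∑ k ∈ Finset.range (p.natDegree + 1), algebraMap ℚ ℂ (p.coeff k) * (s : ℂ) ^ k :=
    funext fun s => eval₂_eq_sum_range _ _
  rw [h]
  exact Finset.analyticAt_fun_sum _ fun k _ => analyticAt_const.mul (hr.pow k)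

theorem analyticAt_coeff {d : ℕ} {y : Fin d → ℝ → ℂ} (hy : ∀ i, AnalyticAt ℝ (y i) 0)
    (S : Finset (Fin d)) (j : ℕ) :
    AnalyticAt ℝ (fun s : ℝ => (∏ i ∈ S, (X - C (y i s))).coeff j) 0 := by
  classical
  induction S using Finset.induction_on generalizing j with
  | empty =>
    simp only [Finset.prod_empty]
    exact analyticAt_const
  | insert a S ha ih =>
    have h : (fun s : ℝ => (∏ i ∈ insert a S, (X - C (y i s))).coeff j) = fun s : ℝ =>
        ∑ x ∈ Finset.HasAntidiagonal.antidiagonal j, ((X : ℂ[X]).coeff x.1 - (if x.1 = 0 then y a s else 0)) *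
          (∏ i ∈ S, (X - C (y i s))).coeff x.2 := by
      funext s
      rw [Finset.prod_insert ha, coeff_mul]
      refine Finset.sum_congr rfl fun x _ => ?_
      rw [coeff_sub, coeff_C]
    rw [h]
    refine Finset.analyticAt_fun_sum _ fun x _ => (analyticAt_const.sub ?_).mul (ih x.2)
    by_cases hx : x.1 = 0
    · simp only [hx, if_true]
      exact hy a
    · simp only [hx, if_false]
      exact analyticAt_const

theorem cast_one_div (n : ℕ) : (((1 / (n : ℝ) : ℝ)) : ℂ) = (((1 / (n : ℚ)) : ℚ) : ℂ) := by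
  push_cast
  rfl

theorem eval₂_eq (Q : ℚ[X]) (s : ℝ) : (((Q.map (algebraMap ℚ ℝ)).eval s : ℝ) : ℂ) =
    eval₂ (algebraMap ℚ ℂ) (s : ℂ) Q := by
  have h := Polynomial.hom_eval₂ Q (algebraMap ℚ ℝ) Complex.ofRealHom s
  rw [eval_map]
  refine h.trans ?_
  congr 1

theorem tendsto_one_div : Tendsto (fun n : ℕ => 1 / (n : ℝ)) atTop (𝓝[≠] 0) := by
  refine tendsto_nhdsWithin_iff.mpr ⟨tendsto_one_div_atTop_nhds_zero_nat, ?_⟩
  filter_upwards [eventually_gt_atTop 0] with n hn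
  have : (0 : ℝ) < n := by exact_mod_cast hn
  exact (one_div_pos.mpr this).ne'

theorem coreStmt_of (hB : BranchStmt) (hA : AnaStmt) (hG : GaussStmt) (hR : RatStmt)
    (hAlg : AlgStmt) (hDen : DenStmt) (hFac : FacStmt) : CoreStmt := by
  classical
  intro f hirr hpos hdeg hsep
  obtain ⟨y, hya, hy⟩ := hB f hdeg hsep
  obtain ⟨D, e, hD, hden⟩ := hDen f
  set a : ℝ → ℂ := fun s => eval₂ (algebraMap ℚ ℂ) (s : ℂ) f.leadingCoeff with ha
  have haa : AnalyticAt ℝ a 0 := analyticAt_eval₂ _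
  have hcoeff : ∀ s : ℂ, (sp f s).coeff f.natDegree = eval₂ (algebraMap ℚ ℂ) s f.leadingCoeff := by
    intro s
    rw [sp, coeff_map, coe_eval₂RingHom]
    rfl
  have ha0 : a 0 ≠ 0 := by
    have h1 : a 0 = (sp f 0).leadingCoeff := by
      rw [leadingCoeff, hdeg, hcoeff, ha]
      simp only [Complex.ofReal_zero]
    rw [h1, Ne, leadingCoeff_eq_zero]
    intro h2
    rw [h2, natDegree_zero] at hdeg
    omega
  have hane : ∀ᶠ s : ℝ in 𝓝 0, a s ≠ 0 := haa.continuousAt.eventually_ne ha0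
  have htend : Tendsto (fun n : ℕ => 1 / (n : ℝ)) atTop (𝓝 0) :=
    tendsto_one_div_atTop_nhds_zero_nat
  obtain ⟨N₀, hN₀⟩ := eventually_atTop.mp (htend.eventually (hy.and hane))
  -- the leading coefficient
  have hdegn : ∀ n ≥ N₀, (spQ f (1 / n)).natDegree = f.natDegree ∧
      ((spQ f (1 / n)).leadingCoeff : ℂ) = a (1 / (n : ℝ)) := by
    intro n hn
    obtain ⟨⟨-, hprod⟩, hne⟩ := hN₀ n hn
    have h1 : (spQ f (1 / n)).map (algebraMap ℚ ℂ) = sp f ((1 / (n : ℝ) : ℝ) : ℂ) := by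
      rw [map_spQ, cast_one_div]
    have h2 : (sp f ((1 / (n : ℝ) : ℝ) : ℂ)).natDegree = f.natDegree := by
      rw [hprod, natDegree_C_mul hne, natDegree_finsetProd_X_sub_C_eq_card, Finset.card_univ,
        Fintype.card_fin]
    have h3 : (spQ f (1 / n)).natDegree = f.natDegree := by
      rw [← h2, ← h1, natDegree_map]
    refine ⟨h3, ?_⟩
    have h4 := hcoeff ((1 / (n : ℝ) : ℝ) : ℂ)
    rw [← h1, coeff_map, ← h3, coeff_natDegree] at h4
    exact h4
  let A : Finset (Fin f.natDegree) → Set ℕ := fun S => {n : ℕ | ∃ g : ℚ[X], g.Monic ∧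
    g ∣ spQ f (1 / n) ∧ g.map (algebraMap ℚ ℂ) = ∏ i ∈ S, (X - C (y i (1 / (n : ℝ))))}
  -- the reducible specializations
  have hcover : ∀ n ≥ N₀, n ∈ {n : ℕ | ¬ (Irreducible (spQ f (1 / n)) ∧
      (spQ f (1 / n)).natDegree = f.natDegree)} →
      n ∈ ⋃ S ∈ (Finset.univ : Finset (Finset (Fin f.natDegree))).filter
        (fun S => S.Nonempty ∧ S ≠ Finset.univ), A S := by
    intro n hn hred
    obtain ⟨⟨hinj, hprod⟩, hne⟩ := hN₀ n hn
    have hdn := (hdegn n hn).1
    have hred' : ¬ Irreducible (spQ f (1 / n)) := fun h => hred ⟨h, hdn⟩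
    have hnu : ¬ IsUnit (spQ f (1 / n)) := fun h => by
      have := natDegree_eq_zero_of_isUnit h
      omega
    obtain ⟨g, h, hgh, hg, hh⟩ : ∃ g h, spQ f (1 / n) = g * h ∧ ¬ IsUnit g ∧ ¬ IsUnit h := by
      by_contra hcon
      push Not at hcon
      refine hred' ⟨hnu, fun g h hgh => ?_⟩
      by_contra hcon2
      rw [not_or] at hcon2
      exact hcon2.2 (hcon g h hgh hcon2.1)
    have hq0 : spQ f (1 / n) ≠ 0 := fun h0 => by
      rw [h0, natDegree_zero] at hdn
      omega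
    have hg0 : g ≠ 0 := left_ne_zero_of_mul (hgh ▸ hq0)
    have hh0 : h ≠ 0 := right_ne_zero_of_mul (hgh ▸ hq0)
    have hposdeg : ∀ p : ℚ[X], p ≠ 0 → ¬ IsUnit p → 0 < p.natDegree := by
      intro p hp0 hp
      by_contra hcon
      apply hp
      rw [isUnit_iff_degree_eq_zero, degree_eq_natDegree hp0]
      have : p.natDegree = 0 := by omega
      rw [this]
      rfl
    have hgd := hposdeg g hg0 hg
    have hhd := hposdeg h hh0 hh
    have hsum : g.natDegree + h.natDegree = f.natDegree := by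
      rw [← hdn, hgh, natDegree_mul hg0 hh0]
    set G := g * C g.leadingCoeff⁻¹ with hGdef
    have hGm : G.Monic := monic_mul_leadingCoeff_inv hg0
    have hGd : G.natDegree = g.natDegree := natDegree_mul_leadingCoeff_inv g hg0
    have hGdvd : G ∣ spQ f (1 / n) := by
      refine ⟨C g.leadingCoeff * h, ?_⟩
      rw [hGdef, hgh]
      have h1 : (C g.leadingCoeff⁻¹ * C g.leadingCoeff : ℚ[X]) = 1 := by
        rw [← C_mul, inv_mul_cancel₀ (leadingCoeff_ne_zero.mpr hg0), C_1]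
      calc g * h = g * (C g.leadingCoeff⁻¹ * C g.leadingCoeff) * h := by rw [h1, mul_one]
        _ = g * C g.leadingCoeff⁻¹ * (C g.leadingCoeff * h) := by ring
    have hdvd : G.map (algebraMap ℚ ℂ) ∣ C (a (1 / (n : ℝ))) * ∏ i, (X - C (y i (1 / (n : ℝ)))) := by
      have h2 := Polynomial.map_dvd (algebraMap ℚ ℂ) hGdvd
      rw [map_spQ, ← cast_one_div, hprod] at h2
      exact h2
    obtain ⟨S, hS⟩ := hFac f.natDegree (fun i => y i (1 / (n : ℝ))) (a (1 / (n : ℝ)))
      (G.map (algebraMap ℚ ℂ)) hinj hne (hGm.map _) hdvd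
    have hScard : S.card = g.natDegree := by
      have h3 := congrArg natDegree hS
      rw [natDegree_map, natDegree_finsetProd_X_sub_C_eq_card, hGd] at h3
      exact h3.symm
    refine Set.mem_biUnion (x := S) ?_ ⟨G, hGm, hGdvd, hS⟩
    rw [Finset.mem_coe, Finset.mem_filter]
    refine ⟨Finset.mem_univ _, Finset.card_pos.mp (by omega), ?_⟩
    rintro rfl
    rw [Finset.card_univ, Fintype.card_fin] at hScard
    omega
  refine (sparse_biUnion _ fun S hS => ?_).mono_of N₀ hcover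
  obtain ⟨-, hSne, hSuniv⟩ := Finset.mem_filter.mp hS
  -- the coefficients
  set c : ℕ → ℝ → ℂ := fun j s => a s * (∏ i ∈ S, (X - C (y i s))).coeff j with hc
  have hca : ∀ j, AnalyticAt ℝ (c j) 0 := fun j => haa.mul (analyticAt_coeff hya S j)
  have hre : ∀ j, AnalyticAt ℝ (fun s => (c j s).re) 0 := fun j =>
    (Complex.reCLM.analyticAt _).comp (hca j)
  have him : ∀ j, AnalyticAt ℝ (fun s => (c j s).im) 0 := fun j =>
    (Complex.imCLM.analyticAt _).comp (hca j)
  have key : ∀ n ≥ max N₀ 1, n ∈ A S → ∀ j, ∃ q : ℚ, c j (1 / (n : ℝ)) = (q : ℂ) ∧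
      ∃ b : ℤ, (D : ℚ) * (n : ℚ) ^ e * q = b := by
    rintro n hn ⟨g, hgm, hgdvd, hgmap⟩ j
    have hn0 : N₀ ≤ n := (le_max_left _ _).trans hn
    have hn1 : n ≠ 0 := by
      have := (le_max_right N₀ 1).trans hn
      omega
    obtain ⟨h, hh⟩ := hgdvd
    obtain ⟨F, hF⟩ := hden n hn1
    have hq0 : spQ f (1 / n) ≠ 0 := fun h0 => by
      have hdn := (hdegn n hn0).1
      rw [h0, natDegree_zero] at hdn
      omega
    have hDn : (D : ℚ) * (n : ℚ) ^ e ≠ 0 := by
      have h1 : (D : ℚ) ≠ 0 := by exact_mod_cast hD.ne'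
      have h2 : (n : ℚ) ≠ 0 := by exact_mod_cast hn1
      exact mul_ne_zero h1 (pow_ne_zero _ h2)
    have hF0 : F ≠ 0 := by
      rintro rfl
      rw [Polynomial.map_zero] at hF
      exact (mul_ne_zero (C_ne_zero.mpr hDn) hq0) hF.symm
    obtain ⟨b, hb⟩ := hG F g (C ((D : ℚ) * (n : ℚ) ^ e) * h) hF0 hgm (by
      rw [hF, hh]
      ring) j
    have hlc : (F.leadingCoeff : ℚ) = (D : ℚ) * (n : ℚ) ^ e * (spQ f (1 / n)).leadingCoeff := by
      have h1 := congrArg leadingCoeff hF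
      rw [leadingCoeff_map_of_injective (RingHom.injective_int _), leadingCoeff_mul,
        leadingCoeff_C] at h1
      exact h1
    refine ⟨(spQ f (1 / n)).leadingCoeff * g.coeff j, ?_, b, ?_⟩
    · have h2 : (∏ i ∈ S, (X - C (y i (1 / (n : ℝ))))).coeff j = ((g.coeff j : ℚ) : ℂ) := by
        rw [← hgmap, coeff_map]
        rfl
      simp only [hc]
      rw [h2, ← (hdegn n hn0).2]
      push_cast
      rfl
    · rw [← hb, hlc]
      ring
  by_cases hfin : (A S).Finite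
  · exact sparse_of_finite hfin
  by_cases hex : ∃ j, Sparse {n : ℕ | ∃ b : ℤ, (D : ℝ) * (n : ℝ) ^ e * (c j (1 / n)).re = b}
  · obtain ⟨j, hj⟩ := hex
    refine hj.mono_of (max N₀ 1) fun n hn hnA => ?_
    obtain ⟨q, hq, b, hb⟩ := key n hn hnA j
    refine ⟨b, ?_⟩
    rw [hq, Complex.ratCast_re]
    exact_mod_cast congrArg (fun x : ℚ => (x : ℝ)) hb
  -- all coefficients are polynomials
  exfalso
  have hP : ∀ j, ∃ P : ℝ[X], ∀ᶠ s in 𝓝 (0 : ℝ), (c j s).re = P.eval s := fun j =>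
    (hA (fun s => (c j s).re) D e hD (hre j)).resolve_right fun h => hex ⟨j, h⟩
  have hinf : (A S).Infinite := hfin
  have hfreq : ∃ᶠ n : ℕ in atTop, n ∈ A S := Nat.frequently_atTop_iff_infinite.mpr hinf
  have hQ : ∀ j, ∃ Q : ℚ[X], ∀ᶠ s : ℝ in 𝓝 0, c j s = eval₂ (algebraMap ℚ ℂ) (s : ℂ) Q := by
    intro j
    obtain ⟨P, hP⟩ := hP j
    have h1 : ∀ᶠ s in 𝓝 (0 : ℝ), (c j s).im = 0 := by
      apply (him j).frequently_zero_iff_eventually_zero.mp
      apply tendsto_one_div.frequently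
      refine (hfreq.and_eventually (eventually_ge_atTop (max N₀ 1))).mono fun n hn => ?_
      obtain ⟨q, hq, -⟩ := key n hn.2 hn.1 j
      rw [hq, Complex.ratCast_im]
    obtain ⟨N₁, hN₁⟩ := eventually_atTop.mp (htend.eventually hP)
    obtain ⟨Q, hQ⟩ := hR P ((fun n : ℕ => (1 / (n : ℚ))) '' {n | n ∈ A S ∧ max (max N₀ 1) N₁ ≤ n}) (by
      refine Set.Infinite.image ?_ ?_
      · intro m _ n _ hmn
        have h2 : (1 / (m : ℚ)) = 1 / (n : ℚ) := hmn
        rw [one_div, one_div, inv_inj] at h2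
        exact_mod_cast h2
      · have h2 : (A S \ Set.Iio (max (max N₀ 1) N₁)).Infinite :=
          hinf.sdiff (Set.finite_Iio _)
        exact h2.mono fun n hn => ⟨hn.1, not_lt.mp hn.2⟩) (by
      rintro _ ⟨n, ⟨hnA, hn⟩, rfl⟩
      obtain ⟨q, hq, -⟩ := key n ((le_max_left _ _).trans hn) hnA j
      refine ⟨q, ?_⟩
      have h3 := hN₁ n ((le_max_right _ _).trans hn)
      rw [hq, Complex.ratCast_re] at h3
      rw [h3]
      congr 1
      push_cast
      rfl)
    refine ⟨Q, ?_⟩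
    filter_upwards [h1, hP] with s hs1 hs2
    rw [← eval₂_eq, ← hQ, ← hs2]
    exact Complex.ext (by simp) (by simp [hs1])
  choose Q hQ using hQ
  exact hAlg f y S Q hirr hSne hSuniv hy fun j _ => hQ j

end Fermat.Agent.Cor.HIT.Core
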