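import Mathlib

/-!
# Hilbert's irreducibility theorem: the cut

`f ∈ ℚ[t][X]` irreducible; `sp f s = f(s, X) ∈ ℂ[X]`, `spQ f s = f(s, X) ∈ ℚ[X]` for rational `s`.
A set of natural numbers is **sparse** if it has at most `m` elements in every window of length `L`
which is far enough, `m` independent of `L`. Finite unions of sparse sets are sparse.

If `f(0, X)` has the same degree as `f` and no multiple roots, the roots `y_i(s)` of `f(s, X)` are
analytic functions of `s` near `0`. If `f(1/n, X)` is reducible, the product of some of the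
`X - y_i(1/n)` has rational coefficients, with denominators bounded by `D n^e` times the leading
coefficient. If this happens for a set of `n` which is not sparse, the corresponding product
is a polynomial in `s` and `f` is reducible.
-/

set_option autoImplicit false

open Polynomial Filter Topology

namespace Fermat.Agent.Cor.HIT

/-- At most `m` elements in every window of length `L` which is far enough. -/
def Sparse (A : Set ℕ) : Prop :=
  ∃ m : ℕ, ∀ L : ℕ, ∃ n₀ : ℕ, ∀ n ≥ n₀, (A ∩ Set.Ico n (n + L)).ncard ≤ m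

/-- the specialization `f(s, X)`, `s ∈ ℂ` -/
noncomputable def sp (f : ℚ[X][X]) (s : ℂ) : ℂ[X] :=
  f.map (eval₂RingHom (algebraMap ℚ ℂ) s)

/-- the specialization `f(s, X)`, `s ∈ ℚ` -/
noncomputable def spQ (f : ℚ[X][X]) (s : ℚ) : ℚ[X] := f.map (evalRingHom s)

/-- (DOR) Dörge's lemma: `G j` = the `j`-th derivative of `G 0` -/
def DorgeStmt : Prop := ∀ (m : ℕ) (G : ℕ → ℝ → ℝ) (z₀ : ℝ),
  (∀ j < m, ∀ z > z₀, HasDerivAt (G j) (G (j + 1) z) z) → Tendsto (G m) atTop (𝓝 0) →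
  (∀ᶠ z in atTop, G m z ≠ 0) → Sparse {n : ℕ | ∃ a : ℤ, G 0 n = a}

/-- (ANA) analytic functions with integral values `D n^e c(1/n)` -/
def AnaStmt : Prop := ∀ (c : ℝ → ℝ) (D e : ℕ), 0 < D → AnalyticAt ℝ c 0 →
  (∃ P : ℝ[X], ∀ᶠ s in 𝓝 (0 : ℝ), c s = P.eval s) ∨
    Sparse {n : ℕ | ∃ a : ℤ, (D : ℝ) * (n : ℝ) ^ e * c (1 / n) = a}

/-- (BR) analytic branches of the roots -/
def BranchStmt : Prop := ∀ f : ℚ[X][X], (sp f 0).natDegree = f.natDegree → (sp f 0).Separable →
  ∃ y : Fin f.natDegree → ℝ → ℂ, (∀ i, AnalyticAt ℝ (y i) 0) ∧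
    ∀ᶠ s : ℝ in 𝓝 0, Function.Injective (fun i => y i s) ∧
      sp f s = C (eval₂ (algebraMap ℚ ℂ) (s : ℂ) f.leadingCoeff) * ∏ i, (X - C (y i s))

/-- (GAU) Gauss -/
def GaussStmt : Prop := ∀ (F : ℤ[X]) (g h : ℚ[X]), F ≠ 0 → g.Monic →
  F.map (Int.castRingHom ℚ) = g * h → ∀ j, ∃ b : ℤ, (F.leadingCoeff : ℚ) * g.coeff j = b

/-- (RAT) a real polynomial with rational values at infinitely many rational points -/
def RatStmt : Prop := ∀ (P : ℝ[X]) (A : Set ℚ), A.Infinite →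
  (∀ x ∈ A, ∃ b : ℚ, P.eval (x : ℝ) = b) → ∃ Q : ℚ[X], P = Q.map (algebraMap ℚ ℝ)

/-- (ALG) the algebra: a proper partial product of the `X - y_i`, multiplied by the leading
coefficient, does not have polynomial coefficients -/
def AlgStmt : Prop := ∀ (f : ℚ[X][X]) (y : Fin f.natDegree → ℝ → ℂ) (S : Finset (Fin f.natDegree))
  (P : ℕ → ℚ[X]), Irreducible f → S.Nonempty → S ≠ Finset.univ →
  (∀ᶠ s : ℝ in 𝓝 0, Function.Injective (fun i => y i s) ∧
    sp f s = C (eval₂ (algebraMap ℚ ℂ) (s : ℂ) f.leadingCoeff) * ∏ i, (X - C (y i s))) →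
  (∀ j ≤ S.card, ∀ᶠ s : ℝ in 𝓝 0, eval₂ (algebraMap ℚ ℂ) (s : ℂ) f.leadingCoeff *
    (∏ i ∈ S, (X - C (y i s))).coeff j = eval₂ (algebraMap ℚ ℂ) (s : ℂ) (P j)) → False

/-- **Hilbert's irreducibility theorem over `ℚ`** -/
def HilbertStmt : Prop := ∀ (F : Finset ℚ[X][X]), (∀ f ∈ F, Irreducible f ∧ 0 < f.natDegree) →
  {t : ℚ | ∀ f ∈ F, Irreducible (spQ f t) ∧ (spQ f t).natDegree = f.natDegree}.Infinite

end Fermat.Agent.Cor.HIT
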