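import Fermat.Agent.Corollaries.HIT.Defs

/-!
# Hilbert's irreducibility theorem: the second cut
-/

set_option autoImplicit false

open Polynomial Filter Topology

namespace Fermat.Agent.Cor.HIT

/-- `f(t₀ + s, X)` -/
noncomputable def shift (t₀ : ℚ) (f : ℚ[X][X]) : ℚ[X][X] := f.map (compRingHom (X + C t₀))

/-- (SH1) the shift -/
def ShiftStmt : Prop := ∀ (t₀ : ℚ) (f : ℚ[X][X]), Irreducible f →
  Irreducible (shift t₀ f) ∧ (shift t₀ f).natDegree = f.natDegree ∧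
    ∀ s : ℚ, spQ (shift t₀ f) s = spQ f (t₀ + s)

/-- (SH2) the ramified points -/
def BadStmt : Prop := ∀ f : ℚ[X][X], Irreducible f → 0 < f.natDegree →
  {t₀ : ℚ | ¬ ((sp (shift t₀ f) 0).natDegree = f.natDegree ∧
    (sp (shift t₀ f) 0).Separable)}.Finite

/-- (DEN) denominators -/
def DenStmt : Prop := ∀ f : ℚ[X][X], ∃ D e : ℕ, 0 < D ∧ ∀ n : ℕ, n ≠ 0 →
  ∃ F : ℤ[X], F.map (Int.castRingHom ℚ) = C ((D : ℚ) * (n : ℚ) ^ e) * spQ f (1 / n)

/-- (FAC) monic divisors of a product of distinct linear factors -/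
def FacStmt : Prop := ∀ (d : ℕ) (y : Fin d → ℂ) (a : ℂ) (g : ℂ[X]), Function.Injective y →
  a ≠ 0 → g.Monic → g ∣ C a * ∏ i, (X - C (y i)) → ∃ S : Finset (Fin d), g = ∏ i ∈ S, (X - C (y i))

/-- (CORE) -/
def CoreStmt : Prop := ∀ f : ℚ[X][X], Irreducible f → 0 < f.natDegree →
  (sp f 0).natDegree = f.natDegree → (sp f 0).Separable →
  Sparse {n : ℕ | ¬ (Irreducible (spQ f (1 / n)) ∧ (spQ f (1 / n)).natDegree = f.natDegree)}

end Fermat.Agent.Cor.HIT
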