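import Fermat.Agent.Corollaries.HIT.Defs2

/-!
# Denominators of the specializations
-/

set_option autoImplicit false

open Polynomial

namespace Fermat.Agent.Cor.HIT.Den

theorem exists_int_mul (p : ℚ[X]) : ∃ D : ℕ, 0 < D ∧ ∀ l, ∃ b : ℤ, (D : ℚ) * p.coeff l = b := by
  refine ⟨∏ l ∈ p.support, (p.coeff l).den, Finset.prod_pos fun l _ => (p.coeff l).pos, fun l => ?_⟩
  by_cases hl : l ∈ p.support
  · obtain ⟨k, hk⟩ := Finset.dvd_prod_of_mem (fun l => (p.coeff l).den) hl
    refine ⟨k * (p.coeff l).num, ?_⟩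
    have h1 := Rat.den_mul_eq_num (p.coeff l)
    rw [hk]
    push_cast
    rw [← h1]
    ring
  · exact ⟨0, by rw [notMem_support_iff.mp hl, mul_zero, Int.cast_zero]⟩

theorem exists_int_mul' (f : ℚ[X][X]) : ∃ D : ℕ, 0 < D ∧ ∀ k l, ∃ b : ℤ,
    (D : ℚ) * (f.coeff k).coeff l = b := by
  choose D hD h using exists_int_mul
  refine ⟨∏ k ∈ f.support, D (f.coeff k), Finset.prod_pos fun k _ => hD _, fun k l => ?_⟩
  by_cases hk : k ∈ f.support
  · obtain ⟨c, hc⟩ := Finset.dvd_prod_of_mem (fun k => D (f.coeff k)) hk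
    obtain ⟨b, hb⟩ := h (f.coeff k) l
    refine ⟨c * b, ?_⟩
    rw [hc]
    push_cast
    rw [← hb]
    ring
  · exact ⟨0, by rw [notMem_support_iff.mp hk, coeff_zero, mul_zero, Int.cast_zero]⟩

theorem denStmt : DenStmt := by
  intro f
  obtain ⟨D, hD, h⟩ := exists_int_mul' f
  refine ⟨D, f.support.sup fun k => (f.coeff k).natDegree, hD, fun n hn => ?_⟩
  set e := f.support.sup fun k => (f.coeff k).natDegree with he
  have hn0 : (n : ℚ) ≠ 0 := by exact_mod_cast hn
  have hdeg : ∀ k, (f.coeff k).natDegree < e + 1 := by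
    intro k
    by_cases hk : k ∈ f.support
    · exact Nat.lt_succ_of_le (Finset.le_sup (f := fun k => (f.coeff k).natDegree) hk)
    · rw [notMem_support_iff.mp hk, natDegree_zero]
      exact Nat.succ_pos _
  have hlift : C ((D : ℚ) * (n : ℚ) ^ e) * spQ f (1 / n) ∈ lifts (Int.castRingHom ℚ) := by
    rw [lifts_iff_coeff_lifts]
    intro k
    have hint : ∀ k l, ∃ b : ℤ, (D : ℚ) * (f.coeff k).coeff l = b := h
    choose b hb using hint
    refine ⟨∑ l ∈ Finset.range (e + 1), b k l * (n : ℤ) ^ (e - l), ?_⟩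
    rw [coeff_C_mul, spQ, coeff_map, coe_evalRingHom, eval_eq_sum_range' (hdeg k),
      Finset.mul_sum, eq_intCast]
    push_cast
    refine Finset.sum_congr rfl fun l hl => ?_
    have hl' : l ≤ e := Nat.lt_succ_iff.mp (Finset.mem_range.mp hl)
    have h1 : (n : ℚ) ^ e = (n : ℚ) ^ (e - l) * (n : ℚ) ^ l := by
      rw [← pow_add, Nat.sub_add_cancel hl']
    rw [← hb k l, h1, one_div, inv_pow]
    field_simp
  obtain ⟨F, hF⟩ := (mem_lifts _).mp hlift
  exact ⟨F, hF⟩

end Fermat.Agent.Cor.HIT.Den
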