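import Fermat.Agent.Corollaries.HIT.Main

/-!
# Hilbert's irreducibility theorem: density

A sparse set has density `0`. Hence: for finitely many irreducible `f(t, X) ∈ ℚ[t][X]` of positive
degree in `X` and all rational `t₀` outside a finite set, the polynomials `f(t₀ + 1/n, X)` are
irreducible, of the same degree, for all `n` outside a set of density `0` (`hilbert_density`).
-/

set_option autoImplicit false

open Polynomial Filter Topology

namespace Fermat.Agent.Cor.HIT

namespace Density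

theorem ncard_Iio (n : ℕ) : (Set.Iio n).ncard = n := by
  rw [← Finset.coe_Iio, Set.ncard_coe_finset, Nat.card_Iio]

theorem ncard_le {A : Set ℕ} {m L n₀ : ℕ} (h : ∀ n ≥ n₀, (A ∩ Set.Ico n (n + L)).ncard ≤ m)
    (k : ℕ) : (A ∩ Set.Iio (n₀ + k * L)).ncard ≤ n₀ + k * m := by
  induction k with
  | zero =>
    rw [zero_mul, add_zero, zero_mul, add_zero]
    exact (Set.ncard_le_ncard Set.inter_subset_right (Set.finite_Iio n₀)).trans
      (ncard_Iio n₀).le
  | succ k ih =>
    have h1 : A ∩ Set.Iio (n₀ + (k + 1) * L) ⊆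
        (A ∩ Set.Iio (n₀ + k * L)) ∪ (A ∩ Set.Ico (n₀ + k * L) (n₀ + k * L + L)) := by
      rintro x ⟨hx, hx2⟩
      by_cases h3 : x < n₀ + k * L
      · exact Or.inl ⟨hx, h3⟩
      · refine Or.inr ⟨hx, not_lt.mp h3, ?_⟩
        have h4 : x < n₀ + (k + 1) * L := hx2
        rw [add_mul, one_mul, ← add_assoc] at h4
        exact h4
    have hfin : ((A ∩ Set.Iio (n₀ + k * L)) ∪
        (A ∩ Set.Ico (n₀ + k * L) (n₀ + k * L + L))).Finite :=
      ((Set.finite_Iio _).subset Set.inter_subset_right).union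
        ((Set.finite_Ico _ _).subset Set.inter_subset_right)
    refine (Set.ncard_le_ncard h1 hfin).trans ((Set.ncard_union_le _ _).trans ?_)
    have h2 := h (n₀ + k * L) (Nat.le_add_right _ _)
    rw [add_mul, one_mul]
    omega

end Density

/-- **A sparse set has density `0`.** -/
theorem Sparse.tendsto_density {A : Set ℕ} (hA : Sparse A) :
    Tendsto (fun N : ℕ => ((A ∩ Set.Iio N).ncard : ℝ) / N) atTop (𝓝 0) := by
  obtain ⟨m, hm⟩ := hA
  rw [Metric.tendsto_atTop]
  intro ε hε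
  obtain ⟨L, hL⟩ := exists_nat_gt (2 * (m : ℝ) / ε)
  have hL0 : (0 : ℝ) < L := lt_of_le_of_lt (by positivity) hL
  obtain ⟨n₀, hn₀⟩ := hm L
  obtain ⟨M, hM⟩ := exists_nat_gt (2 * ((n₀ : ℝ) + m) / ε)
  have hM0 : (0 : ℝ) < M := lt_of_le_of_lt (by positivity) hM
  refine ⟨M, fun N hN => ?_⟩
  have hNM : (M : ℝ) ≤ N := by exact_mod_cast hN
  have hN0 : (0 : ℝ) < N := hM0.trans_le hNM
  have hLn : 0 < L := by exact_mod_cast hL0
  have h1 : (A ∩ Set.Iio N).ncard ≤ n₀ + (N / L + 1) * m := by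
    refine (Set.ncard_le_ncard (Set.inter_subset_inter_right A ?_)
      ((Set.finite_Iio _).subset Set.inter_subset_right)).trans
      (Density.ncard_le hn₀ (N / L + 1))
    refine Set.Iio_subset_Iio ?_
    have h2 := Nat.lt_div_mul_add (a := N) hLn
    rw [add_mul, one_mul]
    omega
  have h2 : ((A ∩ Set.Iio N).ncard : ℝ) ≤ n₀ + m + N / L * m := by
    have h3 : ((A ∩ Set.Iio N).ncard : ℝ) ≤ n₀ + (((N / L : ℕ) : ℝ) + 1) * m := by
      exact_mod_cast h1
    have h4 : ((N / L : ℕ) : ℝ) ≤ (N : ℝ) / L := Nat.cast_div_le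
    have h5 : (0 : ℝ) ≤ m := Nat.cast_nonneg m
    nlinarith
  rw [dist_zero_right, Real.norm_of_nonneg (by positivity), div_lt_iff₀ hN0]
  refine h2.trans_lt ?_
  have h3 : 2 * ((n₀ : ℝ) + m) < ε * N := by
    rw [div_lt_iff₀ hε] at hM
    nlinarith
  have h4 : (N : ℝ) / L * m ≤ ε / 2 * N := by
    rw [div_lt_iff₀ hε] at hL
    rw [div_mul_eq_mul_div, div_le_iff₀ hL0]
    nlinarith
  nlinarith

/-- The complement of a sparse set has density `1`. -/
theorem Sparse.tendsto_compl {A : Set ℕ} (hA : Sparse A) :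
    Tendsto (fun N : ℕ => ({n : ℕ | n < N ∧ n ∉ A}.ncard : ℝ) / N) atTop (𝓝 1) := by
  have h1 := hA.tendsto_density.const_sub 1
  rw [sub_zero] at h1
  refine h1.congr' ?_
  filter_upwards [eventually_gt_atTop 0] with N hN
  have hN0 : (N : ℝ) ≠ 0 := by exact_mod_cast hN.ne'
  have h2 : {n : ℕ | n < N ∧ n ∉ A}.ncard + (A ∩ Set.Iio N).ncard = N := by
    have hdisj : Disjoint {n : ℕ | n < N ∧ n ∉ A} (A ∩ Set.Iio N) := by
      rw [Set.disjoint_left]
      rintro n ⟨-, h3⟩ ⟨h4, -⟩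
      exact h3 h4
    rw [← Set.ncard_union_eq hdisj ((Set.finite_Iio N).subset fun n hn => hn.1)
      ((Set.finite_Iio N).subset Set.inter_subset_right)]
    conv_rhs => rw [← Density.ncard_Iio N]
    congr 1
    ext n
    by_cases hn : n ∈ A <;> simp [hn]
  have h3 : ({n : ℕ | n < N ∧ n ∉ A}.ncard : ℝ) + ((A ∩ Set.Iio N).ncard : ℝ) = N := by
    exact_mod_cast h2
  rw [eq_div_iff hN0, sub_mul, div_mul_cancel₀ _ hN0]
  linarith

/-- **Hilbert's irreducibility theorem, density.** For finitely many irreducible polynomials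
`f(t, X) ∈ ℚ[t][X]` of positive degree in `X` and all rational `t₀` outside a finite set: the
natural numbers `n` for which all `f(t₀ + 1/n, X)` are irreducible, of the same degree, have
density `1`. -/
theorem hilbert_density (F : Finset ℚ[X][X]) (hF : ∀ f ∈ F, Irreducible f ∧ 0 < f.natDegree) :
    ∃ B : Finset ℚ, ∀ t₀ ∉ B, Tendsto (fun N : ℕ => ({n : ℕ | n < N ∧ ∀ f ∈ F,
      Irreducible (f.map (evalRingHom (t₀ + 1 / (n : ℚ)))) ∧
      (f.map (evalRingHom (t₀ + 1 / (n : ℚ)))).natDegree = f.natDegree}.ncard : ℝ) / N)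
      atTop (𝓝 1) := by
  have hbad : (⋃ f ∈ F, {t₀ : ℚ | ¬ ((sp (shift t₀ f) 0).natDegree = f.natDegree ∧
      (sp (shift t₀ f) 0).Separable)}).Finite :=
    F.finite_toSet.biUnion fun f hf => badStmt f (hF f hf).1 (hF f hf).2
  refine ⟨hbad.toFinset, fun t₀ ht₀ => ?_⟩
  rw [Set.Finite.mem_toFinset] at ht₀
  have hgood : ∀ f ∈ F, (sp (shift t₀ f) 0).natDegree = f.natDegree ∧
      (sp (shift t₀ f) 0).Separable := by
    intro f hf
    by_contra hcon
    exact ht₀ (Set.mem_biUnion (Finset.mem_coe.mpr hf) hcon)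
  have hsp : ∀ f ∈ F, Sparse {n : ℕ | ¬ (Irreducible (spQ (shift t₀ f) (1 / n)) ∧
      (spQ (shift t₀ f) (1 / n)).natDegree = (shift t₀ f).natDegree)} := by
    intro f hf
    obtain ⟨h1, h2, -⟩ := shiftStmt t₀ f (hF f hf).1
    refine coreStmt (shift t₀ f) h1 (by rw [h2]; exact (hF f hf).2) ?_ (hgood f hf).2
    rw [h2]
    exact (hgood f hf).1
  refine (sparse_biUnion F hsp).tendsto_compl.congr fun N => ?_
  congr 2
  have h5 : {n : ℕ | n < N ∧ n ∉ ⋃ f ∈ F, {n : ℕ | ¬ (Irreducible (spQ (shift t₀ f) (1 / n)) ∧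
      (spQ (shift t₀ f) (1 / n)).natDegree = (shift t₀ f).natDegree)}} =
      {n : ℕ | n < N ∧ ∀ f ∈ F, Irreducible (f.map (evalRingHom (t₀ + 1 / (n : ℚ)))) ∧
      (f.map (evalRingHom (t₀ + 1 / (n : ℚ)))).natDegree = f.natDegree} := by
    ext n
    simp only [Set.mem_ofPred_eq, Set.mem_iUnion, not_exists, not_not]
    refine and_congr_right fun _ => forall_congr' fun f => forall_congr' fun hf => ?_
    obtain ⟨-, h2, h3⟩ := shiftStmt t₀ f (hF f hf).1
    rw [h2, h3]
    rfl
  rw [h5]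

/-- **Hilbert's irreducibility theorem, density**, one polynomial, near a given point: `f(t, X)`
irreducible of positive degree, `f(0, X)` separable of the same degree: the `n` for which
`f(1/n, X)` is irreducible of the same degree have density `1`. -/
theorem hilbert_density_zero {f : ℚ[X][X]} (hf : Irreducible f) (hd : 0 < f.natDegree)
    (h0 : (f.map (evalRingHom 0)).natDegree = f.natDegree)
    (hsep : (f.map (evalRingHom 0)).Separable) :
    Tendsto (fun N : ℕ => ({n : ℕ | n < N ∧ Irreducible (f.map (evalRingHom (1 / (n : ℚ)))) ∧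
      (f.map (evalRingHom (1 / (n : ℚ)))).natDegree = f.natDegree}.ncard : ℝ) / N)
      atTop (𝓝 1) := by
  have h1 : (spQ f 0).map (algebraMap ℚ ℂ) = sp f 0 := by
    rw [Core.map_spQ, Rat.cast_zero]
  have h2 := (coreStmt f hf hd (by
    rw [← h1, natDegree_map]
    exact h0) (by
    rw [← h1]
    exact hsep.map)).tendsto_compl
  refine h2.congr fun N => ?_
  congr 2
  have h5 : {n : ℕ | n < N ∧ n ∉ {n : ℕ | ¬ (Irreducible (spQ f (1 / n)) ∧
      (spQ f (1 / n)).natDegree = f.natDegree)}} =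
      {n : ℕ | n < N ∧ Irreducible (f.map (evalRingHom (1 / (n : ℚ)))) ∧
      (f.map (evalRingHom (1 / (n : ℚ)))).natDegree = f.natDegree} := by
    ext n
    simp only [Set.mem_ofPred_eq, not_not]
    rfl
  rw [h5]

end Fermat.Agent.Cor.HIT
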