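import Fermat.Agent.Corollaries.HIT.Defs

/-!
# Dörge's lemma

A function whose `m`-th derivative tends to zero at infinity and is eventually not zero takes integral
values at most at `m` integers of every window of given length which is far enough.
-/

set_option autoImplicit false

open Polynomial Filter Topology

namespace Fermat.Agent.Cor.HIT

namespace Dorge

/-- Rolle's theorem, iterated. -/
theorem exists_zero (z₀ : ℝ) : ∀ (m : ℕ) (G : ℕ → ℝ → ℝ),
    (∀ j < m, ∀ z > z₀, HasDerivAt (G j) (G (j + 1) z) z) → ∀ s : Finset ℝ, s.card = m + 1 →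
    (∀ x ∈ s, z₀ < x ∧ G 0 x = 0) → ∃ ξ, (∃ a ∈ s, a ≤ ξ) ∧ G m ξ = 0
  | 0, G, _, s, hs, h => by
    obtain ⟨a, ha⟩ := Finset.card_pos.mp (by omega : 0 < s.card)
    exact ⟨a, ⟨a, ha, le_rfl⟩, (h a ha).2⟩
  | m + 1, G, hG, s, hs, h => by
    let x := s.orderEmbOfFin hs
    have hx : ∀ i, x i ∈ s := fun i => s.orderEmbOfFin_mem hs i
    have hrolle : ∀ i : Fin (m + 1), ∃ y, x i.castSucc < y ∧ y < x i.succ ∧ G 1 y = 0 := by
      intro i
      have hlt : x i.castSucc < x i.succ := x.strictMono i.castSucc_lt_succ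
      obtain ⟨y, hy, hy'⟩ := exists_hasDerivAt_eq_zero (f := G 0) (f' := G 1) hlt
        (fun z hz => (hG 0 (by omega) z
          (lt_of_lt_of_le (h _ (hx i.castSucc)).1 hz.1)).continuousAt.continuousWithinAt)
        (by rw [(h _ (hx _)).2, (h _ (hx _)).2])
        (fun z hz => hG 0 (by omega) z ((h _ (hx i.castSucc)).1.trans hz.1))
      exact ⟨y, hy.1, hy.2, hy'⟩
    choose y hy1 hy2 hy3 using hrolle
    have hmono : StrictMono y := by
      intro i j hij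
      refine (hy2 i).trans_le (le_trans (x.monotone ?_) (hy1 j).le)
      rw [Fin.le_iff_val_le_val, Fin.val_succ, Fin.val_castSucc]
      exact hij
    obtain ⟨ξ, ⟨a, ha, haξ⟩, hξ⟩ := exists_zero z₀ m (fun j => G (j + 1))
      (fun j hj z hz => hG (j + 1) (by omega) z hz) (Finset.univ.image y)
      (by rw [Finset.card_image_of_injective _ hmono.injective, Finset.card_univ, Fintype.card_fin])
      (fun z hz => by
        obtain ⟨i, -, rfl⟩ := Finset.mem_image.mp hz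
        exact ⟨(h _ (hx i.castSucc)).1.trans (hy1 i), hy3 i⟩)
    obtain ⟨i, -, rfl⟩ := Finset.mem_image.mp ha
    exact ⟨ξ, ⟨_, hx i.castSucc, (hy1 i).le.trans haξ⟩, hξ⟩

/-- Divided differences: the mean value theorem of order `m`. -/
theorem exists_eq_coeff {m : ℕ} {G : ℕ → ℝ → ℝ} {z₀ : ℝ}
    (hG : ∀ j < m, ∀ z > z₀, HasDerivAt (G j) (G (j + 1) z) z) {s : Finset ℕ}
    (hs : s.card = m + 1) (h : ∀ n ∈ s, z₀ < (n : ℝ)) :
    ∃ ξ, (∃ a ∈ s, (a : ℝ) ≤ ξ) ∧
      G m ξ = m.factorial * ∑ i ∈ s, G 0 i / ∏ j ∈ s.erase i, ((i : ℝ) - j) := by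
  classical
  have hinj : Set.InjOn (fun n : ℕ => (n : ℝ)) s := Nat.cast_injective.injOn
  set P : ℝ[X] := Lagrange.interpolate s (fun n : ℕ => (n : ℝ)) (fun n => G 0 n) with hP
  have hdeg : P.degree < s.card := Lagrange.degree_interpolate_lt _ hinj
  have hPe : ∀ i ∈ s, P.eval (i : ℝ) = G 0 i := fun i hi =>
    Lagrange.eval_interpolate_at_node _ hinj hi
  have hcoeff : P.coeff m = ∑ i ∈ s, G 0 i / ∏ j ∈ s.erase i, ((i : ℝ) - j) := by
    have h1 := Lagrange.coeff_eq_sum hinj hdeg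
    rw [hs, Nat.add_sub_cancel] at h1
    rw [h1]
    exact Finset.sum_congr rfl fun i hi => by rw [hPe i hi]
  have hnat : P.natDegree ≤ m := by
    rw [natDegree_le_iff_degree_le]
    rw [hs] at hdeg
    exact Order.lt_succ_iff.mp (by exact_mod_cast hdeg)
  have hder : derivative^[m] P = C (m.factorial * P.coeff m) := by
    have h1 : (derivative^[m] P).natDegree = 0 := by
      have := natDegree_iterate_derivative P m
      omega
    rw [eq_C_of_natDegree_eq_zero h1, coeff_iterate_derivative, zero_add, Nat.descFactorial_self,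
      nsmul_eq_mul]
  obtain ⟨ξ, ⟨a, ha, haξ⟩, hξ⟩ := exists_zero z₀ m
    (fun j z => G j z - (derivative^[j] P).eval z)
    (fun j hj z hz => by
      have h1 := (derivative^[j] P).hasDerivAt z
      rw [← Function.iterate_succ_apply' derivative j P] at h1
      exact (hG j hj z hz).sub h1)
    (s.image (fun n : ℕ => (n : ℝ)))
    (by rw [Finset.card_image_of_injective _ Nat.cast_injective, hs])
    (fun z hz => by
      obtain ⟨i, hi, rfl⟩ := Finset.mem_image.mp hz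
      refine ⟨h i hi, ?_⟩
      simp only [Function.iterate_zero, id_eq]
      rw [hPe i hi, sub_self])
  obtain ⟨i, hi, rfl⟩ := Finset.mem_image.mp ha
  refine ⟨ξ, ⟨i, hi, haξ⟩, ?_⟩
  rw [← hcoeff, sub_eq_zero.mp hξ, hder, eval_C]

theorem prod_le_pow {ι : Type*} (s : Finset ι) {f : ι → ℝ} {c : ℝ} (h0 : ∀ i ∈ s, 0 ≤ f i)
    (h : ∀ i ∈ s, f i ≤ c) : ∏ i ∈ s, f i ≤ c ^ s.card := by
  rw [← Finset.prod_const]
  exact Finset.prod_le_prod h0 h

/-- The denominator of a divided difference of integers. -/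
theorem one_le_abs_mul {m L n : ℕ} {s : Finset ℕ} (hs : s.card = m + 1)
    (hsL : ∀ i ∈ s, n ≤ i ∧ i < n + L) {g : ℕ → ℝ} (hg : ∀ i ∈ s, ∃ a : ℤ, g i = a)
    (h0 : ∑ i ∈ s, g i / ∏ j ∈ s.erase i, ((i : ℝ) - j) ≠ 0) :
    1 ≤ (L : ℝ) ^ (m * (m + 1)) * |∑ i ∈ s, g i / ∏ j ∈ s.erase i, ((i : ℝ) - j)| := by
  classical
  set d : ℕ → ℤ := fun i => ∏ j ∈ s.erase i, ((i : ℤ) - j) with hd
  have hd0 : ∀ i, d i ≠ 0 := fun i => Finset.prod_ne_zero_iff.mpr fun j hj => by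
    have := Finset.ne_of_mem_erase hj
    omega
  have hdc : ∀ i, ((d i : ℤ) : ℝ) = ∏ j ∈ s.erase i, ((i : ℝ) - j) := fun i => by
    rw [hd]
    push_cast
    rfl
  have hdle : ∀ i ∈ s, |((d i : ℤ) : ℝ)| ≤ (L : ℝ) ^ m := by
    intro i hi
    rw [hdc, Finset.abs_prod]
    have h1 : (s.erase i).card = m := by rw [Finset.card_erase_of_mem hi, hs]; omega
    rw [← h1]
    refine prod_le_pow _ (fun j _ => abs_nonneg _) fun j hj => ?_
    obtain ⟨h2, h3⟩ := hsL i hi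
    obtain ⟨h4, h5⟩ := hsL j (Finset.mem_of_mem_erase hj)
    rw [abs_le]
    constructor
    · have : (j : ℝ) ≤ i + L := by exact_mod_cast (by omega : j ≤ i + L)
      linarith
    · have : (i : ℝ) ≤ j + L := by exact_mod_cast (by omega : i ≤ j + L)
      linarith
  set M : ℤ := ∏ i ∈ s, d i with hM
  have hM0 : M ≠ 0 := Finset.prod_ne_zero_iff.mpr fun i _ => hd0 i
  have hMle : |(M : ℝ)| ≤ (L : ℝ) ^ (m * (m + 1)) := by
    rw [hM, Int.cast_prod, Finset.abs_prod, pow_mul, ← hs]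
    exact prod_le_pow _ (fun i _ => abs_nonneg _) hdle
  set S : ℝ := ∑ i ∈ s, g i / ∏ j ∈ s.erase i, ((i : ℝ) - j) with hS
  have hint : ∃ b : ℤ, (M : ℝ) * S = b := by
    choose! a ha using hg
    refine ⟨∑ i ∈ s, a i * ∏ j ∈ s.erase i, d j, ?_⟩
    rw [hS, Finset.mul_sum, Int.cast_sum]
    refine Finset.sum_congr rfl fun i hi => ?_
    rw [ha i hi, ← hdc, hM, ← Finset.mul_prod_erase s d hi]
    have : ((d i : ℤ) : ℝ) ≠ 0 := by exact_mod_cast hd0 i
    push_cast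
    field_simp
  obtain ⟨b, hb⟩ := hint
  have hb0 : b ≠ 0 := by
    rintro rfl
    rw [Int.cast_zero] at hb
    rcases mul_eq_zero.mp hb with h1 | h1
    · exact hM0 (by exact_mod_cast h1)
    · exact h0 h1
  have h1 : (1 : ℝ) ≤ |(M : ℝ) * S| := by
    rw [hb]
    exact_mod_cast Int.one_le_abs hb0
  rw [abs_mul] at h1
  exact h1.trans (mul_le_mul_of_nonneg_right hMle (abs_nonneg _))

end Dorge

open Dorge in
/-- **Dörge's lemma.** -/
theorem dorgeStmt : DorgeStmt := by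
  intro m G z₀ hG hlim hne
  refine ⟨m, fun L => ?_⟩
  rcases Nat.eq_zero_or_pos L with rfl | hL
  · exact ⟨0, fun n _ => by simp⟩
  have hε : (0 : ℝ) < 1 / (L : ℝ) ^ (m * (m + 1)) := by positivity
  have hev : ∀ᶠ z in atTop, z₀ < z ∧ G m z ≠ 0 ∧ |G m z| < 1 / (L : ℝ) ^ (m * (m + 1)) := by
    filter_upwards [eventually_gt_atTop z₀, hne, (Metric.tendsto_nhds.mp hlim) _ hε]
      with z h1 h2 h3
    rw [Real.dist_eq, sub_zero] at h3
    exact ⟨h1, h2, h3⟩
  obtain ⟨B, hB⟩ := eventually_atTop.mp hev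
  refine ⟨⌈B⌉₊, fun n hn => ?_⟩
  by_contra hcard
  rw [not_le] at hcard
  have hfin : ({n : ℕ | ∃ a : ℤ, G 0 n = a} ∩ Set.Ico n (n + L)).Finite :=
    (Set.finite_Ico n (n + L)).inter_of_right _
  rw [Set.ncard_eq_toFinset_card _ hfin] at hcard
  obtain ⟨s, hs, hs'⟩ := Finset.exists_subset_card_eq (Nat.succ_le_of_lt hcard)
  have hmem : ∀ i ∈ s, (∃ a : ℤ, G 0 i = a) ∧ n ≤ i ∧ i < n + L := fun i hi => by
    have h1 := hs hi
    rw [Set.Finite.mem_toFinset] at h1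
    exact ⟨h1.1, h1.2.1, h1.2.2⟩
  have hBn : ∀ i : ℕ, n ≤ i → B ≤ (i : ℝ) := fun i hi =>
    (Nat.le_ceil B).trans (by exact_mod_cast hn.le.trans hi)
  obtain ⟨ξ, ⟨a, ha, haξ⟩, hξ⟩ := exists_eq_coeff hG hs'
    (fun i hi => (hB i (hBn i (hmem i hi).2.1)).1)
  obtain ⟨-, h1, h2⟩ := hB ξ ((hBn a (hmem a ha).2.1).trans haξ)
  have h0 : ∑ i ∈ s, G 0 i / ∏ j ∈ s.erase i, ((i : ℝ) - j) ≠ 0 := fun h => h1 (by rw [hξ, h, mul_zero])
  have h3 := one_le_abs_mul (g := fun i => G 0 i) hs' (fun i hi => (hmem i hi).2)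
    (fun i hi => (hmem i hi).1) h0
  rw [hξ, abs_mul, Nat.abs_cast, lt_div_iff₀ (by positivity)] at h2
  have h4 : (1 : ℝ) ≤ m.factorial := by exact_mod_cast Nat.succ_le_of_lt (Nat.factorial_pos m)
  nlinarith [abs_nonneg (∑ i ∈ s, G 0 i / ∏ j ∈ s.erase i, ((i : ℝ) - j)),
    mul_le_mul_of_nonneg_right h4 (abs_nonneg (∑ i ∈ s, G 0 i / ∏ j ∈ s.erase i, ((i : ℝ) - j)))]

end Fermat.Agent.Cor.HIT
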