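import Fermat.Agent.Corollaries.HIT.Defs2

/-!
# Monic divisors of a product of distinct linear factors
-/

set_option autoImplicit false

open Polynomial

namespace Fermat.Agent.Cor.HIT.Fac

theorem facStmt : FacStmt := by
  classical
  intro d y a g hy ha hg hdvd
  have hprod : ∀ S : Finset (Fin d), ∏ i ∈ S, (X - C (y i)) =
      ((S.val.map y).map fun r => X - C r).prod := by
    intro S
    rw [Multiset.map_map]
    rfl
  have hP0 : C a * ∏ i, (X - C (y i)) ≠ 0 :=
    mul_ne_zero (C_ne_zero.mpr ha) (monic_prod_X_sub_C y Finset.univ).ne_zero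
  have hroots : (C a * ∏ i, (X - C (y i))).roots = (Finset.univ : Finset (Fin d)).val.map y := by
    rw [roots_C_mul _ ha, hprod, roots_multiset_prod_X_sub_C]
  have hle : g.roots ≤ (Finset.univ : Finset (Fin d)).val.map y := by
    rw [← hroots]
    exact roots.le_of_dvd hP0 hdvd
  have hnd : ((Finset.univ : Finset (Fin d)).val.map y).Nodup :=
    Multiset.Nodup.map hy Finset.univ.nodup
  refine ⟨Finset.univ.filter fun i => y i ∈ g.roots, ?_⟩
  have h1 : g.roots = (Finset.univ.filter fun i => y i ∈ g.roots).val.map y := by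
    refine (Multiset.Nodup.ext (Multiset.nodup_of_le hle hnd)
      (Multiset.Nodup.map hy (Finset.nodup _))).mpr fun r => ?_
    rw [Multiset.mem_map]
    constructor
    · intro hr
      obtain ⟨i, -, rfl⟩ := Multiset.mem_map.mp (Multiset.mem_of_le hle hr)
      refine ⟨i, ?_, rfl⟩
      rw [Finset.mem_val, Finset.mem_filter]
      exact ⟨Finset.mem_univ _, hr⟩
    · rintro ⟨i, hi, rfl⟩
      rw [Finset.mem_val, Finset.mem_filter] at hi
      exact hi.2
  rw [hprod, ← h1]
  exact (IsAlgClosed.splits g).eq_prod_roots_of_monic hg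

end Fermat.Agent.Cor.HIT.Fac
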