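import Fermat.Agent.Corollaries.HIT.Main

/-!
# Hilbert's theorem on Galois groups

Every finite Galois extension of the field `ℚ(t)` of rational functions gives a Galois extension of
`ℚ` with the same Galois group (`exists_galois`; Hilbert 1892): if `B` is the integral closure of
`ℚ[t]` in `E` and `z ∈ B` generates `E` over `ℚ(t)`, there is `t₀ ∈ ℚ` such that the minimal polynomial
of `z` stays irreducible at `t = t₀`; then `B/Q`, `Q` a maximal ideal above `t - t₀`, is the field
wanted, because the decomposition group of `Q` maps onto the Galois group of `B/Q`.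

`exists_galois_of_residue` is the general statement: `G` finite, acting on a ring `B` with ring of
invariants `A`, and any surjective homomorphism `A → ℚ`.
-/

set_option autoImplicit false

open Polynomial Ideal
open scoped Pointwise

namespace Fermat.Agent.Cor.HIT

attribute [local instance] Ideal.Quotient.field in
/-- **Specialization of a Galois group.** `G` finite, acting on `B` with invariants `A`, `ψ : A → ℚ` a
surjective homomorphism with kernel `P`, `Q` a maximal ideal of `B` above `P`. If some element `z` of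
`B` is a root of a polynomial `g` over `A` whose image over `ℚ` is irreducible of degree `≥ #G`, then
`B/Q` is a Galois extension of `ℚ` with group `G`. -/
theorem exists_galois_of_residue {A B G : Type} [CommRing A] [CommRing B] [Algebra A B] [Group G]
    [Finite G] [MulSemiringAction G B] [SMulCommClass G A B] [Algebra.IsInvariant A B G]
    (P : Ideal A) (Q : Ideal B) [P.IsPrime] [Q.IsMaximal] [Q.LiesOver P] (ψ : A →+* ℚ)
    (hψ : Function.Surjective ψ) (hker : RingHom.ker ψ = P) (z : B) (g : A[X])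
    (hg : aeval z g = 0) (hirr : Irreducible (g.map ψ)) (hdeg : Nat.card G ≤ (g.map ψ).natDegree) :
    ∃ (L : Type) (_ : Field L) (_ : NumberField L), IsGalois ℚ L ∧
      Nonempty ((L ≃ₐ[ℚ] L) ≃* G) := by
  -- the homomorphism from `ℚ`
  have hker2 : RingHom.ker ψ ≤ RingHom.ker (algebraMap A (B ⧸ Q)) := by
    intro a ha
    rw [hker, Ideal.over_def Q P, Ideal.mem_comap] at ha
    rw [RingHom.mem_ker, IsScalarTower.algebraMap_apply A B (B ⧸ Q)]
    exact Ideal.Quotient.eq_zero_iff_mem.mpr ha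
  let θ : ℚ →+* (B ⧸ Q) := ψ.liftOfSurjective hψ ⟨algebraMap A (B ⧸ Q), hker2⟩
  have hθ : ∀ a, θ (ψ a) = algebraMap A (B ⧸ Q) a := fun a =>
    ψ.liftOfSurjective_comp_apply hψ ⟨algebraMap A (B ⧸ Q), hker2⟩ a
  have hchar : CharZero (B ⧸ Q) := charZero_of_injective_ringHom θ.injective
  have hθ' : θ = algebraMap ℚ (B ⧸ Q) := Subsingleton.elim _ _
  -- `ℚ` as the fraction field of `A/P`
  let φ : (A ⧸ P) →+* ℚ := Ideal.Quotient.lift P ψ fun a ha => by
    rwa [← hker, RingHom.mem_ker] at ha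
  have hφ : ∀ a, φ (Ideal.Quotient.mk P a) = ψ a := fun a => Ideal.Quotient.lift_mk _ _ _
  have hφinj : Function.Injective φ := by
    rw [injective_iff_map_eq_zero]
    intro x hx
    obtain ⟨a, rfl⟩ := Ideal.Quotient.mk_surjective x
    rw [hφ] at hx
    rw [Ideal.Quotient.eq_zero_iff_mem, ← hker]
    exact hx
  let _ : Algebra (A ⧸ P) ℚ := φ.toAlgebra
  have : FaithfulSMul (A ⧸ P) ℚ := (faithfulSMul_iff_algebraMap_injective (A ⧸ P) ℚ).mpr hφinj
  have : IsFractionRing (A ⧸ P) ℚ := IsFractionRing.of_field (A ⧸ P) ℚ fun q => by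
    obtain ⟨a, ha⟩ := hψ q
    refine ⟨Ideal.Quotient.mk P a, 1, ?_⟩
    rw [map_one, div_one]
    exact (ha.symm.trans (hφ a).symm)
  have : IsScalarTower (A ⧸ P) ℚ (B ⧸ Q) := IsScalarTower.of_algebraMap_eq fun x => by
    obtain ⟨a, rfl⟩ := Ideal.Quotient.mk_surjective x
    have h1 : algebraMap (A ⧸ P) ℚ (Ideal.Quotient.mk P a) = ψ a := hφ a
    rw [h1, ← hθ', hθ]
    rfl
  have hnormal : Normal ℚ (B ⧸ Q) := Ideal.IsFractionRing.normal G P Q ℚ (B ⧸ Q)
  have hgal : IsGalois ℚ (B ⧸ Q) := { __ := hnormal }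
  have hfin : Module.Finite ℚ (B ⧸ Q) := Ideal.IsFractionRing.finite_of_isInvariant G P Q ℚ (B ⧸ Q)
  have hnf : NumberField (B ⧸ Q) := { to_charZero := hchar, to_finiteDimensional := hfin }
  refine ⟨B ⧸ Q, inferInstance, hnf, hgal, ?_⟩
  -- the degree
  have hroot : aeval (Ideal.Quotient.mk Q z) (g.map ψ) = 0 := by
    rw [aeval_def, eval₂_map, ← hθ']
    have h1 : θ.comp ψ = algebraMap A (B ⧸ Q) := RingHom.ext hθ
    rw [h1, IsScalarTower.algebraMap_eq A B (B ⧸ Q)]
    have h2 := congrArg (Ideal.Quotient.mk Q) hg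
    rw [aeval_def, map_zero, hom_eval₂] at h2
    exact h2
  have hmin := minpoly.eq_of_irreducible hirr hroot
  have hle : (g.map ψ).natDegree ≤ Module.finrank ℚ (B ⧸ Q) := by
    have h1 : (minpoly ℚ (Ideal.Quotient.mk Q z)).natDegree = (g.map ψ).natDegree := by
      rw [← hmin, natDegree_mul_C (inv_ne_zero (leadingCoeff_ne_zero.mpr hirr.ne_zero))]
    rw [← h1]
    exact minpoly.natDegree_le _
  have hsurj := IsFractionRing.stabilizerHom_surjective G P Q ℚ (B ⧸ Q)
  have hcard : Nat.card ((B ⧸ Q) ≃ₐ[ℚ] (B ⧸ Q)) = Module.finrank ℚ (B ⧸ Q) :=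
    IsGalois.card_aut_eq_finrank ℚ (B ⧸ Q)
  have h1 : Nat.card (MulAction.stabilizer G Q) ≤ Nat.card G := Subgroup.card_le_card_group _
  have h2 : Nat.card (MulAction.stabilizer G Q) ≤ Nat.card ((B ⧸ Q) ≃ₐ[ℚ] (B ⧸ Q)) := by
    rw [hcard]
    exact (h1.trans hdeg).trans hle
  have hbij := hsurj.bijective_of_nat_card_le h2
  have h3 : Nat.card (MulAction.stabilizer G Q) = Nat.card ((B ⧸ Q) ≃ₐ[ℚ] (B ⧸ Q)) :=
    Nat.card_congr (Equiv.ofBijective _ hbij)
  have htop : MulAction.stabilizer G Q = ⊤ := by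
    refine Subgroup.eq_top_of_card_eq _ (le_antisymm h1 ?_)
    rw [h3, hcard]
    exact hdeg.trans hle
  exact ⟨(MulEquiv.ofBijective _ hbij).symm.trans
    ((MulEquiv.subgroupCongr htop).trans Subgroup.topEquiv)⟩


/-! ### Fields over `ℚ(t)` -/

/-- **Hilbert's application of his theorem to Galois groups** (1892): `E` a finite Galois extension of
the field `ℚ(t)` of rational functions. Then there is a Galois extension `L` of `ℚ` with the same
Galois group. -/
theorem exists_galois (E : Type) [Field E] [Algebra (RatFunc ℚ) E]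
    [FiniteDimensional (RatFunc ℚ) E] [IsGalois (RatFunc ℚ) E] :
    ∃ (L : Type) (_ : Field L) (_ : NumberField L), IsGalois ℚ L ∧
      Nonempty ((L ≃ₐ[ℚ] L) ≃* (E ≃ₐ[RatFunc ℚ] E)) := by
  let _ : Algebra ℚ[X] E := ((algebraMap (RatFunc ℚ) E).comp (algebraMap ℚ[X] (RatFunc ℚ))).toAlgebra
  have : IsScalarTower ℚ[X] (RatFunc ℚ) E := IsScalarTower.of_algebraMap_eq fun _ => rfl
  have hinj : Function.Injective (algebraMap ℚ[X] E) :=
    (algebraMap (RatFunc ℚ) E).injective.comp (IsFractionRing.injective ℚ[X] (RatFunc ℚ))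
  have : FaithfulSMul ℚ[X] E := (faithfulSMul_iff_algebraMap_injective ℚ[X] E).mpr hinj
  have halg : Algebra.IsAlgebraic ℚ[X] E := by
    have := IsLocalization.isAlgebraic (RatFunc ℚ) (nonZeroDivisors ℚ[X])
    exact Algebra.IsAlgebraic.trans ℚ[X] (RatFunc ℚ) E
  have : IsFractionRing (integralClosure ℚ[X] E) E :=
    integralClosure.isFractionRing_of_finite_extension (RatFunc ℚ) E
  let _ : MulSemiringAction (E ≃ₐ[RatFunc ℚ] E) (integralClosure ℚ[X] E) :=
    IsIntegralClosure.MulSemiringAction ℚ[X] (RatFunc ℚ) E (integralClosure ℚ[X] E)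
  have : SMulCommClass (E ≃ₐ[RatFunc ℚ] E) ℚ[X] (integralClosure ℚ[X] E) :=
    ⟨fun σ a b => map_smul (galRestrict ℚ[X] (RatFunc ℚ) E (integralClosure ℚ[X] E) σ) a b⟩
  have : Algebra.IsInvariant ℚ[X] (integralClosure ℚ[X] E) (E ≃ₐ[RatFunc ℚ] E) :=
    Algebra.isInvariant_of_isGalois ℚ[X] (RatFunc ℚ) E (integralClosure ℚ[X] E)
  have : Algebra.IsIntegral ℚ[X] (integralClosure ℚ[X] E) := inferInstance
  -- an integral primitive element
  obtain ⟨α, hα⟩ := Field.exists_primitive_element (RatFunc ℚ) E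
  obtain ⟨y, hy0, hy⟩ := (halg.isAlgebraic α).exists_integral_multiple
  obtain ⟨β, hβ⟩ : ∃ β, β = y • α := ⟨_, rfl⟩
  have hy0' : algebraMap ℚ[X] (RatFunc ℚ) y ≠ 0 := by
    rw [Ne, map_eq_zero_iff _ (IsFractionRing.injective ℚ[X] (RatFunc ℚ))]
    exact hy0
  have hβtop : IntermediateField.adjoin (RatFunc ℚ) {β} = ⊤ := by
    rw [eq_top_iff, ← hα, IntermediateField.adjoin_simple_le_iff]
    have h1 : β = algebraMap (RatFunc ℚ) E (algebraMap ℚ[X] (RatFunc ℚ) y) * α := by
      rw [hβ, Algebra.smul_def]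
      rfl
    have h2 : α = (algebraMap (RatFunc ℚ) E (algebraMap ℚ[X] (RatFunc ℚ) y))⁻¹ * β := by
      rw [h1, inv_mul_cancel_left₀]
      rw [Ne, map_eq_zero]
      exact hy0'
    rw [h2, ← map_inv₀]
    exact mul_mem (IntermediateField.algebraMap_mem _ _)
      (IntermediateField.mem_adjoin_simple_self _ _)
  rw [← hβ] at hy
  have hg := minpoly.isIntegrallyClosed_eq_field_fractions' (RatFunc ℚ) hy
  have hirr : Irreducible (minpoly ℚ[X] β) := minpoly.irreducible hy
  have hdeg : (minpoly ℚ[X] β).natDegree = Module.finrank (RatFunc ℚ) E := by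
    have h1 := (Field.primitive_element_iff_minpoly_natDegree_eq (RatFunc ℚ) β).mp hβtop
    rwa [hg, (minpoly.monic hy).natDegree_map] at h1
  have hpos : 0 < (minpoly ℚ[X] β).natDegree := by
    rw [hdeg]
    exact Module.finrank_pos
  obtain ⟨t, ht⟩ := (hilbert_irreducibility_single hirr hpos).nonempty
  -- the primes
  have hsurj : Function.Surjective (evalRingHom t : ℚ[X] →+* ℚ) := fun q => ⟨C q, by simp⟩
  have hmax : (RingHom.ker (evalRingHom t : ℚ[X] →+* ℚ)).IsMaximal :=
    RingHom.ker_isMaximal_of_surjective _ hsurj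
  have : FaithfulSMul ℚ[X] (integralClosure ℚ[X] E) := inferInstance
  obtain ⟨Q, hQ, hQover⟩ := Ideal.exists_maximal_ideal_liesOver_of_isIntegral
    (S := integralClosure ℚ[X] E) (RingHom.ker (evalRingHom t : ℚ[X] →+* ℚ))
  have hprime := hmax.isPrime
  have := Finite.of_fintype (E ≃ₐ[RatFunc ℚ] E)
  refine exists_galois_of_residue (RingHom.ker (evalRingHom t : ℚ[X] →+* ℚ)) Q
    (evalRingHom t) hsurj rfl (⟨β, hy⟩ : integralClosure ℚ[X] E) (minpoly ℚ[X] β) ?_ ht.1 ?_
  · apply Subtype.val_injective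
    have h1 := aeval_algebraMap_apply E (⟨β, hy⟩ : integralClosure ℚ[X] E) (minpoly ℚ[X] β)
    have h2 : algebraMap (integralClosure ℚ[X] E) E ⟨β, hy⟩ = β := rfl
    rw [h2, minpoly.aeval] at h1
    exact h1.symm
  · rw [ht.2, hdeg, IsGalois.card_aut_eq_finrank]

end Fermat.Agent.Cor.HIT
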