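import Fermat.Agent.Corollaries.HIT.Defs

/-!
# Hilbert's irreducibility theorem: Gauss' lemma
-/

set_option autoImplicit false

open Polynomial

namespace Fermat.Agent.Cor.HIT

/-- (GAU) -/
theorem gaussStmt : GaussStmt := by
  intro F g h hF hg hFgh j
  -- a primitive integral multiple of `g`
  obtain ⟨b, hbM, hb⟩ := IsLocalization.integerNormalization_spec (nonZeroDivisors ℤ) g
  set G : ℤ[X] := IsLocalization.integerNormalization (nonZeroDivisors ℤ) g with hG
  have hb0 : ((b : ℤ) : ℚ) ≠ 0 := by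
    have := nonZeroDivisors.ne_zero hbM
    exact_mod_cast this
  have hg0 : g ≠ 0 := hg.ne_zero
  have hG' : G.map (Int.castRingHom ℚ) = C ((b : ℤ) : ℚ) * g := by
    have h1 : G.map (algebraMap ℤ ℚ) = (b : ℤ) • g := hb
    rw [algebraMap_int_eq] at h1
    rw [h1, ← Int.cast_smul_eq_zsmul ℚ, smul_eq_C_mul]
  set g₀ := G.primPart with hg₀
  have h1 : C ((G.content : ℤ) : ℚ) * g₀.map (Int.castRingHom ℚ) = C ((b : ℤ) : ℚ) * g := by
    rw [← hG']
    conv_rhs => rw [G.eq_C_content_mul_primPart, Polynomial.map_mul, map_C]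
    rfl
  have hinj : Function.Injective (Int.castRingHom ℚ) := Int.cast_injective
  have h2 : ((G.content : ℤ) : ℚ) * (g₀.leadingCoeff : ℚ) = (b : ℤ) := by
    have h3 := congrArg leadingCoeff h1
    rw [leadingCoeff_mul, leadingCoeff_mul, leadingCoeff_C, leadingCoeff_C, hg.leadingCoeff,
      mul_one, leadingCoeff_map_of_injective hinj] at h3
    exact h3
  have hc0 : ((G.content : ℤ) : ℚ) ≠ 0 := by
    intro h3
    rw [h3, zero_mul] at h2
    exact hb0 h2.symm
  have hδ0 : ((g₀.leadingCoeff : ℤ) : ℚ) ≠ 0 := by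
    intro h3
    rw [h3, mul_zero] at h2
    exact hb0 h2.symm
  have h3 : g₀.map (Int.castRingHom ℚ) = C (g₀.leadingCoeff : ℚ) * g := by
    apply mul_left_cancel₀ (C_ne_zero.mpr hc0)
    rw [h1, ← mul_assoc, ← C_mul, h2]
  -- `g₀` divides `F`
  have h4 : g₀.map (Int.castRingHom ℚ) ∣ F.map (Int.castRingHom ℚ) := by
    rw [hFgh, h3]
    refine ⟨C (g₀.leadingCoeff : ℚ)⁻¹ * h, ?_⟩
    have h7 : C (g₀.leadingCoeff : ℚ) * C (g₀.leadingCoeff : ℚ)⁻¹ = 1 := by
      rw [← C_mul, mul_inv_cancel₀ hδ0, C_1]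
    linear_combination (-(g * h)) * h7
  obtain ⟨h₀, hh₀⟩ := (IsPrimitive.Int.dvd_iff_map_cast_dvd_map_cast g₀ F
    G.isPrimitive_primPart).mpr h4
  refine ⟨h₀.leadingCoeff * g₀.coeff j, ?_⟩
  have h6 := congrArg (fun P : ℚ[X] => P.coeff j) h3
  simp only [coeff_map, coeff_C_mul, eq_intCast] at h6
  conv_lhs => rw [hh₀, leadingCoeff_mul]
  push_cast
  rw [h6]
  ring

end Fermat.Agent.Cor.HIT
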