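import Fermat.Agent.Corollaries.HIT.Defs2
import Fermat.Agent.Corollaries.HIT.Alg

/-!
# The shift `t = t₀ + s` and the ramified points
-/

set_option autoImplicit false

open Polynomial Filter Topology

namespace Fermat.Agent.Cor.HIT

namespace Shift

/-- the automorphism `t ↦ t + t₀` of `ℚ[t]` -/
noncomputable def equiv (t₀ : ℚ) : ℚ[X] ≃+* ℚ[X] :=
  RingEquiv.ofRingHom (compRingHom (X + C t₀)) (compRingHom (X - C t₀))
    (by ext <;> simp) (by ext <;> simp)

theorem shift_eq (t₀ : ℚ) (f : ℚ[X][X]) : shift t₀ f = mapEquiv (equiv t₀) f := rfl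

theorem spQ_shift (t₀ : ℚ) (f : ℚ[X][X]) (s : ℚ) : spQ (shift t₀ f) s = spQ f (t₀ + s) := by
  rw [spQ, spQ, shift, Polynomial.map_map]
  congr 1
  ext
  · simp
  · simp [add_comm]

theorem sp_shift (t₀ : ℚ) (f : ℚ[X][X]) :
    sp (shift t₀ f) 0 = (spQ f t₀).map (algebraMap ℚ ℂ) := by
  have h : sp (shift t₀ f) 0 = (spQ (shift t₀ f) 0).map (algebraMap ℚ ℂ) := by
    rw [spQ, sp, Polynomial.map_map]
    congr 1
    ext <;> simp
  rw [h, spQ_shift, add_zero]

end Shift

theorem shiftStmt : ShiftStmt := by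
  intro t₀ f hf
  refine ⟨?_, ?_, Shift.spQ_shift t₀ f⟩
  · rw [Shift.shift_eq]
    exact (MulEquiv.irreducible_iff (mapEquiv (Shift.equiv t₀))).mpr hf
  · exact natDegree_map_eq_of_injective (Shift.equiv t₀).injective f

theorem badStmt : BadStmt := by
  intro f hf hd
  have hder : derivative f ≠ 0 := by
    intro h
    have := derivative_eq_zero.mp h
    omega
  obtain ⟨u, v, r, hr, huv⟩ := Alg.exists_bezout f (derivative f) hf hder
    (natDegree_derivative_lt (by omega))
  have hf0 : f ≠ 0 := hf.ne_zero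
  have hne : f.leadingCoeff * r ≠ 0 := mul_ne_zero (leadingCoeff_ne_zero.mpr hf0) hr
  refine (finite_setOfPred_isRoot hne).subset fun t₀ ht₀ => ?_
  by_contra hroot
  apply ht₀
  have hroot' : (f.leadingCoeff * r).eval t₀ ≠ 0 := hroot
  rw [eval_mul] at hroot'
  have hlc := left_ne_zero_of_mul hroot'
  have hrt := right_ne_zero_of_mul hroot'
  rw [Shift.sp_shift]
  constructor
  · rw [natDegree_map, spQ]
    exact natDegree_map_of_leadingCoeff_ne_zero (evalRingHom t₀) hlc
  · have h1 := congrArg (Polynomial.map (evalRingHom t₀)) huv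
    rw [Polynomial.map_add, Polynomial.map_mul, Polynomial.map_mul, map_C, ← derivative_map] at h1
    have h2 : (spQ f t₀).Separable := by
      refine ⟨C (r.eval t₀)⁻¹ * u.map (evalRingHom t₀), C (r.eval t₀)⁻¹ * v.map (evalRingHom t₀), ?_⟩
      have h3 : C (r.eval t₀)⁻¹ * C (r.eval t₀) = (1 : ℚ[X]) := by
        rw [← C_mul, inv_mul_cancel₀ hrt, C_1]
      rw [coe_evalRingHom] at h1
      rw [← h3, ← h1, spQ]
      ring
    exact h2.map

end Fermat.Agent.Cor.HIT
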