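import Fermat.Agent.Corollaries.HIT.ItgCount
import Fermat.Agent.Corollaries.HIT.Shift
import Fermat.Agent.Corollaries.HIT.Den

/-!
# Hilbert's irreducibility theorem with integer values

For finitely many irreducible polynomials `f(t, X) ∈ ℚ[t][X]` of positive degree in `X` there are
infinitely many positive integers `n` such that all `f(n, X) ∈ ℚ[X]` are irreducible, of the same
degree as `f` (`hilbert_irreducibility_int`).
-/

set_option autoImplicit false

open Polynomial Finset

namespace Fermat.Agent.Cor.HIT.Itg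

/-- clearing the denominators -/
theorem exists_int_model (f : ℚ[X][X]) : ∃ (D : ℚ) (f₁ : ℤ[X][X]), D ≠ 0 ∧
    f₁.map (mapRingHom (Int.castRingHom ℚ)) = C (C D) * f := by
  obtain ⟨D, hD, h⟩ := Den.exists_int_mul' f
  have hl : C (C (D : ℚ)) * f ∈ lifts (mapRingHom (Int.castRingHom ℚ)) := by
    rw [lifts_iff_coeff_lifts]
    intro k
    have h2 : (C (C (D : ℚ)) * f).coeff k ∈ lifts (Int.castRingHom ℚ) := by
      rw [lifts_iff_coeff_lifts]
      intro l
      obtain ⟨b, hb⟩ := h k l
      refine ⟨b, ?_⟩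
      rw [coeff_C_mul, coeff_C_mul, hb, eq_intCast]
    obtain ⟨g, hg⟩ := (mem_lifts _).mp h2
    exact ⟨g, by rw [coe_mapRingHom]; exact hg⟩
  obtain ⟨f₁, hf₁⟩ := (mem_lifts _).mp hl
  exact ⟨D, f₁, by exact_mod_cast hD.ne', hf₁⟩

theorem comp_scale {R : Type} [CommRing R] (P : R[X]) :
    (P.integralNormalization.comp (C P.leadingCoeff * X)) * C P.leadingCoeff =
      C (P.leadingCoeff ^ P.natDegree) * P := by
  have h1 : (P.integralNormalization * C P.leadingCoeff).comp (C P.leadingCoeff * X) =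
      (P.scaleRoots P.leadingCoeff).comp (C P.leadingCoeff * X) := by
    rw [integralNormalization_mul_C_leadingCoeff]
  rw [mul_comp, C_comp] at h1
  rw [h1, comp, scaleRoots_eval₂_mul, ← comp, comp_X, C_pow]

theorem noFac {f : ℚ[X][X]} (hf : Irreducible f) (hd : 0 < f.natDegree) {D : ℚ}
    {f₁ : ℤ[X][X]} (h : f₁.map (mapRingHom (Int.castRingHom ℚ)) = C (C D) * f)
    (hd₁ : f₁.natDegree = f.natDegree) (hf₁ : f₁ ≠ 0) : NoFac f₁.integralNormalization := by
  intro G H hG hH hGH
  set φ := mapRingHom (Int.castRingHom ℚ) with hφ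
  set a : ℚ[X] := φ f₁.leadingCoeff with ha
  have hinj : Function.Injective φ := map_injective _ Int.cast_injective
  have ha0 : a ≠ 0 := by
    rw [ha, Ne, map_eq_zero_iff φ hinj, leadingCoeff_eq_zero]
    exact hf₁
  have h1 := congrArg (Polynomial.map φ) (comp_scale f₁)
  rw [Polynomial.map_mul, Polynomial.map_mul, map_comp, hGH, Polynomial.map_mul, map_C, map_C, map_X, h,
    ← ha, map_pow, ← ha, mul_comp] at h1
  have hprime : Prime f := hf.prime
  have hdvd : f ∣ G.comp (C a * X) * H.comp (C a * X) * C a := by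
    rw [h1]
    exact Dvd.intro_left (C (a ^ f₁.natDegree) * C (C D)) (by ring)
  have hlin : (C a * X : ℚ[X][X]).natDegree = 1 := by
    rw [natDegree_C_mul ha0, natDegree_X]
  have hle : ∀ K : ℚ[X][X], K.Monic → f ∣ K.comp (C a * X) → f.natDegree ≤ K.natDegree := by
    intro K hK hdvd
    have hne : K.comp (C a * X) ≠ 0 := by
      intro h0
      have h2 : (K.comp (C a * X)).leadingCoeff = K.leadingCoeff * (C a * X : ℚ[X][X]).leadingCoeff ^ K.natDegree :=
        leadingCoeff_comp (by rw [hlin]; exact one_ne_zero)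
      rw [h0, hK.leadingCoeff, one_mul, leadingCoeff_zero] at h2
      have h3 : (C a * X : ℚ[X][X]).leadingCoeff = a := by
        rw [leadingCoeff_mul, leadingCoeff_C, leadingCoeff_X, mul_one]
      rw [h3] at h2
      exact pow_ne_zero _ ha0 h2.symm
    have h2 := natDegree_le_of_dvd hdvd hne
    rwa [natDegree_comp, hlin, mul_one] at h2
  have hsum : G.natDegree + H.natDegree = f.natDegree := by
    have h2 := congrArg natDegree hGH
    rw [natDegree_map_eq_of_injective hinj, natDegree_integralNormalization,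
      hG.natDegree_mul hH] at h2
    rw [← h2, hd₁]
  rcases hprime.dvd_or_dvd hdvd with h2 | h2
  · rcases hprime.dvd_or_dvd h2 with h3 | h3
    · have := hle G hG h3
      omega
    · have := hle H hH h3
      omega
  · exfalso
    have h3 := natDegree_le_of_dvd h2 (C_ne_zero.mpr ha0)
    rw [natDegree_C] at h3
    omega

/-- irreducibility of the specialization -/
theorem irreducible_of {f : ℚ[X][X]} {D : ℚ} (hD : D ≠ 0)
    {f₁ : ℤ[X][X]} (h : f₁.map (mapRingHom (Int.castRingHom ℚ)) = C (C D) * f)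
    (hd₁ : f₁.natDegree = f.natDegree) (hf₁ : f₁ ≠ 0) (n : ℤ) (hn : f₁.leadingCoeff.eval n ≠ 0)
    (hirr : Irreducible (f₁.integralNormalization.map (evalRingHom n))) :
    Irreducible (f.map (evalRingHom (n : ℚ))) ∧ (f.map (evalRingHom (n : ℚ))).natDegree = f.natDegree := by
  set F : ℚ[X] := (f₁.integralNormalization.map (evalRingHom n)).map (Int.castRingHom ℚ) with hF
  have hmon : (f₁.integralNormalization.map (evalRingHom n)).Monic :=
    (monic_integralNormalization hf₁).map _
  have hFi : Irreducible F := by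
    have := (hmon.irreducible_iff_irreducible_map_fraction_map (K := ℚ)).mp hirr
    exact this
  set a : ℚ := ((f₁.leadingCoeff.eval n : ℤ) : ℚ) with ha
  have ha0 : a ≠ 0 := Int.cast_ne_zero.mpr hn
  have h1 := congrArg (Polynomial.map ((Int.castRingHom ℚ).comp (evalRingHom n))) (comp_scale f₁)
  rw [Polynomial.map_mul, Polynomial.map_mul, map_comp, Polynomial.map_mul, map_C, map_C, map_X,
    map_pow, ← Polynomial.map_map, ← Polynomial.map_map, ← hF] at h1
  have h2 : (f₁.map (evalRingHom n)).map (Int.castRingHom ℚ) = C D * f.map (evalRingHom (n : ℚ)) := by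
    have h3 := congrArg (Polynomial.map (evalRingHom (n : ℚ))) h
    rw [Polynomial.map_map, Polynomial.map_mul, map_C, coe_evalRingHom, eval_C] at h3
    rw [← h3, Polynomial.map_map]
    congr 1
    ext <;> simp
  rw [h2] at h1
  let _ : Invertible a := invertibleOfNonzero ha0
  have h3 : algEquivCMulXAddC a 0 F = F.comp (C a * X) := by
    rw [algEquivCMulXAddC_apply, C_0, add_zero, comp, aeval_def]
    rfl
  have h4 : Irreducible (F.comp (C a * X)) := by
    rw [← h3]
    exact (MulEquiv.irreducible_iff (algEquivCMulXAddC a 0)).mpr hFi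
  have h5 : F.comp (C a * X) * C a = C (a ^ f₁.natDegree * D) * f.map (evalRingHom (n : ℚ)) := by
    rw [C_mul, mul_assoc]
    exact h1
  have hu1 : IsUnit (C a : ℚ[X]) := isUnit_C.mpr (isUnit_iff_ne_zero.mpr ha0)
  have hc0 : a ^ f₁.natDegree * D ≠ 0 := mul_ne_zero (pow_ne_zero _ ha0) hD
  have hu2 : IsUnit (C (a ^ f₁.natDegree * D) : ℚ[X]) := isUnit_C.mpr (isUnit_iff_ne_zero.mpr hc0)
  constructor
  · rw [← irreducible_isUnit_mul hu2, ← h5, irreducible_mul_isUnit hu1]
    exact h4
  · have h6 := congrArg natDegree h5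
    rw [natDegree_mul_C ha0, natDegree_C_mul hc0, natDegree_comp, natDegree_C_mul ha0, natDegree_X,
      mul_one, hF, natDegree_map_eq_of_injective Int.cast_injective,
      (monic_integralNormalization hf₁).natDegree_map, natDegree_integralNormalization] at h6
    rw [← h6, hd₁]

/-- the ramified points -/
theorem finite_bad {f : ℤ[X][X]} (hf : f.Monic) (hd : 0 < f.natDegree) (hno : NoFac f) :
    {n : ℤ | ¬ ((f.map (evalRingHom n)).map (Int.castRingHom ℚ)).Separable}.Finite := by
  have hirr : Irreducible (f.map (mapRingHom (Int.castRingHom ℚ))) := by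
    rw [(hf.map _).irreducible_iff_natDegree]
    refine ⟨fun h => ?_, fun G H hG hH hGH => hno G H hG hH hGH.symm⟩
    have h1 := congrArg natDegree h
    rw [hf.natDegree_map, natDegree_one] at h1
    omega
  have h1 := badStmt _ hirr (by rw [hf.natDegree_map]; exact hd)
  refine (h1.preimage (f := fun n : ℤ => (n : ℚ)) Int.cast_injective.injOn).subset ?_
  intro n hn hcon
  apply hn
  have h2 := hcon.2
  rw [Shift.sp_shift, separable_map] at h2
  have h3 : spQ (f.map (mapRingHom (Int.castRingHom ℚ))) (n : ℚ) =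
      (f.map (evalRingHom n)).map (Int.castRingHom ℚ) := by
    rw [spQ, Polynomial.map_map, Polynomial.map_map]
    congr 1
    ext <;> simp
  rwa [h3] at h2

/-- one polynomial -/
theorem single {f : ℚ[X][X]} (hf : Irreducible f) (hd : 0 < f.natDegree) :
    ∃ Z : Set ℤ, Z.Finite ∧ ∀ n₀ : ℤ, 1 ≤ n₀ → n₀ ∉ Z → ∃ L c : ℕ, ∀ p : ℕ, p.Prime → c < p →
      ∀ M : ℕ, ∃ k₀ : ℕ, ∀ k ≥ k₀, ∀ T : Finset ℕ, (∀ m ∈ T, 0 < m ∧ m < M) →
        (∀ m ∈ T, ¬ (Irreducible (f.map (evalRingHom ((n₀ + (p : ℤ) ^ k * m : ℤ) : ℚ))) ∧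
          (f.map (evalRingHom ((n₀ + (p : ℤ) ^ k * m : ℤ) : ℚ))).natDegree = f.natDegree)) →
        T.card ≤ L := by
  obtain ⟨D, f₁, hD, h⟩ := exists_int_model f
  have hinj : Function.Injective (mapRingHom (Int.castRingHom ℚ)) := map_injective _ Int.cast_injective
  have hd₁ : f₁.natDegree = f.natDegree := by
    have h1 := congrArg natDegree h
    rwa [natDegree_map_eq_of_injective hinj, natDegree_C_mul (C_ne_zero.mpr hD)] at h1
  have hf₁ : f₁ ≠ 0 := by
    rintro rfl
    rw [natDegree_zero] at hd₁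
    omega
  have hno := noFac hf hd h hd₁ hf₁
  have hmon := monic_integralNormalization hf₁
  have hdeg : 0 < f₁.integralNormalization.natDegree := by
    rw [natDegree_integralNormalization, hd₁]
    exact hd
  refine ⟨_, finite_bad hmon hdeg hno, fun n₀ hn₀ hZ => ?_⟩
  have hsep : ((f₁.integralNormalization.map (evalRingHom n₀)).map (Int.castRingHom ℚ)).Separable := by
    by_contra hcon
    exact hZ hcon
  obtain ⟨L, c, hL⟩ := count _ hmon hdeg hno n₀ hn₀ hsep
  -- the zeros of the leading coefficient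
  have hfin : {n : ℤ | f₁.leadingCoeff.IsRoot n}.Finite :=
    finite_setOfPred_isRoot (leadingCoeff_ne_zero.mpr hf₁)
  obtain ⟨R, hR⟩ := hfin.bddAbove
  refine ⟨L, c, fun p hp hcp M => ?_⟩
  obtain ⟨k₀, hk₀⟩ := hL p hp hcp M
  refine ⟨max k₀ R.toNat, fun k hk T hT hred => hk₀ k (le_of_max_le_left hk) T
    (fun m hm => (hT m hm).2) fun m hm hirr => hred m hm ?_⟩
  refine irreducible_of hD h hd₁ hf₁ _ (fun h0 => ?_) hirr
  have h1 : n₀ + (p : ℤ) ^ k * m ≤ R := hR h0
  have h2 : k < p ^ k := Nat.lt_pow_self hp.one_lt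
  have h3 : R.toNat ≤ k := le_of_max_le_right hk
  have h4 : ((p ^ k : ℕ) : ℤ) ≤ (p : ℤ) ^ k * m := by
    push_cast
    exact le_mul_of_one_le_right (by positivity) (by exact_mod_cast (hT m hm).1)
  have h5 : (R : ℤ) ≤ R.toNat := Int.self_le_toNat R
  omega

end Fermat.Agent.Cor.HIT.Itg

namespace Fermat.Agent.Cor.HIT

open Itg

/-- **Hilbert's irreducibility theorem with integer values**: for finitely many irreducible
polynomials `f(t, X) ∈ ℚ[t][X]` of positive degree in `X` there are infinitely many (positive)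
integers `n` such that all `f(n, X) ∈ ℚ[X]` are irreducible of the same degree. -/
theorem hilbert_irreducibility_int (F : Finset ℚ[X][X])
    (hF : ∀ f ∈ F, Irreducible f ∧ 0 < f.natDegree) :
    {n : ℕ | ∀ f ∈ F, Irreducible (f.map (evalRingHom (n : ℚ))) ∧
      (f.map (evalRingHom (n : ℚ))).natDegree = f.natDegree}.Infinite := by
  classical
  choose! Z hZ hZ2 using fun f (hf : f ∈ F) => single (hF f hf).1 (hF f hf).2
  -- the base point
  have hfin : (⋃ f ∈ F, Z f).Finite := F.finite_toSet.biUnion hZ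
  obtain ⟨n₀, hn₀, hn₀Z⟩ : ∃ n₀ : ℤ, 1 ≤ n₀ ∧ n₀ ∉ ⋃ f ∈ F, Z f := by
    obtain ⟨n₀, h1, h2⟩ := (Set.Ici_infinite (1 : ℤ)).exists_notMem_finite hfin
    exact ⟨n₀, h1, h2⟩
  have hn₀' : ∀ f ∈ F, n₀ ∉ Z f := fun f hf h => hn₀Z (Set.mem_biUnion (Finset.mem_coe.mpr hf) h)
  choose! L c hLc using fun f (hf : f ∈ F) => hZ2 f hf n₀ hn₀ (hn₀' f hf)
  obtain ⟨p, hpc, hp⟩ := Nat.exists_infinite_primes (F.sup c + 1)
  set M := ∑ f ∈ F, L f + 2 with hM
  choose! k₀ hk₀ using fun f (hf : f ∈ F) => hLc f hf p hp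
    (lt_of_le_of_lt (Finset.le_sup hf) (Nat.lt_of_succ_le hpc)) M
  refine Set.infinite_of_forall_exists_gt fun N => ?_
  set k := max (F.sup k₀) N with hk
  by_contra hcon
  push Not at hcon
  set T : ℚ[X][X] → Finset ℕ := fun f => (Finset.Ico 1 M).filter fun m =>
    ¬ (Irreducible (f.map (evalRingHom ((n₀ + (p : ℤ) ^ k * m : ℤ) : ℚ))) ∧
          (f.map (evalRingHom ((n₀ + (p : ℤ) ^ k * m : ℤ) : ℚ))).natDegree = f.natDegree) with hTdef
  have hT : ∀ f ∈ F, (T f).card ≤ L f := by
    intro f hf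
    refine hk₀ f hf k ((Finset.le_sup hf).trans (le_max_left _ _)) (T f) (fun m hm => ?_)
      (fun m hm => (Finset.mem_filter.mp hm).2)
    have := Finset.mem_Ico.mp (Finset.mem_filter.mp hm).1
    omega
  have hcover : Finset.Ico 1 M ⊆ F.biUnion T := by
    intro m hm
    by_contra hnot
    rw [Finset.mem_biUnion] at hnot
    push Not at hnot
    have hm' := Finset.mem_Ico.mp hm
    have h0 : (0 : ℤ) ≤ n₀ + (p : ℤ) ^ k * m := by positivity
    have hcast : (((n₀ + (p : ℤ) ^ k * m).toNat : ℕ) : ℚ) = ((n₀ + (p : ℤ) ^ k * m : ℤ) : ℚ) := by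
      have := Int.toNat_of_nonneg h0
      exact_mod_cast congrArg (fun x : ℤ => (x : ℚ)) this
    have h1 : (n₀ + (p : ℤ) ^ k * m).toNat ≤ N := by
      refine hcon _ fun f hf => ?_
      rw [hcast]
      by_contra h2
      exact hnot f hf (Finset.mem_filter.mpr ⟨hm, h2⟩)
    have h2 : k < p ^ k := Nat.lt_pow_self hp.one_lt
    have h4 : ((p ^ k : ℕ) : ℤ) ≤ (p : ℤ) ^ k * m := by
      push_cast
      exact le_mul_of_one_le_right (by positivity) (by exact_mod_cast hm'.1)
    have h5 : N ≤ k := le_max_right _ _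
    omega
  have hcard := (Finset.card_le_card hcover).trans Finset.card_biUnion_le
  have h6 := hcard.trans (Finset.sum_le_sum hT)
  rw [Nat.card_Ico] at h6
  omega

/-- **Hilbert's irreducibility theorem with integer values**, one polynomial. -/
theorem hilbert_irreducibility_int_single {f : ℚ[X][X]} (hf : Irreducible f)
    (hd : 0 < f.natDegree) :
    {n : ℕ | Irreducible (f.map (evalRingHom (n : ℚ))) ∧
      (f.map (evalRingHom (n : ℚ))).natDegree = f.natDegree}.Infinite := by
  have h := hilbert_irreducibility_int {f} fun g hg => by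
    rw [Finset.mem_singleton] at hg
    rw [hg]
    exact ⟨hf, hd⟩
  refine h.mono fun n hn => ?_
  exact hn f (Finset.mem_singleton_self f)

end Fermat.Agent.Cor.HIT
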