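import Fermat.Agent.Corollaries.HIT.Root
import Fermat.Agent.Corollaries.HIT.Integer

/-!
# Rational roots of the specializations at integers

Consequences of Hilbert's irreducibility theorem with integer values. `f ∈ ℚ[t][X]`, `f(n, X)` has a
rational root for all but finitely many natural numbers `n`: then `f` has a divisor of degree one in
`X`. `P ∈ ℚ[t]` with `P(n)` a `k`-th power in `ℚ` for all but finitely many natural numbers `n`: then
`P` is a `k`-th power in `ℚ[t]`; for `P ∈ ℤ[t]` and `k`-th powers of integers it is a `k`-th power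
in `ℤ[t]`.
-/

set_option autoImplicit false

open Polynomial UniqueFactorizationMonoid

namespace Fermat.Agent.Cor.HIT

/-- **A polynomial whose specializations at the integers have rational roots.** -/
theorem exists_dvd_of_root_int {f : ℚ[X][X]} (hf : f ≠ 0)
    (h : {n : ℕ | ∀ x : ℚ, (f.map (evalRingHom (n : ℚ))).eval x ≠ 0}.Finite) :
    ∃ g : ℚ[X][X], g ∣ f ∧ g.natDegree = 1 := by
  classical
  by_contra hno
  push Not at hno
  let F : Finset ℚ[X][X] := (normalizedFactors f).toFinset.filter fun g => 0 < g.natDegree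
  let Z : Finset ℚ[X][X] := (normalizedFactors f).toFinset.filter fun g => g.natDegree = 0
  have hF := hilbert_irreducibility_int F fun g hg => by
    rw [Finset.mem_filter, Multiset.mem_toFinset] at hg
    exact ⟨irreducible_of_normalized_factor g hg.1, hg.2⟩
  have hZ : (⋃ c ∈ Z, {n : ℕ | spQ c (n : ℚ) = 0}).Finite := by
    refine Set.Finite.biUnion Z.finite_toSet fun c hc => ?_
    rw [Finset.mem_coe, Finset.mem_filter, Multiset.mem_toFinset] at hc
    exact (spQ_eq_zero_finite (irreducible_of_normalized_factor c hc.1).ne_zero hc.2).preimage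
      (f := fun n : ℕ => (n : ℚ)) Nat.cast_injective.injOn
  obtain ⟨t, ht, htn⟩ := (hF.sdiff (h.union hZ)).nonempty
  simp only [Set.mem_union, Set.mem_ofPred_eq, Set.mem_iUnion, not_or, not_exists, not_forall,
    not_not] at htn
  obtain ⟨⟨x, hx⟩, hz⟩ := htn
  have hprod : ∀ m : Multiset ℚ[X][X], (spQ m.prod (t : ℚ)).eval x = 0 →
      ∃ g ∈ m, (spQ g (t : ℚ)).eval x = 0 := by
    intro m
    induction m using Multiset.induction_on with
    | empty =>
      intro h1
      rw [Multiset.prod_zero, spQ, Polynomial.map_one, eval_one] at h1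
      exact absurd h1 one_ne_zero
    | cons a m ih =>
      intro h1
      rw [Multiset.prod_cons, spQ_mul, eval_mul] at h1
      rcases mul_eq_zero.mp h1 with h2 | h2
      · exact ⟨a, Multiset.mem_cons_self a m, h2⟩
      · obtain ⟨g, hg, hg'⟩ := ih h2
        exact ⟨g, Multiset.mem_cons_of_mem hg, hg'⟩
  obtain ⟨u, hu⟩ := (prod_normalizedFactors hf).symm
  have hx' : (spQ (normalizedFactors f).prod (t : ℚ)).eval x = 0 := by
    rw [← hu, spQ_mul, eval_mul, spQ, hx, zero_mul]
  obtain ⟨g, hg, hgx⟩ := hprod _ hx'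
  rcases Nat.eq_zero_or_pos g.natDegree with h0 | h0
  · refine hz g (by rw [Finset.mem_filter, Multiset.mem_toFinset]; exact ⟨hg, h0⟩) ?_
    obtain ⟨a, rfl⟩ := natDegree_eq_zero.mp h0
    rw [spQ, map_C, eval_C] at hgx
    rw [spQ, map_C, hgx, C_0]
  · obtain ⟨h1, h2⟩ := ht g (by rw [Finset.mem_filter, Multiset.mem_toFinset]; exact ⟨hg, h0⟩)
    have h3 := natDegree_eq_of_degree_eq_some (degree_eq_one_of_irreducible_of_root h1 hgx)
    exact hno g (dvd_of_mem_normalizedFactors hg) (by rw [← h2, h3]; rfl)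

/-- **A polynomial whose values at the integers are `k`-th powers of rational numbers is a `k`-th
power.** -/
theorem exists_pow_eq_of_nat {P : ℚ[X]} {k : ℕ} (hk : k ≠ 0)
    (h : {n : ℕ | ∀ x : ℚ, x ^ k ≠ P.eval (n : ℚ)}.Finite) : ∃ Q : ℚ[X], Q ^ k = P := by
  classical
  have hf : (X ^ k - C P : ℚ[X][X]) ≠ 0 := X_pow_sub_C_ne_zero (Nat.pos_of_ne_zero hk) P
  have hsp : ∀ t : ℚ, (X ^ k - C P : ℚ[X][X]).map (evalRingHom t) = X ^ k - C (P.eval t) :=
    fun t => by rw [Polynomial.map_sub, Polynomial.map_pow, map_X, map_C, coe_evalRingHom]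
  obtain ⟨g, ⟨q, hq⟩, hg⟩ := exists_dvd_of_root_int hf (h.subset fun t ht x hx => by
    refine ht x ?_
    rw [hsp, eval_sub, eval_pow, eval_X, eval_C, hx, sub_self])
  have hu : g.leadingCoeff * q.leadingCoeff = 1 := by
    rw [← leadingCoeff_mul, ← hq, leadingCoeff_X_pow_sub_C (Nat.pos_of_ne_zero hk)]
  refine ⟨-(g.coeff 0) * q.leadingCoeff, ?_⟩
  have hg0 : g.eval (-(g.coeff 0) * q.leadingCoeff) = 0 := by
    rw [leadingCoeff, hg] at hu
    rw [eq_X_add_C_of_natDegree_le_one hg.le]
    simp only [eval_add, eval_mul, eval_C, eval_X, coeff_add, coeff_C_mul, coeff_X_zero, coeff_C_zero]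
    linear_combination -(g.coeff 0) * hu
  have h1 : (X ^ k - C P : ℚ[X][X]).eval (-(g.coeff 0) * q.leadingCoeff) = 0 := by
    rw [hq, eval_mul, hg0, zero_mul]
  rw [eval_sub, eval_pow, eval_X, eval_C] at h1
  exact sub_eq_zero.mp h1

attribute [local instance] Polynomial.algebra in
/-- **A polynomial with integer coefficients whose values at the integers are `k`-th powers of
integers is a `k`-th power in `ℤ[X]`.** -/
theorem exists_pow_eq_of_int {P : ℤ[X]} {k : ℕ} (hk : k ≠ 0)
    (h : {n : ℕ | ∀ x : ℤ, x ^ k ≠ P.eval (n : ℤ)}.Finite) : ∃ Q : ℤ[X], Q ^ k = P := by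
  obtain ⟨Q, hQ⟩ := exists_pow_eq_of_nat (P := P.map (Int.castRingHom ℚ)) hk
    (h.subset fun n hn x hx => by
      refine hn (x : ℚ) ?_
      have h1 : (P.map (Int.castRingHom ℚ)).eval (n : ℚ) = ((P.eval (n : ℤ) : ℤ) : ℚ) := by
        simp
      rw [h1, ← hx]
      push_cast
      rfl)
  have hint : IsIntegral ℤ[X] Q := by
    refine ⟨X ^ k - C P, monic_X_pow_sub_C P hk, ?_⟩
    rw [eval₂_sub, eval₂_pow, eval₂_X, eval₂_C, hQ]
    exact sub_self (P.map (Int.castRingHom ℚ))
  have hl : Q ∈ lifts (Int.castRingHom ℚ) := by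
    rw [lifts_iff_coeff_lifts]
    intro n
    have h2 : IsIntegral ℤ (Q.coeff n) := isIntegral_iff_isIntegral_coeff.mp hint n
    obtain ⟨y, hy⟩ := IsIntegrallyClosed.isIntegral_iff.mp h2
    exact ⟨y, hy⟩
  obtain ⟨R, hR⟩ := (mem_lifts _).mp hl
  refine ⟨R, map_injective (Int.castRingHom ℚ) Int.cast_injective ?_⟩
  rw [Polynomial.map_pow, hR, hQ]

end Fermat.Agent.Cor.HIT
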