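/-
A polynomial bound for the coefficients of the factors of f(n, X) (helper47).
-/
import Mathlib

/-!
# The coefficients of the monic factors of `f(n, X)`

`coeff_bound`: if `f ∈ ℤ[t][X]` is monic in `X`, then the coefficients of every monic factor in
`ℤ[X]` of `f(n, X)` are at most `C n ^ κ`, with `C` and `κ` depending only on `f`.
-/

open Polynomial Finset

namespace Fermat.Agent.Cor.HIT.Itg

/-- A polynomial grows polynomially. -/
theorem eval_bound (g : ℤ[X]) : ∃ C κ : ℕ, ∀ n : ℤ, 1 ≤ n → ∀ k, κ ≤ k → |g.eval n| ≤ C * n ^ k := by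
  refine ⟨∑ i ∈ range (g.natDegree + 1), (g.coeff i).natAbs, g.natDegree, fun n hn k hk => ?_⟩
  rw [eval_eq_sum_range]
  refine (Finset.abs_sum_le_sum_abs _ _).trans ?_
  push_cast
  rw [Finset.sum_mul]
  refine Finset.sum_le_sum fun i hi => ?_
  rw [abs_mul, abs_pow, abs_of_nonneg (by linarith : (0 : ℤ) ≤ n)]
  refine mul_le_mul_of_nonneg_left (pow_le_pow_right₀ hn ?_) (abs_nonneg _)
  rw [Finset.mem_range] at hi
  omega

/-- The coefficients of `f(n, X)` grow polynomially. -/
theorem coeff_eval_bound (f : ℤ[X][X]) : ∃ C κ : ℕ, ∀ n : ℤ, 1 ≤ n → ∀ j,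
    |(f.map (evalRingHom n)).coeff j| ≤ C * n ^ κ := by
  choose C κ h using fun g : ℤ[X] => eval_bound g
  refine ⟨∑ j ∈ range (f.natDegree + 1), C (f.coeff j),
    ∑ j ∈ range (f.natDegree + 1), κ (f.coeff j), fun n hn j => ?_⟩
  rw [coeff_map, coe_evalRingHom]
  by_cases hj : j ∈ range (f.natDegree + 1)
  · refine (h (f.coeff j) n hn _ (Finset.single_le_sum
      (f := fun j => κ (f.coeff j)) (fun _ _ => Nat.zero_le _) hj)).trans ?_
    refine mul_le_mul_of_nonneg_right ?_ (by positivity)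
    exact_mod_cast Finset.single_le_sum (f := fun j => C (f.coeff j)) (fun _ _ => Nat.zero_le _) hj
  · have : f.coeff j = 0 := coeff_eq_zero_of_natDegree_lt (by
      rw [Finset.mem_range] at hj
      omega)
    rw [this, eval_zero, abs_zero]
    positivity

theorem coeff_bound (f : ℤ[X][X]) (hf : f.Monic) : ∃ C κ : ℕ, ∀ n : ℤ, 1 ≤ n →
    ∀ G H : ℤ[X], G.Monic → H.Monic → f.map (evalRingHom n) = G * H →
      ∀ j, |G.coeff j| ≤ C * n ^ κ := by
  obtain ⟨C, κ, hC⟩ := coeff_eval_bound f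
  refine ⟨(C + 1) ^ f.natDegree * f.natDegree.choose (f.natDegree / 2), κ * f.natDegree,
    fun n hn G H hG hH hGH j => ?_⟩
  have hn0 : (0 : ℤ) < n := by linarith
  have hnR : (1 : ℝ) ≤ (n : ℝ) := by exact_mod_cast hn
  have hPm : (f.map (evalRingHom n)).Monic := hf.map _
  have hPd : (f.map (evalRingHom n)).natDegree = f.natDegree := hf.natDegree_map _
  set P := f.map (evalRingHom n) with hP
  have hinj : Function.Injective (Int.castRingHom ℂ) := (Int.castRingHom ℂ).injective_int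
  have hPC : (P.map (Int.castRingHom ℂ)).Monic := hPm.map _
  -- the roots
  have hroot : ∀ z : ℂ, (P.map (Int.castRingHom ℂ)).IsRoot z → ‖z‖ ≤ (C + 1) * (n : ℝ) ^ κ := by
    intro z hz
    have h1 := hz.norm_lt_cauchyBound hPC.ne_zero
    have h2 : cauchyBound (P.map (Int.castRingHom ℂ)) ≤ ((C : NNReal) * (n.toNat : NNReal) ^ κ) + 1 := by
      rw [cauchyBound, hPC.leadingCoeff, nnnorm_one, div_one]
      gcongr
      refine Finset.sup_le fun i _ => ?_
      rw [← NNReal.coe_le_coe, coe_nnnorm, coeff_map]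
      have h3 := hC n hn i
      have h4 : ((|P.coeff i| : ℤ) : ℝ) ≤ ((C * n ^ κ : ℤ) : ℝ) := by exact_mod_cast h3
      have h5 : ((n.toNat : ℕ) : ℝ) = (n : ℝ) := by
        have : ((n.toNat : ℕ) : ℤ) = n := Int.toNat_of_nonneg hn0.le
        exact_mod_cast this
      simp only [eq_intCast, NNReal.coe_mul, NNReal.coe_pow, NNReal.coe_natCast]
      rw [h5, Complex.norm_intCast]
      push_cast at h4
      exact h4
    have h5 : ((n.toNat : ℕ) : ℝ) = (n : ℝ) := by
      have : ((n.toNat : ℕ) : ℤ) = n := Int.toNat_of_nonneg hn0.le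
      exact_mod_cast this
    have h6 : ‖z‖ ≤ (C : ℝ) * (n : ℝ) ^ κ + 1 := by
      have := NNReal.coe_le_coe.2 (h1.le.trans h2)
      simp only [coe_nnnorm, NNReal.coe_add, NNReal.coe_mul, NNReal.coe_pow, NNReal.coe_natCast,
        NNReal.coe_one] at this
      rwa [h5] at this
    have h7 : (1 : ℝ) ≤ (n : ℝ) ^ κ := one_le_pow₀ hnR
    linarith
  -- the coefficients of `G`
  have hBpos : (1 : ℝ) ≤ (C + 1) * (n : ℝ) ^ κ := by
    have h7 : (1 : ℝ) ≤ (n : ℝ) ^ κ := one_le_pow₀ hnR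
    have h8 : (0 : ℝ) ≤ C := Nat.cast_nonneg _
    nlinarith
  have hGd : (G.map (Int.castRingHom ℂ)).natDegree ≤ f.natDegree := by
    rw [hG.natDegree_map, ← hPd, hGH, hG.natDegree_mul hH]
    omega
  have key := coeff_bdd_of_roots_le (B := (C + 1) * (n : ℝ) ^ κ) (d := f.natDegree) (RingHom.id ℂ)
    (p := G.map (Int.castRingHom ℂ)) (hG.map _) (IsAlgClosed.splits _) hGd
    (fun z hz => by
      rw [Polynomial.map_id] at hz
      apply hroot
      have h1 := isRoot_of_mem_roots hz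
      rw [IsRoot.def] at h1 ⊢
      rw [hGH, Polynomial.map_mul, eval_mul, h1, zero_mul]) j
  rw [Polynomial.map_id, coeff_map, eq_intCast, Complex.norm_intCast, max_eq_left hBpos] at key
  have h9 : ((|G.coeff j| : ℤ) : ℝ) ≤
      ((((C + 1) ^ f.natDegree * f.natDegree.choose (f.natDegree / 2) : ℕ) * n ^ (κ * f.natDegree)
        : ℤ) : ℝ) := by
    push_cast
    refine key.trans (le_of_eq ?_)
    rw [mul_pow, pow_mul]
    ring
  exact_mod_cast h9

end Fermat.Agent.Cor.HIT.Itg
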