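/-
Factorizations modulo q and sets of roots (helper47).
-/
import Mathlib

/-!
# Factorizations modulo `q` of a product of linear factors

`matching`: over a local ring `A`, if `G H ≡ ∏ (X - y_i)` modulo `q`, with unit differences
`y_i - y_j`, then `G ≡ ∏_{i ∈ S} (X - y_i)` and `H ≡ ∏_{i ∉ S} (X - y_i)` modulo `q`.
-/

open Polynomial Finset

namespace Fermat.Agent.Cor.HIT.Itg

/-- The case of an equality, over a nontrivial local ring. -/
theorem matching_aux {B : Type*} [CommRing B] [IsLocalRing B] {d : ℕ} (G H : B[X])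
    (hG : G.Monic) (hH : H.Monic) (z : Fin d → B) (hz : ∀ i j, i ≠ j → IsUnit (z i - z j))
    (hF : G * H = ∏ i, (X - C (z i))) : ∃ S : Finset (Fin d),
      G = ∏ i ∈ S, (X - C (z i)) ∧ H = ∏ i ∈ Sᶜ, (X - C (z i)) := by
  classical
  have hroot : ∀ i, G.eval (z i) = 0 ∨ H.eval (z i) = 0 := by
    intro i
    have hfac : G * H = (X - C (z i)) * ∏ j ∈ univ.erase i, (X - C (z j)) :=
      hF.trans (Finset.mul_prod_erase univ (fun j => X - C (z j)) (Finset.mem_univ i)).symm
    have h1 : G.eval (z i) * H.eval (z i) = 0 := by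
      rw [← eval_mul, hfac, eval_mul]
      simp
    have h2 : (derivative G).eval (z i) * H.eval (z i) + G.eval (z i) * (derivative H).eval (z i) =
        (∏ j ∈ univ.erase i, (X - C (z j))).eval (z i) := by
      have := congrArg (fun P => (derivative P).eval (z i)) hfac
      simp only [derivative_mul, eval_add, eval_mul, derivative_sub, derivative_X, derivative_C,
        eval_sub, eval_X, eval_C, sub_self, zero_mul, add_zero, sub_zero,
        one_mul] at this
      exact this
    have h3 : IsUnit ((∏ j ∈ univ.erase i, (X - C (z j))).eval (z i)) := by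
      rw [eval_prod, IsUnit.prod_iff]
      intro j hj
      rw [eval_sub, eval_X, eval_C]
      exact hz i j (Finset.ne_of_mem_erase hj).symm
    rw [← h2] at h3
    rcases IsLocalRing.isUnit_or_isUnit_of_isUnit_add h3 with h4 | h4
    · left
      exact (isUnit_of_mul_isUnit_right h4).mul_left_eq_zero.1 h1
    · right
      exact (isUnit_of_mul_isUnit_left h4).mul_right_eq_zero.1 h1
  have hpw : ∀ T : Finset (Fin d), (T : Set (Fin d)).Pairwise
      (Function.onFun IsCoprime fun i => X - C (z i)) := fun T i _ j _ hij =>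
    isCoprime_X_sub_C_of_isUnit_sub (hz i j hij)
  set S : Finset (Fin d) := univ.filter fun i => G.eval (z i) = 0 with hS
  obtain ⟨U, hU⟩ : ∏ i ∈ S, (X - C (z i)) ∣ G :=
    Finset.prod_dvd_of_coprime (hpw S) fun i hi => dvd_iff_isRoot.2 (by
      rw [hS, Finset.mem_filter] at hi
      exact hi.2)
  obtain ⟨V, hV⟩ : ∏ i ∈ Sᶜ, (X - C (z i)) ∣ H :=
    Finset.prod_dvd_of_coprime (hpw Sᶜ) fun i hi => dvd_iff_isRoot.2 (by
      rw [Finset.mem_compl, hS, Finset.mem_filter, not_and] at hi
      exact (hroot i).resolve_left (hi (Finset.mem_univ i)))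
  have hPm : ∀ T : Finset (Fin d), (∏ i ∈ T, (X - C (z i))).Monic := fun T =>
    monic_prod_of_monic _ _ fun i _ => monic_X_sub_C _
  have hUm : U.Monic := (hPm S).of_mul_monic_left (by rw [← hU]; exact hG)
  have hVm : V.Monic := (hPm Sᶜ).of_mul_monic_left (by rw [← hV]; exact hH)
  have hdeg : ∀ T : Finset (Fin d), (∏ i ∈ T, (X - C (z i))).natDegree = T.card := fun T => by
    rw [natDegree_prod_of_monic _ _ fun i _ => monic_X_sub_C _]
    simp
  have h1 : G.natDegree = S.card + U.natDegree := by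
    rw [hU, (hPm S).natDegree_mul hUm, hdeg]
  have h2 : H.natDegree = Sᶜ.card + V.natDegree := by
    rw [hV, (hPm Sᶜ).natDegree_mul hVm, hdeg]
  have h3 : G.natDegree + H.natDegree = d := by
    rw [← hG.natDegree_mul hH, hF, hdeg, Finset.card_univ, Fintype.card_fin]
  have h4 : S.card + Sᶜ.card = d := by
    rw [Finset.card_add_card_compl, Fintype.card_fin]
  have hU1 : U = 1 := hUm.natDegree_eq_zero.1 (by omega)
  have hV1 : V = 1 := hVm.natDegree_eq_zero.1 (by omega)
  exact ⟨S, by rw [hU, hU1, mul_one], by rw [hV, hV1, mul_one]⟩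

theorem matching {A : Type} [CommRing A] [IsLocalRing A] {d : ℕ} (q : A) (hq : ¬ IsUnit q)
    (G H : A[X]) (hG : G.Monic) (hH : H.Monic) (y : Fin d → A)
    (hy : ∀ i j, i ≠ j → IsUnit (y i - y j))
    (h : ∀ j, q ∣ (G * H - ∏ i, (X - C (y i))).coeff j) : ∃ S : Finset (Fin d),
      S.card = G.natDegree ∧ (∀ j, q ∣ (G - ∏ i ∈ S, (X - C (y i))).coeff j) ∧
      ∀ j, q ∣ (H - ∏ i ∈ Sᶜ, (X - C (y i))).coeff j := by
  classical
  have hI : Ideal.span {q} ≠ ⊤ := fun h1 => hq (Ideal.span_singleton_eq_top.1 h1)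
  haveI : Nontrivial (A ⧸ Ideal.span {q}) := Ideal.Quotient.nontrivial_iff.2 hI
  haveI : IsLocalRing (A ⧸ Ideal.span {q}) :=
    IsLocalRing.of_surjective' (Ideal.Quotient.mk _) Ideal.Quotient.mk_surjective
  have hmap : ∀ P Q : A[X], (∀ j, q ∣ (P - Q).coeff j) ↔
      P.map (Ideal.Quotient.mk (Ideal.span {q})) = Q.map (Ideal.Quotient.mk (Ideal.span {q})) := by
    intro P Q
    rw [← sub_eq_zero, ← Polynomial.map_sub, Polynomial.ext_iff]
    refine forall_congr' fun j => ?_
    rw [coeff_map, coeff_zero]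
    exact (Ideal.Quotient.eq_zero_iff_dvd q _).symm
  have hP : ∀ T : Finset (Fin d), (∏ i ∈ T, (X - C (y i))).map
      (Ideal.Quotient.mk (Ideal.span {q})) =
        ∏ i ∈ T, (X - C (Ideal.Quotient.mk (Ideal.span {q}) (y i))) := fun T => by
    rw [Polynomial.map_prod]
    simp only [Polynomial.map_sub, map_X, map_C]
  obtain ⟨S, h1, h2⟩ := matching_aux (G.map (Ideal.Quotient.mk (Ideal.span {q})))
    (H.map (Ideal.Quotient.mk (Ideal.span {q}))) (hG.map _) (hH.map _)
    (fun i => Ideal.Quotient.mk (Ideal.span {q}) (y i))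
    (fun i j hij => by rw [← map_sub]; exact (hy i j hij).map _)
    (by rw [← Polynomial.map_mul, (hmap _ _).1 h, hP])
  refine ⟨S, ?_, (hmap _ _).2 (by rw [h1, hP]), (hmap _ _).2 (by rw [h2, hP])⟩
  rw [← hG.natDegree_map (Ideal.Quotient.mk (Ideal.span {q})), h1,
    natDegree_prod_of_monic _ _ fun i _ => monic_X_sub_C _]
  simp

end Fermat.Agent.Cor.HIT.Itg
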