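import Mathlib

/-!
# Hilbert's irreducibility theorem with integer values: Newton's method modulo `X^r`

`A` a domain, `P ∈ A[t][X]` monic, `P(0, X) = ∏ (X - α_i)` with `α_i - α_j` units for `i ≠ j`:
there are `Y_i ∈ A[t]` with `Y_i(0) = α_i` and `P ≡ ∏ (X - Y_i)` modulo `t^r`.
-/

set_option autoImplicit false

open Polynomial Finset

namespace Fermat.Agent.Cor.HIT.Itg

theorem isNilpotent_mk {A : Type} [CommRing A] (r : ℕ) {f : A[X]} (hf : f.coeff 0 = 0) :
    IsNilpotent (Ideal.Quotient.mk (Ideal.span {(X : A[X]) ^ (r + 1)}) f) := by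
  obtain ⟨g, rfl⟩ := X_dvd_iff.mpr hf
  refine ⟨r + 1, ?_⟩
  rw [← map_pow, Ideal.Quotient.eq_zero_iff_mem, Ideal.mem_span_singleton, mul_pow]
  exact Dvd.intro _ rfl

theorem isUnit_mk {A : Type} [CommRing A] (r : ℕ) {f : A[X]} (hf : IsUnit (f.coeff 0)) :
    IsUnit (Ideal.Quotient.mk (Ideal.span {(X : A[X]) ^ (r + 1)}) f) := by
  have h1 := isNilpotent_mk r (f := f - C (f.coeff 0)) (by simp)
  have h2 : IsUnit (Ideal.Quotient.mk (Ideal.span {(X : A[X]) ^ (r + 1)}) (C (f.coeff 0))) :=
    (hf.map C).map _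
  have h3 := h1.isUnit_add_left_of_commute h2 (Commute.all _ _)
  rwa [← map_add, add_sub_cancel] at h3

/-- a monic polynomial of degree `d` with `d` roots whose differences are units -/
theorem eq_prod_of_eval_eq_zero {B : Type} [CommRing B] {d : ℕ} {Q : B[X]} (hQ : Q.Monic)
    (hd : Q.natDegree = d) (y : Fin d → B) (hy : ∀ i j, i ≠ j → IsUnit (y i - y j))
    (h : ∀ i, Q.eval (y i) = 0) : Q = ∏ i, (X - C (y i)) := by
  rcases subsingleton_or_nontrivial B with hs | hs
  · exact Subsingleton.elim _ _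
  have hdvd : ∏ i, (X - C (y i)) ∣ Q :=
    Finset.prod_dvd_of_coprime
      (fun i _ j _ hij => isCoprime_X_sub_C_of_isUnit_sub (hy i j hij))
      (fun i _ => dvd_iff_isRoot.mpr (h i))
  refine (eq_of_monic_of_dvd_of_natDegree_le (monic_prod_of_monic _ _ fun i _ =>
    monic_X_sub_C _) hQ hdvd ?_)
  rw [hd, natDegree_prod_of_monic _ _ (fun i _ => monic_X_sub_C _)]
  simp

theorem newton {A : Type} [CommRing A] [IsDomain A] {d : ℕ} (P : A[X][X]) (hP : P.Monic)
    (α : Fin d → A) (h0 : P.map (evalRingHom 0) = ∏ i, (X - C (α i)))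
    (hu : ∀ i j, i ≠ j → IsUnit (α i - α j)) (r : ℕ) :
    ∃ Y : Fin d → A[X], (∀ i, (Y i).coeff 0 = α i) ∧
      ∀ j, (X ^ r : A[X]) ∣ (P - ∏ i, (X - C (Y i))).coeff j := by
  classical
  set I : Ideal A[X] := Ideal.span {(X : A[X]) ^ (r + 1)} with hI
  set π : A[X] →+* A[X] ⧸ I := Ideal.Quotient.mk I with hπ
  -- the constant coefficient of the value of a polynomial at a constant
  have hval : ∀ (Q : A[X][X]) (a : A), (Q.eval (C a)).coeff 0 = (Q.map (evalRingHom 0)).eval a := by
    intro Q a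
    rw [coeff_zero_eq_eval_zero, eval_map, ← coe_evalRingHom, ← coe_evalRingHom,
      coe_evalRingHom (C a), eval, hom_eval₂]
    simp
  have hder : ∀ i, IsUnit (((derivative P).eval (C (α i))).coeff 0) := by
    intro i
    rw [hval, ← derivative_map, h0, derivative_prod_finset]
    rw [eval_finsetSum, Finset.sum_eq_single i]
    · rw [eval_mul, eval_prod]
      simp only [derivative_sub, derivative_X, derivative_C, sub_zero, eval_one, mul_one, eval_sub,
        eval_X, eval_C]
      rw [IsUnit.prod_iff]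
      intro j hj
      exact hu i j (Finset.ne_of_mem_erase hj).symm
    · intro j _ hj
      rw [eval_mul, eval_prod, Finset.prod_eq_zero (i := i) (by simp [hj.symm]) (by simp), zero_mul]
    · simp
  have hroot : ∀ i, ((P.eval (C (α i))).coeff 0) = 0 := by
    intro i
    rw [hval, h0, eval_prod]
    exact Finset.prod_eq_zero (Finset.mem_univ i) (by simp)
  -- roots of `P` modulo `I`
  have hex : ∀ i, ∃ y : A[X], y.coeff 0 = α i ∧ (P.map π).eval (π y) = 0 := by
    intro i
    have hn : IsNilpotent (aeval (π (C (α i))) (P.map π)) := by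
      rw [coe_aeval_eq_eval, eval_map_apply]
      exact isNilpotent_mk r (hroot i)
    have hd : IsUnit (aeval (π (C (α i))) (derivative (P.map π))) := by
      rw [coe_aeval_eq_eval, derivative_map, eval_map_apply]
      exact isUnit_mk r (hder i)
    obtain ⟨ρ, ⟨h1, h2⟩, -⟩ := existsUnique_nilpotent_sub_and_aeval_eq_zero hn hd
    obtain ⟨y, rfl⟩ := Ideal.Quotient.mk_surjective ρ
    refine ⟨y, ?_, by rw [← coe_aeval_eq_eval]; exact h2⟩
    obtain ⟨n, hn⟩ := h1
    rw [hπ, ← map_sub, ← map_pow, Ideal.Quotient.eq_zero_iff_mem, hI,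
      Ideal.mem_span_singleton] at hn
    have h3 : (X : A[X]) ∣ (C (α i) - y) ^ n := (dvd_pow_self X (Nat.succ_ne_zero r)).trans hn
    have h4 : (C (α i) - y).coeff 0 = 0 := by
      have := X_dvd_iff.mp h3
      rw [coeff_zero_eq_eval_zero, eval_pow] at this
      rw [coeff_zero_eq_eval_zero]
      exact IsReduced.eq_zero _ ⟨n, this⟩
    simp only [coeff_sub, coeff_C_zero] at h4
    exact (sub_eq_zero.mp h4).symm
  choose Y hY0 hY using hex
  refine ⟨Y, hY0, ?_⟩
  have hdeg : P.natDegree = d := by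
    have := hP.natDegree_map (evalRingHom (0 : A))
    rw [← this, h0, natDegree_prod_of_monic _ _ (fun i _ => monic_X_sub_C _)]
    simp
  have hmap : P.map π = ∏ i, (X - C (π (Y i))) := by
    rcases subsingleton_or_nontrivial (A[X] ⧸ I) with hs | hs
    · exact Subsingleton.elim _ _
    refine eq_prod_of_eval_eq_zero (hP.map π) (by rw [hP.natDegree_map, hdeg]) _ ?_ hY
    intro i j hij
    rw [← map_sub]
    apply isUnit_mk r
    rw [coeff_sub, hY0, hY0]
    exact hu i j hij
  intro j
  have h1 : (P - ∏ i, (X - C (Y i))).map π = 0 := by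
    rw [Polynomial.map_sub, hmap, Polynomial.map_prod]
    simp
  have h2 : π ((P - ∏ i, (X - C (Y i))).coeff j) = 0 := by
    rw [← coeff_map, h1, coeff_zero]
  rw [hπ, Ideal.Quotient.eq_zero_iff_mem, hI, Ideal.mem_span_singleton] at h2
  exact (pow_dvd_pow X (Nat.le_succ r)).trans h2

end Fermat.Agent.Cor.HIT.Itg
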