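import Mathlib

/-!
# Splitting an integral polynomial over a local ring of residue characteristic `p`

Let `g` be a monic separable polynomial over `ℤ`. For all large primes `p` there is a local domain
`A` of characteristic zero over which `g` splits with roots which are different modulo the maximal
ideal, and in which an integer is divisible by `p ^ N` only if it is so in `ℤ`.
-/

set_option autoImplicit false

open Polynomial Finset

namespace Fermat.Agent.Cor.HIT.Itg

theorem pow_dvd_of_local {A : Type} [CommRing A] [IsDomain A] [IsLocalRing A] [CharZero A] {p : ℕ}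
    (hp : p.Prime) (hpm : (p : A) ∈ IsLocalRing.maximalIdeal A) (N : ℕ) :
    ∀ D : ℤ, (p : A) ^ N ∣ (D : A) → (p : ℤ) ^ N ∣ D := by
  have hp0 : (p : A) ≠ 0 := by exact_mod_cast hp.ne_zero
  induction N with
  | zero => intro D _; simp
  | succ N ih =>
    intro D hD
    have h1 : (p : A) ∣ (D : A) := (dvd_pow_self _ N.succ_ne_zero).trans hD
    have h2 : (p : ℤ) ∣ D := by
      by_contra hnd
      have hco : IsCoprime (p : ℤ) D := (Nat.prime_iff_prime_int.mp hp).coprime_iff_not_dvd.mpr hnd
      obtain ⟨u, v, huv⟩ := hco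
      have h3 : (u : A) * (p : A) + (v : A) * (D : A) = 1 := by
        have := congrArg (Int.cast : ℤ → A) huv
        push_cast at this
        exact this
      have h4 : (1 : A) ∈ IsLocalRing.maximalIdeal A := by
        rw [← h3]
        refine Ideal.add_mem _ (Ideal.mul_mem_left _ _ hpm) (Ideal.mul_mem_left _ _ ?_)
        exact Ideal.mem_of_dvd _ h1 hpm
      exact (Ideal.ne_top_iff_one _).mp (IsLocalRing.maximalIdeal.isMaximal A).ne_top h4
    obtain ⟨D', rfl⟩ := h2
    have h5 : (p : A) ^ N ∣ (D' : A) := by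
      rw [pow_succ', Int.cast_mul, Int.cast_natCast] at hD
      exact (mul_dvd_mul_iff_left hp0).mp hD
    rw [pow_succ']
    exact mul_dvd_mul_left _ (ih D' h5)

theorem exists_roots (g : ℤ[X]) (hg : g.Monic) (hs : (g.map (Int.castRingHom ℚ)).Separable) :
    ∃ α : Fin g.natDegree → ℂ, Function.Injective α ∧
      g.map (Int.castRingHom ℂ) = ∏ i, (X - C (α i)) := by
  set f : ℂ[X] := g.map (Int.castRingHom ℂ) with hf
  have hfm : f.Monic := hg.map _
  have hdeg : f.natDegree = g.natDegree := hg.natDegree_map _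
  have hsp : f.Splits := IsAlgClosed.splits f
  have hsep : f.Separable := by
    have h1 : f = (g.map (Int.castRingHom ℚ)).map (algebraMap ℚ ℂ) := by
      rw [hf, Polynomial.map_map]
      congr 1
    rw [h1]
    exact hs.map
  have hcard : f.roots.toList.length = g.natDegree := by
    rw [Multiset.length_toList, ← hdeg]
    exact (splits_iff_card_roots.mp hsp)
  have hnd : f.roots.toList.Nodup := by
    rw [← Multiset.coe_nodup, Multiset.coe_toList]
    exact nodup_roots hsep
  refine ⟨fun i => f.roots.toList.get (Fin.cast hcard.symm i), ?_, ?_⟩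
  · intro i j hij
    have := List.nodup_iff_injective_get.mp hnd hij
    exact Fin.cast_injective _ this
  · have h1 : f = (f.roots.map fun a => X - C a).prod := by
      conv_lhs => rw [hsp.eq_prod_roots_of_monic hfm]
    have h2 : (f.roots.map fun a => X - C a).prod =
        (f.roots.toList.map fun a => X - C a).prod := by
      conv_lhs => rw [← Multiset.coe_toList f.roots]
      rw [Multiset.map_coe, Multiset.prod_coe]
    refine (h1.trans h2).trans ?_
    rw [← Fin.prod_univ_getElem]
    refine Fintype.prod_equiv (finCongr (by simp [hcard])) _ _ ?_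
    intro i
    simp

theorem exists_ring (g : ℤ[X]) (hg : g.Monic) (hs : (g.map (Int.castRingHom ℚ)).Separable) :
    ∃ c : ℕ, ∀ p : ℕ, p.Prime → c < p →
      ∃ (A : Type) (_ : CommRing A) (_ : IsDomain A) (_ : IsLocalRing A) (_ : CharZero A)
        (α : Fin g.natDegree → A),
        (∀ (D : ℤ) (N : ℕ), ((p : A)) ^ N ∣ (D : A) → (p : ℤ) ^ N ∣ D) ∧
        g.map (Int.castRingHom A) = ∏ i, (X - C (α i)) ∧ ∀ i j, i ≠ j → IsUnit (α i - α j) := by
  obtain ⟨α, hinj, hprod⟩ := exists_roots g hg hs
  let R := integralClosure ℤ ℂ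
  have hint : ∀ i, IsIntegral ℤ (α i) := by
    intro i
    refine ⟨g, hg, ?_⟩
    rw [← eval_map, show algebraMap ℤ ℂ = Int.castRingHom ℂ from rfl, hprod, eval_prod]
    exact Finset.prod_eq_zero (mem_univ i) (by simp)
  let β : Fin g.natDegree → R := fun i => ⟨α i, hint i⟩
  have hβ : ∀ i j, i ≠ j → β i - β j ≠ 0 := by
    intro i j hij h
    apply hij
    apply hinj
    have := congrArg (Subtype.val) (sub_eq_zero.mp h)
    exact this
  have hprodR : g.map (Int.castRingHom R) = ∏ i, (X - C (β i)) := by
    apply Polynomial.map_injective (algebraMap R ℂ) Subtype.coe_injective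
    rw [Polynomial.map_map, Polynomial.map_prod]
    have e : (algebraMap R ℂ).comp (Int.castRingHom R) = Int.castRingHom ℂ := RingHom.ext_int _ _
    rw [e, hprod]
    refine Finset.prod_congr rfl fun i _ => ?_
    rw [Polynomial.map_sub, map_X, map_C]
    rfl
  set Δ : R := ∏ i, ∏ j ∈ univ.erase i, (β i - β j) with hΔ
  have hΔ0 : Δ ≠ 0 := by
    rw [hΔ]
    refine Finset.prod_ne_zero_iff.mpr fun i _ => Finset.prod_ne_zero_iff.mpr fun j hj => ?_
    exact hβ i j (Finset.ne_of_mem_erase hj).symm
  have hne : (Ideal.span {Δ}).comap (algebraMap ℤ R) ≠ ⊥ :=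
    Ideal.comap_ne_bot_of_integral_mem hΔ0 (Ideal.mem_span_singleton_self Δ)
      (Algebra.IsIntegral.isIntegral Δ)
  obtain ⟨z, hz, hz0⟩ := Submodule.exists_mem_ne_zero_of_ne_bot hne
  have hz1 : Δ ∣ algebraMap ℤ R z := Ideal.mem_span_singleton.mp hz
  refine ⟨z.natAbs, fun p hp hcp => ?_⟩
  have : (Ideal.span {(p : ℤ)}).IsMaximal :=
    PrincipalIdealRing.isMaximal_of_irreducible (Nat.prime_iff_prime_int.mp hp).irreducible
  obtain ⟨𝔪, h𝔪, hcom⟩ := Ideal.exists_ideal_over_maximal_of_isIntegral (S := R)
    (Ideal.span {(p : ℤ)}) (by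
      rw [(RingHom.injective_iff_ker_eq_bot _).mp (FaithfulSMul.algebraMap_injective ℤ R)]
      exact bot_le)
  have := h𝔪
  have : 𝔪.IsPrime := h𝔪.isPrime
  have hunit : ∀ i j, i ≠ j → β i - β j ∉ 𝔪 := by
    intro i j hij hmem
    have h1 : Δ ∈ 𝔪 := by
      have h2 : β i - β j ∣ Δ :=
        (Finset.dvd_prod_of_mem _ (Finset.mem_erase.mpr ⟨hij.symm, mem_univ j⟩)).trans
          (Finset.dvd_prod_of_mem (fun i => ∏ j ∈ univ.erase i, (β i - β j)) (mem_univ i))
      exact Ideal.mem_of_dvd _ h2 hmem
    have h3 : z ∈ Ideal.span {(p : ℤ)} := by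
      rw [← hcom, Ideal.mem_comap]
      exact Ideal.mem_of_dvd _ hz1 h1
    have h4 : (p : ℤ) ∣ z := Ideal.mem_span_singleton.mp h3
    have h5 : p ≤ z.natAbs :=
      Nat.le_of_dvd (Int.natAbs_pos.mpr hz0) (Int.natCast_dvd.mp h4)
    omega
  let A := Localization.AtPrime 𝔪
  have hinjA : Function.Injective (algebraMap R A) :=
    IsLocalization.injective A 𝔪.primeCompl_le_nonZeroDivisors
  have : IsDomain A := IsLocalization.isDomain_localization 𝔪.primeCompl_le_nonZeroDivisors
  have : CharZero A := charZero_of_injective_algebraMap hinjA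
  refine ⟨A, inferInstance, inferInstance, inferInstance, inferInstance,
    fun i => algebraMap R A (β i), ?_, ?_, ?_⟩
  · intro D N
    refine pow_dvd_of_local hp ?_ N D
    have h1 : (p : A) = algebraMap R A (p : R) := by simp
    rw [h1, IsLocalization.AtPrime.to_map_mem_maximal_iff A 𝔪]
    have h2 : (p : ℤ) ∈ 𝔪.comap (algebraMap ℤ R) := by
      rw [hcom]
      exact Ideal.mem_span_singleton_self _
    simpa using h2
  · have h1 := congrArg (Polynomial.map (algebraMap R A)) hprodR
    rw [Polynomial.map_map, Polynomial.map_prod] at h1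
    have e : (algebraMap R A).comp (Int.castRingHom R) = Int.castRingHom A := RingHom.ext_int _ _
    rw [e] at h1
    rw [h1]
    refine Finset.prod_congr rfl fun i _ => ?_
    rw [Polynomial.map_sub, map_X, map_C]
  · intro i j hij
    rw [← map_sub]
    exact IsLocalization.map_units A (⟨β i - β j, hunit i j hij⟩ : 𝔪.primeCompl)

end Fermat.Agent.Cor.HIT.Itg
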