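import Fermat.Agent.Corollaries.HIT.ItgInterp
import Fermat.Agent.Corollaries.HIT.ItgRing
import Fermat.Agent.Corollaries.HIT.ItgNewton
import Fermat.Agent.Corollaries.HIT.ItgMatch
import Fermat.Agent.Corollaries.HIT.ItgBound

/-!
# Hilbert's irreducibility theorem with integer values: the count

`f ∈ ℤ[t][X]` monic in `X`, irreducible, `f(n₀, X)` separable. For a prime number `p` large enough,
for every `M` and all `k` large enough the number of the `m < M` for which `f(n₀ + p ^ k m, X)` is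
reducible is at most `L`, where `L` depends only on `f` (`count`). The proof is elementary: modulo
`p ^ (k r)` (in a local ring which contains the roots of `f(n₀, X)`) the factors of
`f(n₀ + p ^ k m, X)` are given by polynomials of degree `< r` in `m`; their coefficients are
integers which are small in comparison with `p ^ (k r)`; so the coefficients are polynomials in `m`
(interpolation) and many reducible values would give a factorization of `f`.
-/

set_option autoImplicit false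

open Polynomial Finset

namespace Fermat.Agent.Cor.HIT.Itg


theorem coeff_prod_reduce {A : Type} [CommRing A] [IsDomain A] {d : ℕ} (Y : Fin d → A[X]) (S : Finset (Fin d))
    (r : ℕ) (hr : 0 < r) (a : A) (j : ℕ) :
    ∃ c : A[X], c.natDegree < r ∧ ∀ x : A, (a ^ r) ∣ c.eval x - (∏ i ∈ S, (X - C ((Y i).eval (a * x)))).coeff j := by
  classical
  set P : A[X][X] := ∏ i ∈ S, (X - C (Y i)) with hP
  set c₀ : A[X] := P.coeff j %ₘ (X ^ r) with hc₀
  have hdeg : c₀.natDegree < r := by
    have h := Polynomial.natDegree_modByMonic_lt (P.coeff j) (monic_X_pow (R := A) r) (by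
      intro h
      have := congrArg natDegree h
      rw [natDegree_X_pow, natDegree_one] at this
      omega)
    rwa [natDegree_X_pow] at h
  refine ⟨c₀.comp (C a * X), ?_, fun x => ?_⟩
  · refine lt_of_le_of_lt natDegree_comp_le ?_
    have hx : (C a * X : A[X]).natDegree ≤ 1 := by
      refine natDegree_mul_le.trans ?_
      rw [natDegree_C, natDegree_X]
    calc c₀.natDegree * (C a * X : A[X]).natDegree ≤ c₀.natDegree * 1 :=
          Nat.mul_le_mul_left _ hx
      _ < r := by omega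
  · rw [eval_comp, eval_mul, eval_C, eval_X]
    have h1 : (∏ i ∈ S, (X - C ((Y i).eval (a * x)))).coeff j = (P.coeff j).eval (a * x) := by
      have h2 : P.map (evalRingHom (a * x)) = ∏ i ∈ S, (X - C ((Y i).eval (a * x))) := by
        rw [hP, Polynomial.map_prod]
        refine Finset.prod_congr rfl fun i _ => ?_
        rw [Polynomial.map_sub, map_X, map_C, coe_evalRingHom]
      rw [← h2, coeff_map, coe_evalRingHom]
    rw [h1]
    have h3 := modByMonic_add_div (P.coeff j) (X ^ r : A[X])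
    have h4 : (P.coeff j).eval (a * x) = c₀.eval (a * x) + (a * x) ^ r * (P.coeff j /ₘ (X ^ r)).eval (a * x) := by
      conv_lhs => rw [← h3]
      rw [eval_add, eval_mul, eval_pow, eval_X]
    rw [h4]
    refine ⟨- (x ^ r * (P.coeff j /ₘ (X ^ r)).eval (a * x)), ?_⟩
    rw [mul_pow]
    ring

/-- a type `S` of factorization at `n` -/
def Bad {A : Type} [CommRing A] {d : ℕ} (f : ℤ[X][X]) (q : A) (S : Finset (Fin d)) (y : Fin d → A)
    (n : ℤ) : Prop :=
  ∃ G H : ℤ[X], G.Monic ∧ H.Monic ∧ G.natDegree ≠ 0 ∧ H.natDegree ≠ 0 ∧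
    f.map (evalRingHom n) = G * H ∧ S.card = G.natDegree ∧
    (∀ j, q ∣ (G.map (Int.castRingHom A) - ∏ i ∈ S, (X - C (y i))).coeff j) ∧
    ∀ j, q ∣ (H.map (Int.castRingHom A) - ∏ i ∈ Sᶜ, (X - C (y i))).coeff j

/-- the interpolating factor -/
theorem exists_factor {s r : ℕ} (T : Finset ℕ) (G : ℕ → ℤ[X]) (hG : ∀ m ∈ T, (G m).Monic)
    (hdeg : ∀ m ∈ T, (G m).natDegree = s)
    (hQ : ∀ j, ∃ Q : ℚ[X], Q.degree < r ∧ ∀ m ∈ T, Q.eval (m : ℚ) = (G m).coeff j) :
    ∃ K : ℚ[X][X], K.Monic ∧ K.natDegree = s ∧ (∀ j, (K.coeff j).natDegree ≤ r) ∧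
      ∀ m ∈ T, K.map (evalRingHom (m : ℚ)) = (G m).map (Int.castRingHom ℚ) := by
  classical
  choose Q hQ1 hQ2 using hQ
  have hlt : (∑ j ∈ range s, C (Q j) * X ^ j : ℚ[X][X]).degree < (s : WithBot ℕ) := by
    refine lt_of_le_of_lt (degree_sum_le _ _) ?_
    refine (Finset.sup_lt_iff (WithBot.bot_lt_coe s)).mpr ?_
    intro j hj
    refine lt_of_le_of_lt (degree_C_mul_X_pow_le j (Q j)) ?_
    exact WithBot.coe_lt_coe.mpr (Finset.mem_range.mp hj)
  have hmon : (X ^ s + ∑ j ∈ range s, C (Q j) * X ^ j : ℚ[X][X]).Monic :=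
    monic_X_pow_add hlt
  have hnat : (X ^ s + ∑ j ∈ range s, C (Q j) * X ^ j : ℚ[X][X]).natDegree = s :=
    (natDegree_add_eq_left_of_degree_lt (by rw [degree_X_pow]; exact hlt)).trans
      (natDegree_X_pow s)
  have hco : ∀ j, (X ^ s + ∑ j ∈ range s, C (Q j) * X ^ j : ℚ[X][X]).coeff j =
      if j = s then 1 else if j < s then Q j else 0 := by
    intro j
    rw [coeff_add, coeff_X_pow, finsetSum_coeff]
    simp only [coeff_C_mul, coeff_X_pow, mul_ite, mul_one, mul_zero]
    rw [Finset.sum_ite_eq]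
    simp only [Finset.mem_range]
    by_cases h1 : j = s
    · subst h1
      simp
    · by_cases h2 : j < s <;> simp [h1, h2]
  refine ⟨_, hmon, hnat, fun j => ?_, fun m hm => ?_⟩
  · rw [hco]
    split_ifs with h1 h2
    · rw [natDegree_one]; exact Nat.zero_le _
    · exact natDegree_le_of_degree_le (hQ1 j).le
    · rw [natDegree_zero]; exact Nat.zero_le _
  · ext j
    rw [coeff_map, coeff_map, hco, coe_evalRingHom]
    split_ifs with h1 h2
    · have h3 : (G m).coeff s = 1 := by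
        rw [← hdeg m hm]
        exact hG m hm
      rw [h1, h3]
      simp
    · rw [hQ2 j m hm]
      simp
    · have h3 : (G m).coeff j = 0 := by
        refine coeff_eq_zero_of_natDegree_lt ?_
        rw [hdeg m hm]
        omega
      rw [h3]
      simp


theorem natDegree_coeff_mul_le {K L : ℚ[X][X]} {r : ℕ} (hK : ∀ j, (K.coeff j).natDegree ≤ r)
    (hL : ∀ j, (L.coeff j).natDegree ≤ r) (j : ℕ) : ((K * L).coeff j).natDegree ≤ 2 * r := by
  rw [coeff_mul]
  refine natDegree_sum_le_of_forall_le _ _ fun x _ => ?_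
  refine natDegree_mul_le.trans ?_
  have h1 := hK x.1
  have h2 := hL x.2
  omega

/-- the identity theorem -/
theorem eq_of_many {K L : ℚ[X][X]} {e : ℕ} (hK : ∀ j, (K.coeff j).natDegree ≤ e)
    (hL : ∀ j, (L.coeff j).natDegree ≤ e) (T : Finset ℕ) (hT : e < T.card)
    (h : ∀ m ∈ T, K.map (evalRingHom (m : ℚ)) = L.map (evalRingHom (m : ℚ))) : K = L := by
  classical
  ext1 j
  rw [← sub_eq_zero]
  refine eq_zero_of_natDegree_lt_card_of_eval_eq_zero' _ (T.image fun m : ℕ => (m : ℚ)) ?_ ?_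
  · intro x hx
    obtain ⟨m, hm, rfl⟩ := Finset.mem_image.mp hx
    have h1 := congrArg (fun P => P.coeff j) (h m hm)
    simp only [coeff_map, coe_evalRingHom] at h1
    rw [eval_sub, h1, sub_self]
  · rw [Finset.card_image_of_injective _ Nat.cast_injective]
    refine lt_of_le_of_lt (natDegree_sub_le _ _) ?_
    exact lt_of_le_of_lt (max_le (hK j) (hL j)) hT

/-- the condition of irreducibility -/
def NoFac (f : ℤ[X][X]) : Prop := ∀ G H : ℚ[X][X], G.Monic → H.Monic →
  f.map (mapRingHom (Int.castRingHom ℚ)) = G * H → G.natDegree = 0 ∨ H.natDegree = 0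

/-- the affine change of variable -/
noncomputable def aff (a b : ℚ) : ℚ[X] →+* ℚ[X] := compRingHom (C a + C b * X)

theorem aff_aff (a b : ℚ) (hb : b ≠ 0) : (aff (-a / b) (1 / b)).comp (aff a b) = RingHom.id _ := by
  ext x
  · simp [aff]
  · simp only [aff, RingHom.comp_apply, coe_compRingHom_apply, X_comp, add_comp, mul_comp, C_comp,
      RingHom.id_apply]
    have h1 : (C a + C b * (C (-a / b) + C (1 / b) * X) : ℚ[X]) = X := by
      rw [mul_add, ← mul_assoc, ← C_mul, ← C_mul, ← add_assoc, ← C_add, mul_div_cancel₀ _ hb,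
        mul_one_div_cancel hb, add_neg_cancel, C_0, C_1, one_mul, zero_add]
    rw [h1]

theorem natDegree_aff_le (a b : ℚ) (P : ℚ[X]) : (aff a b P).natDegree ≤ P.natDegree := by
  rw [aff, coe_compRingHom_apply]
  refine natDegree_comp_le.trans ?_
  have h : (C a + C b * X : ℚ[X]).natDegree ≤ 1 := by
    refine (natDegree_add_le _ _).trans (max_le ?_ ?_)
    · rw [natDegree_C]; exact Nat.zero_le _
    · refine natDegree_mul_le.trans ?_
      rw [natDegree_C, natDegree_X]
  calc _ ≤ P.natDegree * 1 := Nat.mul_le_mul_left _ h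
    _ = _ := mul_one _

/-- the interpolation property of `B` -/
def IsInterp (r M B : ℕ) : Prop := ∀ {A : Type} [CommRing A] [IsDomain A] [CharZero A] (q : ℤ)
    (_ : ∀ D : ℤ, (q : A) ∣ (D : A) → q ∣ D) (c : A[X]) (_ : c.natDegree < r) (T : Finset ℕ)
    (_ : ∀ m ∈ T, m < M) (G : ℕ → ℤ) (g : ℤ) (_ : ∀ m ∈ T, (q : A) ∣ (G m : A) - c.eval (m : A))
    (_ : ∀ m ∈ T, |G m| ≤ g) (_ : (B : ℤ) * g < q),
    ∃ Q : ℚ[X], Q.degree < r ∧ ∀ m ∈ T, Q.eval (m : ℚ) = G m

theorem exists_coeff {A : Type} [CommRing A] [IsDomain A] [CharZero A] {d r M B : ℕ} {q b g : ℤ}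
    (hB : IsInterp r M B) (hr : 0 < r) (hq : ∀ D : ℤ, (q : A) ∣ (D : A) → q ∣ D) (hbq : b ^ r = q)
    (hBg : (B : ℤ) * g < q) (Y : Fin d → A[X]) (S : Finset (Fin d)) (T : Finset ℕ)
    (hT : ∀ m ∈ T, m < M) (G : ℕ → ℤ[X]) (hG : ∀ m ∈ T, ∀ j, |(G m).coeff j| ≤ g)
    (hS : ∀ m ∈ T, ∀ j, (q : A) ∣ ((G m).map (Int.castRingHom A) -
      ∏ i ∈ S, (X - C ((Y i).eval ((b : A) * (m : A))))).coeff j) (j : ℕ) :
    ∃ Q : ℚ[X], Q.degree < r ∧ ∀ m ∈ T, Q.eval (m : ℚ) = (G m).coeff j := by
  obtain ⟨c, hc, hc2⟩ := coeff_prod_reduce Y S r hr (b : A) j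
  refine hB q hq c hc T hT (fun m => (G m).coeff j) g (fun m hm => ?_) (fun m hm => hG m hm j) hBg
  have h1 := hS m hm j
  rw [coeff_sub, coeff_map, eq_intCast] at h1
  have h2 := hc2 (m : A)
  have h3 : ((b : A)) ^ r = (q : A) := by rw [← hbq]; push_cast; rfl
  rw [h3] at h2
  have h4 := dvd_sub h1 h2
  rwa [sub_sub_sub_cancel_right] at h4

theorem card_le_of_bad {A : Type} [CommRing A] [IsDomain A] [CharZero A] {d r M B E : ℕ}
    {q b g n₀ : ℤ} (f : ℤ[X][X]) (hf : f.Monic) (hno : NoFac f) (hd : f.natDegree = d)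
    (hB : IsInterp r M B) (hr : 0 < r) (hq : ∀ D : ℤ, (q : A) ∣ (D : A) → q ∣ D)
    (hbq : b ^ r = q) (hb : b ≠ 0) (hBg : (B : ℤ) * g < q) (Y : Fin d → A[X])
    (S : Finset (Fin d)) (T : Finset ℕ) (hT : ∀ m ∈ T, m < M)
    (hE : ∀ j, (f.coeff j).natDegree ≤ E)
    (hg : ∀ m ∈ T, ∀ G H : ℤ[X], G.Monic → H.Monic → f.map (evalRingHom (n₀ + b * m)) = G * H →
      ∀ j, |G.coeff j| ≤ g)
    (hbad : ∀ m ∈ T, Bad f (q : A) S (fun i => (Y i).eval ((b : A) * (m : A))) (n₀ + b * m)) :
    T.card ≤ E + 2 * r := by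
  classical
  by_contra hcon
  push Not at hcon
  have hbQ : (b : ℚ) ≠ 0 := by exact_mod_cast hb
  choose! G H hGm hHm hG0 hH0 hGH hcard hGc hHc using hbad
  have hHcard : ∀ m ∈ T, (H m).natDegree = Sᶜ.card := by
    intro m hm
    have h1 := congrArg natDegree (hGH m hm)
    rw [hf.natDegree_map, (hGm m hm).natDegree_mul (hHm m hm), hd, ← hcard m hm] at h1
    rw [Finset.card_compl, Fintype.card_fin]
    omega
  obtain ⟨K, hK1, hK2, hK3, hK4⟩ := exists_factor (s := S.card) (r := r) T G hGm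
    (fun m hm => (hcard m hm).symm)
    (exists_coeff hB hr hq hbq hBg Y S T hT G (fun m hm => hg m hm _ _ (hGm m hm) (hHm m hm)
      (hGH m hm)) hGc)
  obtain ⟨K', hK1', hK2', hK3', hK4'⟩ := exists_factor (s := Sᶜ.card) (r := r) T H hHm hHcard
    (exists_coeff hB hr hq hbq hBg Y Sᶜ T hT H (fun m hm => hg m hm _ _ (hHm m hm) (hGm m hm)
      ((hGH m hm).trans (mul_comm _ _))) hHc)
  have hF : (f.map (mapRingHom (Int.castRingHom ℚ))).map (aff n₀ b) = K * K' := by
    refine eq_of_many (e := E + 2 * r) (fun j => ?_) (fun j => ?_) T hcon (fun m hm => ?_)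
    · rw [coeff_map, coeff_map]
      refine (natDegree_aff_le _ _ _).trans ?_
      rw [coe_mapRingHom]
      refine natDegree_map_le.trans ?_
      have := hE j
      omega
    · have := natDegree_coeff_mul_le hK3 hK3' j
      omega
    · rw [Polynomial.map_mul, hK4 m hm, hK4' m hm, ← Polynomial.map_mul, ← hGH m hm,
        Polynomial.map_map, Polynomial.map_map, Polynomial.map_map]
      congr 1
      ext
      · simp [aff]
      · simp [aff]
  have hF2 := congrArg (fun P => P.map (aff (-(n₀ : ℚ) / b) (1 / b))) hF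
  simp only [Polynomial.map_mul] at hF2
  rw [Polynomial.map_map, aff_aff _ _ hbQ, Polynomial.map_id] at hF2
  obtain ⟨m, hm⟩ : T.Nonempty := Finset.card_pos.mp (by omega)
  rcases hno _ _ (hK1.map _) (hK1'.map _) hF2 with h | h
  · rw [hK1.natDegree_map, hK2, hcard m hm] at h
    exact hG0 m hm h
  · rw [hK1'.natDegree_map, hK2', ← hHcard m hm] at h
    exact hH0 m hm h

theorem isUnit_sub {A : Type} [CommRing A] [IsLocalRing A] {Y Y' : A[X]} {s : A} (hs : ¬ IsUnit s)
    (h : IsUnit (Y.coeff 0 - Y'.coeff 0)) : IsUnit (Y.eval s - Y'.eval s) := by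
  by_contra hcon
  obtain ⟨z, hz⟩ : s ∣ (Y.eval s - Y'.eval s) - (Y.coeff 0 - Y'.coeff 0) := by
    have h1 := Polynomial.sub_dvd_eval_sub s 0 (Y - Y')
    rw [sub_zero, eval_sub, eval_sub, ← coeff_zero_eq_eval_zero, ← coeff_zero_eq_eval_zero] at h1
    exact h1
  have h2 : Y.coeff 0 - Y'.coeff 0 = (Y.eval s - Y'.eval s) + (- (s * z)) := by
    rw [← hz]; ring
  have h3 : ¬ IsUnit (- (s * z)) := by
    rw [IsUnit.neg_iff]
    exact fun h4 => hs (isUnit_of_mul_isUnit_left h4)
  rw [h2] at h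
  exact (IsLocalRing.nonunits_add hcon h3) h

/-- the number of reducible specializations among `f(n₀ + p ^ k m, X)`, `m < M` -/
theorem count (f : ℤ[X][X]) (hf : f.Monic) (hf0 : 0 < f.natDegree) (hno : NoFac f) (n₀ : ℤ)
    (hn₀ : 1 ≤ n₀) (hsep : ((f.map (evalRingHom n₀)).map (Int.castRingHom ℚ)).Separable) :
    ∃ L c : ℕ, ∀ p : ℕ, p.Prime → c < p → ∀ M : ℕ, ∃ k₀ : ℕ, ∀ k ≥ k₀, ∀ T : Finset ℕ,
      (∀ m ∈ T, m < M) → (∀ m ∈ T, ¬ Irreducible (f.map (evalRingHom (n₀ + (p : ℤ) ^ k * m)))) →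
      T.card ≤ L := by
  classical
  obtain ⟨C₁, κ, hC⟩ := coeff_bound f hf
  obtain ⟨c, hc⟩ := exists_ring (f.map (evalRingHom n₀)) (hf.map _) hsep
  set r := κ + 1 with hr
  set E := f.support.sup fun j => (f.coeff j).natDegree with hE
  have hE' : ∀ j, (f.coeff j).natDegree ≤ E := by
    intro j
    by_cases hj : j ∈ f.support
    · exact Finset.le_sup (f := fun j => (f.coeff j).natDegree) hj
    · rw [notMem_support_iff.mp hj, natDegree_zero]
      exact Nat.zero_le _
  set d := (f.map (evalRingHom n₀)).natDegree with hd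
  have hfd : f.natDegree = d := (hf.natDegree_map _).symm
  refine ⟨2 ^ d * (E + 2 * r), c, fun p hp hcp M => ?_⟩
  obtain ⟨A, _, _, _, _, α, hA1, hA2, hA3⟩ := hc p hp hcp
  obtain ⟨B, hB⟩ := interp r M
  have hp0 : (p : ℤ) ≠ 0 := by exact_mod_cast hp.ne_zero
  have hp1 : (1 : ℤ) < p := by exact_mod_cast hp.one_lt
  -- the lifting
  let φ : ℤ[X] →+* A[X] := eval₂RingHom (C.comp (Int.castRingHom A)) (C (n₀ : A) + X)
  obtain ⟨Y, hY1, hY2⟩ := newton (f.map φ) (hf.map φ) α (by
    rw [Polynomial.map_map, ← hA2, Polynomial.map_map]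
    congr 1
    ext <;> simp [φ]) hA3 r
  refine ⟨B * (C₁ * (n₀.toNat + M) ^ κ) + 1, fun k hk T hT hred => ?_⟩
  set b : ℤ := (p : ℤ) ^ k with hb
  set q : ℤ := b ^ r with hq
  have hb0 : 0 < b := pow_pos (by omega) k
  have hpnu : ¬ IsUnit ((p : A)) := by
    intro h
    have h1 := hA1 1 1 (by rw [pow_one, Int.cast_one]; exact h.dvd)
    rw [pow_one] at h1
    have := Int.le_of_dvd one_pos h1
    omega
  have hbA : ((b : ℤ) : A) = (p : A) ^ k := by rw [hb]; push_cast; rfl
  have hbnu : ¬ IsUnit ((b : ℤ) : A) := by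
    rw [hbA]
    intro h
    exact hpnu ((isUnit_pow_iff (by omega)).mp h)
  have hqA : ∀ D : ℤ, ((q : ℤ) : A) ∣ (D : A) → q ∣ D := by
    intro D hD
    rw [hq, hb, ← pow_mul]
    refine hA1 D (k * r) ?_
    rw [hq, hb, ← pow_mul] at hD
    push_cast at hD
    exact hD
  have hqnu : ¬ IsUnit ((q : ℤ) : A) := by
    rw [hq, Int.cast_pow]
    intro h
    exact hbnu ((isUnit_pow_iff (by omega)).mp h)
  -- the bound
  set g : ℤ := C₁ * (b * (n₀ + M)) ^ κ with hg
  have hBg : (B : ℤ) * g < q := by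
    have h1 : (B : ℤ) * g = b ^ κ * (B * (C₁ * (n₀ + M) ^ κ)) := by rw [hg, mul_pow]; ring
    rw [h1, hq, hr, pow_succ]
    refine mul_lt_mul_of_pos_left ?_ (pow_pos hb0 κ)
    have h2 : ((B * (C₁ * (n₀.toNat + M) ^ κ) : ℕ) : ℤ) = B * (C₁ * (n₀ + M) ^ κ) := by
      push_cast
      rw [Int.toNat_of_nonneg (by omega)]
    rw [← h2]
    have h3 : k < p ^ k := Nat.lt_pow_self hp.one_lt
    rw [hb]
    exact_mod_cast (by omega : B * (C₁ * (n₀.toNat + M) ^ κ) < p ^ k)
  have hbound : ∀ m : ℕ, m < M → ∀ G H : ℤ[X], G.Monic → H.Monic →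
      f.map (evalRingHom (n₀ + b * m)) = G * H → ∀ j, |G.coeff j| ≤ g := by
    intro m hm G H hG hH hGH j
    have h0 : (0 : ℤ) ≤ b * m := mul_nonneg hb0.le (Nat.cast_nonneg m)
    refine (hC (n₀ + b * m) (by omega) G H hG hH hGH j).trans ?_
    rw [hg]
    refine mul_le_mul_of_nonneg_left (pow_le_pow_left₀ (by omega) ?_ κ) (Nat.cast_nonneg _)
    have h1 : n₀ ≤ b * n₀ := le_mul_of_one_le_left (by omega) hb0
    have h2 : b * m ≤ b * M := mul_le_mul_of_nonneg_left (by exact_mod_cast hm.le) hb0.le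
    rw [mul_add]
    omega
  -- the types
  have hbad : ∀ m ∈ T, ∃ S : Finset (Fin d),
      Bad f ((q : ℤ) : A) S (fun i => (Y i).eval ((b : A) * (m : A))) (n₀ + b * m) := by
    intro m hm
    have hfm : (f.map (evalRingHom (n₀ + b * m))).Monic := hf.map _
    have h1 := hred m hm
    rw [hfm.irreducible_iff_natDegree] at h1
    push Not at h1
    obtain ⟨G, H, hG, hH, hGH, hG0, hH0⟩ := h1 (by
      intro h2
      have h3 := congrArg natDegree h2
      rw [hf.natDegree_map, natDegree_one] at h3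
      omega)
    have hsnu : ¬ IsUnit (((b : ℤ) : A) * (m : A)) := fun h => hbnu (isUnit_of_mul_isUnit_left h)
    obtain ⟨S, hS1, hS2, hS3⟩ := matching ((q : ℤ) : A) hqnu (G.map (Int.castRingHom A))
      (H.map (Int.castRingHom A)) (hG.map _) (hH.map _)
      (fun i => (Y i).eval (((b : ℤ) : A) * (m : A)))
      (fun i j hij => isUnit_sub hsnu (by rw [hY1, hY1]; exact hA3 i j hij)) (by
        intro j
        have h2 := (hY2 j)
        obtain ⟨z, hz⟩ := h2
        have h3 := congrArg (fun P => eval (((b : ℤ) : A) * (m : A)) P) hz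
        simp only [eval_mul, eval_pow, eval_X] at h3
        have h4 : eval (((b : ℤ) : A) * (m : A)) ((f.map φ - ∏ i, (X - C (Y i))).coeff j) =
            (G.map (Int.castRingHom A) * H.map (Int.castRingHom A) -
              ∏ i, (X - C ((Y i).eval (((b : ℤ) : A) * (m : A))))).coeff j := by
          rw [← coe_evalRingHom, ← coeff_map, Polynomial.map_sub, Polynomial.map_map,
            ← Polynomial.map_mul, hGH, Polynomial.map_map, Polynomial.map_prod]
          congr 2
          · congr 1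
            ext <;> simp [φ]
          · refine Finset.prod_congr rfl fun i _ => ?_
            rw [Polynomial.map_sub, map_X, map_C, coe_evalRingHom]
        rw [← h4, h3, hq]
        push_cast
        rw [mul_pow, mul_assoc]
        exact Dvd.intro _ rfl)
    refine ⟨S, G, H, hG, hH, hG0, hH0, hGH.symm, ?_, hS2, hS3⟩
    rw [hS1, hG.natDegree_map]
  choose! S hS using hbad
  have hcount : T.card ≤ ∑ S' ∈ (Finset.univ : Finset (Finset (Fin d))),
      (T.filter fun m => S m = S').card := by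
    rw [← Finset.card_eq_sum_card_fiberwise (fun m _ => Finset.mem_univ (S m))]
  refine hcount.trans ?_
  refine (Finset.sum_le_card_nsmul _ _ (E + 2 * r) fun S' _ => ?_).trans ?_
  · refine card_le_of_bad (A := A) (q := q) (b := b) (g := g) (n₀ := n₀) f hf hno hfd hB
      (by omega) hqA rfl hb0.ne' hBg Y S' _ (fun m hm => hT m (Finset.mem_of_mem_filter m hm)) hE'
      (fun m hm => hbound m (hT m (Finset.mem_of_mem_filter m hm))) (fun m hm => ?_)
    have h1 := hS m (Finset.mem_of_mem_filter m hm)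
    rwa [(Finset.mem_filter.mp hm).2] at h1
  · rw [Finset.card_univ, Fintype.card_finset, Fintype.card_fin, smul_eq_mul]

end Fermat.Agent.Cor.HIT.Itg
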