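import Mathlib.LinearAlgebra.Lagrange
import Mathlib.RingTheory.Localization.FractionRing
import Mathlib.Algebra.CharP.Algebra
import Mathlib.Tactic

/-!
# Interpolation of integers which are congruent to the values of a polynomial

Let `A` be a domain of characteristic zero, `c ∈ A[X]` of degree `< r`, `q` an integer whose
divisibility in `A` is the divisibility in `ℤ`. If the integers `G(m)`, `m ∈ T`, are congruent to
`c(m)` modulo `q` and small compared with `q`, then they are the values of a polynomial with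
rational coefficients of degree `< r`.
-/

set_option autoImplicit false

open Polynomial Finset

namespace Fermat.Agent.Cor.HIT.Itg

/-- the weight of a node -/
def wt (T : Finset ℕ) (a : ℕ) : ℤ := ∏ b ∈ T.erase a, ((a : ℤ) - b)

/-- the integral Lagrange coefficients -/
def ell (T : Finset ℕ) (a m : ℕ) : ℤ :=
  (∏ a' ∈ T.erase a, wt T a') * ∏ b ∈ T.erase a, ((m : ℤ) - b)

/-- the common denominator -/
def vol (T : Finset ℕ) : ℤ := ∏ a ∈ T, wt T a

theorem wt_ne (T : Finset ℕ) (a : ℕ) : wt T a ≠ 0 := by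
  rw [wt, Finset.prod_ne_zero_iff]
  intro b hb
  have h1 := (Finset.mem_erase.mp hb).1
  rw [sub_ne_zero]
  exact_mod_cast h1.symm

theorem vol_ne (T : Finset ℕ) : vol T ≠ 0 := by
  rw [vol, Finset.prod_ne_zero_iff]
  intro a _
  exact wt_ne T a

theorem lagrange_int {F : Type*} [Field F] [CharZero F] (T : Finset ℕ) (f : F[X])
    (hf : f.degree < T.card) (m : ℕ) :
    (vol T : F) * f.eval (m : F) = ∑ a ∈ T, (ell T a m : F) * f.eval (a : F) := by
  have hinj : Set.InjOn (fun a : ℕ => (a : F)) T := fun a _ b _ h => Nat.cast_injective h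
  have h1 := Lagrange.eq_interpolate hinj hf
  have h2 : f.eval (m : F) =
      ∑ a ∈ T, f.eval (a : F) * ∏ b ∈ T.erase a, (((a : F) - b)⁻¹ * ((m : F) - b)) := by
    conv_lhs => rw [h1]
    rw [Lagrange.interpolate_apply, eval_finsetSum]
    refine Finset.sum_congr rfl fun a _ => ?_
    rw [eval_mul, eval_C, Lagrange.basis, eval_prod]
    congr 1
    refine Finset.prod_congr rfl fun b _ => ?_
    rw [Lagrange.basisDivisor, eval_mul, eval_C, eval_sub, eval_X, eval_C]
  rw [h2, Finset.mul_sum]
  refine Finset.sum_congr rfl fun a ha => ?_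
  have hw : (wt T a : F) ≠ 0 := by exact_mod_cast wt_ne T a
  have e1 : ∏ b ∈ T.erase a, ((a : F) - b) = (wt T a : F) := by
    rw [wt]
    push_cast
    rfl
  rw [Finset.prod_mul_distrib, Finset.prod_inv_distrib, e1, ell, vol,
    ← Finset.mul_prod_erase T (wt T) ha]
  push_cast
  field_simp

/-- the constant for the set `T` of nodes and the point `m` -/
def bd (T : Finset ℕ) (m : ℕ) : ℕ := (|vol T| + ∑ a ∈ T, |ell T a m|).toNat

theorem coe_bd (T : Finset ℕ) (m : ℕ) : (bd T m : ℤ) = |vol T| + ∑ a ∈ T, |ell T a m| := by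
  rw [bd, Int.toNat_of_nonneg]
  exact add_nonneg (abs_nonneg _) (Finset.sum_nonneg fun _ _ => abs_nonneg _)

theorem interp_aux {A : Type} [CommRing A] [IsDomain A] [CharZero A] (q : ℤ)
    (hq : ∀ D : ℤ, (q : A) ∣ (D : A) → q ∣ D) (c : A[X]) (T : Finset ℕ)
    (hc : c.degree < T.card) (m : ℕ) (G : ℕ → ℤ) (g : ℤ)
    (hG : ∀ a ∈ insert m T, (q : A) ∣ (G a : A) - c.eval (a : A))
    (hg : ∀ a ∈ insert m T, |G a| ≤ g) (hB : (bd T m : ℤ) * g < q) :
    vol T * G m = ∑ a ∈ T, ell T a m * G a := by
  have h1 : (vol T : A) * c.eval (m : A) = ∑ a ∈ T, (ell T a m : A) * c.eval (a : A) := by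
    have h2 := lagrange_int (F := FractionRing A) T (c.map (algebraMap A (FractionRing A)))
      (lt_of_le_of_lt degree_map_le hc) m
    apply IsFractionRing.injective A (FractionRing A)
    simp only [map_mul, map_sum, map_intCast]
    have h3 : ∀ a : ℕ, (c.map (algebraMap A (FractionRing A))).eval (a : FractionRing A) =
        algebraMap A (FractionRing A) (c.eval (a : A)) := by
      intro a
      rw [← map_natCast (algebraMap A (FractionRing A)) a, eval_map, eval₂_at_apply]
    simpa only [h3] using h2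
  set D : ℤ := vol T * G m - ∑ a ∈ T, ell T a m * G a with hD
  have h2 : (q : A) ∣ (D : A) := by
    have h3 : (D : A) = (vol T : A) * ((G m : A) - c.eval (m : A)) -
        ∑ a ∈ T, (ell T a m : A) * ((G a : A) - c.eval (a : A)) := by
      rw [hD]
      push_cast
      simp only [mul_sub, Finset.sum_sub_distrib]
      rw [h1]
      ring
    rw [h3]
    refine dvd_sub ((hG m (Finset.mem_insert_self _ _)).mul_left _) (Finset.dvd_sum fun a ha => ?_)
    exact (hG a (Finset.mem_insert_of_mem ha)).mul_left _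
  have h3 : |D| ≤ (bd T m : ℤ) * g := by
    rw [hD, coe_bd, add_mul, Finset.sum_mul]
    refine (abs_sub _ _).trans (add_le_add ?_ ?_)
    · rw [abs_mul]
      exact mul_le_mul_of_nonneg_left (hg m (Finset.mem_insert_self _ _)) (abs_nonneg _)
    · refine (Finset.abs_sum_le_sum_abs _ _).trans (Finset.sum_le_sum fun a ha => ?_)
      rw [abs_mul]
      exact mul_le_mul_of_nonneg_left (hg a (Finset.mem_insert_of_mem ha)) (abs_nonneg _)
  have h4 : D = 0 := Int.eq_zero_of_abs_lt_dvd (hq D h2) (lt_of_le_of_lt h3 hB)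
  linarith

/-- **integers which are small and congruent to the values of a polynomial of degree `< r` are the
values of a polynomial of degree `< r`** -/
theorem interp (r M : ℕ) : ∃ B : ℕ, ∀ {A : Type} [CommRing A] [IsDomain A] [CharZero A] (q : ℤ)
    (_ : ∀ D : ℤ, (q : A) ∣ (D : A) → q ∣ D) (c : A[X]) (_ : c.natDegree < r) (T : Finset ℕ)
    (_ : ∀ m ∈ T, m < M) (G : ℕ → ℤ) (g : ℤ)
    (_ : ∀ m ∈ T, (q : A) ∣ (G m : A) - c.eval (m : A)) (_ : ∀ m ∈ T, |G m| ≤ g)
    (_ : (B : ℤ) * g < q), ∃ Q : ℚ[X], Q.degree < r ∧ ∀ m ∈ T, Q.eval (m : ℚ) = G m := by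
  classical
  refine ⟨∑ S ∈ (Finset.range M).powerset, ∑ m ∈ Finset.range M, bd S m, ?_⟩
  intro A _ _ _ q hq c hc T hT G g hG hg hB
  have hinj : ∀ S : Finset ℕ, Set.InjOn (fun a : ℕ => (a : ℚ)) S :=
    fun S a _ b _ h => Nat.cast_injective h
  rcases le_or_gt T.card r with hcard | hcard
  · refine ⟨Lagrange.interpolate T (fun a : ℕ => (a : ℚ)) (fun a => (G a : ℚ)), ?_, ?_⟩
    · exact lt_of_lt_of_le (Lagrange.degree_interpolate_lt _ (hinj T)) (by exact_mod_cast hcard)
    · intro m hm
      exact Lagrange.eval_interpolate_at_node (fun a : ℕ => (G a : ℚ)) (hinj T) hm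
  · obtain ⟨S, hST, hS⟩ := Finset.exists_subset_card_eq hcard.le
    refine ⟨Lagrange.interpolate S (fun a : ℕ => (a : ℚ)) (fun a => (G a : ℚ)), ?_, ?_⟩
    · rw [← hS]
      exact Lagrange.degree_interpolate_lt _ (hinj S)
    · intro m hm
      have hg0 : 0 ≤ g := (abs_nonneg _).trans (hg m hm)
      have hins : ∀ a ∈ insert m S, a ∈ T := by
        intro a ha
        rcases Finset.mem_insert.mp ha with rfl | ha
        · exact hm
        · exact hST ha
      have hB' : (bd S m : ℤ) * g < q := by
        refine lt_of_le_of_lt (mul_le_mul_of_nonneg_right ?_ hg0) hB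
        have h1 : S ∈ (Finset.range M).powerset := by
          rw [Finset.mem_powerset]
          intro a ha
          exact Finset.mem_range.mpr (hT a (hST ha))
        have h2 : bd S m ≤ ∑ m ∈ Finset.range M, bd S m :=
          Finset.single_le_sum (f := fun m => bd S m) (fun _ _ => Nat.zero_le _)
            (Finset.mem_range.mpr (hT m hm))
        have h3 : ∑ m ∈ Finset.range M, bd S m ≤
            ∑ S ∈ (Finset.range M).powerset, ∑ m ∈ Finset.range M, bd S m :=
          Finset.single_le_sum (f := fun S => ∑ m ∈ Finset.range M, bd S m)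
            (fun _ _ => Nat.zero_le _) h1
        exact_mod_cast h2.trans h3
      have hc' : c.degree < S.card := by
        rw [hS]
        exact lt_of_le_of_lt degree_le_natDegree (by exact_mod_cast hc)
      have key := interp_aux q hq c S hc' m G g (fun a ha => hG a (hins a ha))
        (fun a ha => hg a (hins a ha)) hB'
      have h1 := lagrange_int S
        (Lagrange.interpolate S (fun a : ℕ => (a : ℚ)) (fun a => (G a : ℚ)))
        (Lagrange.degree_interpolate_lt _ (hinj S)) m
      have h2 : ∑ a ∈ S, (ell S a m : ℚ) *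
          (Lagrange.interpolate S (fun a : ℕ => (a : ℚ)) (fun a => (G a : ℚ))).eval (a : ℚ) =
          ∑ a ∈ S, (ell S a m : ℚ) * (G a : ℚ) :=
        Finset.sum_congr rfl fun a ha => by
          rw [Lagrange.eval_interpolate_at_node (fun a : ℕ => (G a : ℚ)) (hinj S) ha]
      have h3 : (vol S : ℚ) * (G m : ℚ) = ∑ a ∈ S, (ell S a m : ℚ) * (G a : ℚ) := by
        exact_mod_cast key
      rw [h2, ← h3] at h1
      exact mul_left_cancel₀ (by exact_mod_cast vol_ne S) h1

end Fermat.Agent.Cor.HIT.Itg
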