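import Fermat.Agent.Corollaries.HIT.Defs

/-!
# Hilbert's irreducibility theorem: rational values
-/

set_option autoImplicit false

open Polynomial

namespace Fermat.Agent.Cor.HIT

/-- (RAT) -/
theorem ratStmt : RatStmt := by
  classical
  intro P A hA hP
  obtain ⟨s, hsA, hs⟩ := hA.exists_subset_card_eq (P.natDegree + 1)
  choose! b hb using hP
  refine ⟨Lagrange.interpolate s id b, ?_⟩
  have hcast : Function.Injective (fun x : ℚ => (x : ℝ)) := Rat.cast_injective
  have hcard : (s.image (fun x : ℚ => (x : ℝ))).card = P.natDegree + 1 := by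
    rw [Finset.card_image_of_injective _ hcast, hs]
  refine eq_of_degrees_lt_of_eval_finset_eq (s.image (fun x : ℚ => (x : ℝ))) ?_ ?_ ?_
  · rw [hcard]
    exact degree_le_natDegree.trans_lt (by exact_mod_cast Nat.lt_succ_self _)
  · rw [hcard, ← hs]
    refine (degree_map_le).trans_lt ?_
    exact Lagrange.degree_interpolate_lt _ Function.injective_id.injOn
  · intro x hx
    obtain ⟨y, hy, rfl⟩ := Finset.mem_image.mp hx
    rw [hb y (hsA hy)]
    have h1 := Lagrange.eval_interpolate_at_node (s := s) (v := id) b
      Function.injective_id.injOn hy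
    rw [id] at h1
    have h2 : ((Lagrange.interpolate s id b).map (algebraMap ℚ ℝ)).eval (algebraMap ℚ ℝ y) =
        algebraMap ℚ ℝ ((Lagrange.interpolate s id b).eval y) := eval_map_apply ..
    rw [h1] at h2
    exact h2.symm

end Fermat.Agent.Cor.HIT
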