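import Fermat.Agent.Corollaries.HIT.Core
import Fermat.Agent.Corollaries.HIT.Ana
import Fermat.Agent.Corollaries.HIT.Branch
import Fermat.Agent.Corollaries.HIT.Dorge
import Fermat.Agent.Corollaries.HIT.Gauss
import Fermat.Agent.Corollaries.HIT.Rat
import Fermat.Agent.Corollaries.HIT.Alg
import Fermat.Agent.Corollaries.HIT.Den
import Fermat.Agent.Corollaries.HIT.Fac
import Fermat.Agent.Corollaries.HIT.Shift

/-!
# Hilbert's irreducibility theorem

For finitely many irreducible polynomials `f(t, X) ∈ ℚ[t][X]` of positive degree in `X` there are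
infinitely many rational numbers `t` such that all `f(t, X) ∈ ℚ[X]` are irreducible, of the same
degree as `f` (`hilbert_irreducibility`).
-/

set_option autoImplicit false

open Polynomial Filter Topology

namespace Fermat.Agent.Cor.HIT

theorem hilbertStmt_of (hC : CoreStmt) (hS : ShiftStmt) (hB : BadStmt) : HilbertStmt := by
  intro F hF
  have hbad : (⋃ f ∈ F, {t₀ : ℚ | ¬ ((sp (shift t₀ f) 0).natDegree = f.natDegree ∧
      (sp (shift t₀ f) 0).Separable)}).Finite :=
    F.finite_toSet.biUnion fun f hf => hB f (hF f hf).1 (hF f hf).2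
  obtain ⟨t₀, ht₀⟩ := hbad.exists_notMem
  have hgood : ∀ f ∈ F, (sp (shift t₀ f) 0).natDegree = f.natDegree ∧
      (sp (shift t₀ f) 0).Separable := by
    intro f hf
    by_contra hcon
    exact ht₀ (Set.mem_biUnion (Finset.mem_coe.mpr hf) hcon)
  have hsp : ∀ f ∈ F, Sparse {n : ℕ | ¬ (Irreducible (spQ (shift t₀ f) (1 / n)) ∧
      (spQ (shift t₀ f) (1 / n)).natDegree = (shift t₀ f).natDegree)} := by
    intro f hf
    obtain ⟨h1, h2, -⟩ := hS t₀ f (hF f hf).1
    refine hC (shift t₀ f) h1 (by rw [h2]; exact (hF f hf).2) ?_ (hgood f hf).2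
    rw [h2]
    exact (hgood f hf).1
  have hinf := (sparse_biUnion F hsp).infinite_compl
  have himg : ((fun n : ℕ => t₀ + 1 / (n : ℚ)) '' (⋃ f ∈ F,
      {n : ℕ | ¬ (Irreducible (spQ (shift t₀ f) (1 / n)) ∧
        (spQ (shift t₀ f) (1 / n)).natDegree = (shift t₀ f).natDegree)})ᶜ).Infinite := by
    refine hinf.image fun m _ n _ hmn => ?_
    have h2 : t₀ + 1 / (m : ℚ) = t₀ + 1 / (n : ℚ) := hmn
    rw [add_right_inj, one_div, one_div, inv_inj] at h2
    exact_mod_cast h2
  refine himg.mono ?_
  rintro _ ⟨n, hn, rfl⟩ f hf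
  obtain ⟨h1, h2, h3⟩ := hS t₀ f (hF f hf).1
  have h4 : Irreducible (spQ (shift t₀ f) (1 / n)) ∧
      (spQ (shift t₀ f) (1 / n)).natDegree = (shift t₀ f).natDegree := by
    by_contra hcon
    exact hn (Set.mem_biUnion (Finset.mem_coe.mpr hf) hcon)
  rw [h2, h3] at h4
  exact h4

theorem coreStmt : CoreStmt :=
  Core.coreStmt_of branchStmt (Ana.anaStmt_of dorgeStmt) gaussStmt ratStmt algStmt Den.denStmt
    Fac.facStmt

theorem hilbertStmt : HilbertStmt := hilbertStmt_of coreStmt shiftStmt badStmt

/-- **Hilbert's irreducibility theorem over `ℚ`** (1892): for finitely many irreducible polynomials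
`f(t, X) ∈ ℚ[t][X]` of positive degree in `X` there are infinitely many rational numbers `t` such
that all `f(t, X) ∈ ℚ[X]` are irreducible of the same degree. -/
theorem hilbert_irreducibility (F : Finset ℚ[X][X])
    (hF : ∀ f ∈ F, Irreducible f ∧ 0 < f.natDegree) :
    {t : ℚ | ∀ f ∈ F, Irreducible (f.map (evalRingHom t)) ∧
      (f.map (evalRingHom t)).natDegree = f.natDegree}.Infinite :=
  hilbertStmt F hF

/-- **Hilbert's irreducibility theorem over `ℚ`**, one polynomial. -/
theorem hilbert_irreducibility_single {f : ℚ[X][X]} (hf : Irreducible f) (hd : 0 < f.natDegree) :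
    {t : ℚ | Irreducible (f.map (evalRingHom t)) ∧
      (f.map (evalRingHom t)).natDegree = f.natDegree}.Infinite := by
  have h := hilbert_irreducibility {f} fun g hg => by
    rw [Finset.mem_singleton] at hg
    rw [hg]
    exact ⟨hf, hd⟩
  refine h.mono fun t ht => ?_
  exact ht f (Finset.mem_singleton_self f)

/-- If `f(0, X)` is separable and of the same degree as `f`, the `n` for which `f(1/n, X)` is
reducible are sparse: at most `m` of them in every window of length `L` which is far enough, `m`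
independent of `L`. -/
theorem exists_bound_reducible {f : ℚ[X][X]} (hf : Irreducible f) (hd : 0 < f.natDegree)
    (h0 : (f.map (evalRingHom 0)).natDegree = f.natDegree)
    (hsep : (f.map (evalRingHom 0)).Separable) :
    ∃ m : ℕ, ∀ L : ℕ, ∃ n₀ : ℕ, ∀ n ≥ n₀,
      ({n : ℕ | ¬ Irreducible (f.map (evalRingHom (1 / (n : ℚ))))} ∩ Set.Ico n (n + L)).ncard ≤ m := by
  have h1 : (spQ f 0).map (algebraMap ℚ ℂ) = sp f 0 := by
    rw [Core.map_spQ, Rat.cast_zero]
  refine (coreStmt f hf hd ?_ ?_).mono fun n hn h => hn h.1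
  · rw [← h1, natDegree_map]
    exact h0
  · rw [← h1]
    exact hsep.map

end Fermat.Agent.Cor.HIT
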