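import Fermat.Agent.Corollaries.HIT.NumberField
import Fermat.Agent.Corollaries.HIT.Integer

/-!
# Hilbert's irreducibility theorem over number fields, with integer values

For finitely many irreducible polynomials `f(t, X) ∈ K[t][X]` of positive degree in `X` over a number
field `K` there are infinitely many natural numbers `n` such that all `f(n, X) ∈ K[X]` are
irreducible of the same degree.
-/

set_option autoImplicit false

open Polynomial

namespace Fermat.Agent.Cor.HIT.NF

/-- **Hilbert's irreducibility theorem over number fields with integer values**: for finitely many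
irreducible polynomials `f(t, X) ∈ K[t][X]` of positive degree in `X` there are infinitely many
natural numbers `n` such that all `f(n, X) ∈ K[X]` are irreducible of the same degree. -/
theorem hilbert_irreducibility_numberField_int (K : Type*) [Field K] [NumberField K]
    (F : Finset K[X][X]) (hF : ∀ f ∈ F, Irreducible f ∧ 0 < f.natDegree) :
    {n : ℕ | ∀ f ∈ F, Irreducible (f.map (evalRingHom (n : K))) ∧
      (f.map (evalRingHom (n : K))).natDegree = f.natDegree}.Infinite := by
  classical
  have hdegt : ∀ (f : K[X][X]) (t : ℚ), f.leadingCoeff.eval (t : K) ≠ 0 →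
      (f.map (evalRingHom (t : K))).natDegree = f.natDegree := fun f t h =>
    natDegree_map_of_leadingCoeff_ne_zero (evalRingHom (t : K)) h
  have hbadfin : ∀ f : K[X][X], f ≠ 0 → {t : ℚ | f.leadingCoeff.eval (t : K) = 0}.Finite := by
    intro f hf
    have h1 : {x : K | IsRoot f.leadingCoeff x}.Finite :=
      finite_setOfPred_isRoot (leadingCoeff_ne_zero.mpr hf)
    exact h1.preimage (Rat.cast_injective (α := K)).injOn
  have key : ∀ f : K[X][X], Irreducible f → 0 < f.natDegree → ∃ G : ℚ[X][X], Irreducible G ∧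
      0 < G.natDegree ∧ ∀ t : ℚ, f.leadingCoeff.eval (t : K) ≠ 0 → Irreducible (spQ G t) ∧
        (spQ G t).natDegree = G.natDegree → Irreducible (f.map (evalRingHom (t : K))) := by
    intro f hf hd
    obtain ⟨t₁, ht₁⟩ := (hbadfin f hf.ne_zero).exists_notMem
    have ht₁' : f.leadingCoeff.eval (t₁ : K) ≠ 0 := ht₁
    have h0 : f.map (evalRingHom (t₁ : K)) ≠ 0 := by
      intro h0
      have := hdegt f t₁ ht₁'
      rw [h0, natDegree_zero] at this
      omega
    obtain ⟨u, hu⟩ := exists_generic t₁ h0
    obtain ⟨G, hG, hGd, hdvd⟩ := exists_dvd hf hd u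
    have hle := le_natDegree hG hGd hdvd (hdegt f t₁ ht₁') hu
    exact ⟨G, hG, hGd, fun t ht hGt => irreducible_of hd hdvd hle (hdegt f t ht) hGt.1 hGt.2⟩
  choose! G hG using key
  have h1 := hilbert_irreducibility_int (F.image G) fun g hg => by
    obtain ⟨f, hf, rfl⟩ := Finset.mem_image.mp hg
    exact ⟨(hG f (hF f hf).1 (hF f hf).2).1, (hG f (hF f hf).1 (hF f hf).2).2.1⟩
  have h2 : (⋃ f ∈ F, {n : ℕ | f.leadingCoeff.eval (((n : ℕ) : ℚ) : K) = 0}).Finite :=
    F.finite_toSet.biUnion fun f hf => (hbadfin f (hF f hf).1.ne_zero).preimage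
      (f := fun n : ℕ => (n : ℚ)) Nat.cast_injective.injOn
  refine (h1.sdiff h2).mono ?_
  rintro n ⟨hn, hnot⟩ f hf
  have h3 : f.leadingCoeff.eval (((n : ℕ) : ℚ) : K) ≠ 0 := fun h0 =>
    hnot (Set.mem_biUnion (Finset.mem_coe.mpr hf) h0)
  have h4 := (hG f (hF f hf).1 (hF f hf).2).2.2 n h3 (hn (G f) (Finset.mem_image_of_mem G hf))
  have h5 := hdegt f n h3
  rw [Rat.cast_natCast] at h4 h5
  exact ⟨h4, h5⟩

end Fermat.Agent.Cor.HIT.NF
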