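import Fermat.Agent.Corollaries.HIT.Main

/-!
# Hilbert's irreducibility theorem over number fields

`K` a number field, `f ∈ K[t][X]` irreducible of degree `d > 0` in `X`. For `u ∈ K` there is an
irreducible `G ∈ ℚ[t][Z]` such that `f` divides `G(t, X + u)`; its degree is at least `d [K : ℚ]` for
a suitable `u = c θ`. If `G(t₀, Z)` is irreducible over `ℚ`, then `f(t₀, X)` is irreducible over `K`.
-/

set_option autoImplicit false

open Polynomial Filter Topology

namespace Fermat.Agent.Cor.HIT.NF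

section Up

variable {K : Type*} [Field K] [CharZero K]

/-- `G(t, X + u)` -/
noncomputable def up (u : K) (G : ℚ[X][X]) : K[X][X] :=
  (G.map (mapRingHom (algebraMap ℚ K))).comp (X + C (C u))

/-- `G ↦ G(t, X + u)` as a homomorphism -/
noncomputable def upHom (u : K) : ℚ[X][X] →+* K[X][X] :=
  (compRingHom (X + C (C u))).comp (mapRingHom (mapRingHom (algebraMap ℚ K)))

theorem upHom_apply (u : K) (G : ℚ[X][X]) : upHom u G = up u G := rfl

theorem map_up (u : K) (G : ℚ[X][X]) (t : ℚ) : (up u G).map (evalRingHom (t : K)) =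
    ((spQ G t).map (algebraMap ℚ K)).comp (X + C u) := by
  rw [up, Polynomial.map_comp, Polynomial.map_map, spQ, Polynomial.map_map]
  have h1 : (evalRingHom (t : K)).comp (mapRingHom (algebraMap ℚ K)) =
      (algebraMap ℚ K).comp (evalRingHom t) := by
    ext
    · simp
    · simp
  rw [h1, Polynomial.map_add, map_X, map_C, coe_evalRingHom, eval_C]

end Up

section Generic

variable {K : Type*} [Field K] [NumberField K]

attribute [local instance] Polynomial.algebra

/-- `f` divides `G(t, X + u)` for some irreducible `G ∈ ℚ[t][Z]`. -/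
theorem exists_dvd {f : K[X][X]} (hf : Irreducible f) (hd : 0 < f.natDegree) (u : K) :
    ∃ G : ℚ[X][X], Irreducible G ∧ 0 < G.natDegree ∧ f ∣ up u G := by
  have hfp : Prime f := hf.prime
  have hdom : IsDomain (AdjoinRoot f) := AdjoinRoot.isDomain_of_prime hfp
  have h1 : IsAlgebraic K[X] (AdjoinRoot.root f) :=
    ⟨f, hf.ne_zero, by rw [AdjoinRoot.aeval_eq, AdjoinRoot.mk_self]⟩
  have h2 : IsAlgebraic K[X] (AdjoinRoot.root f + algebraMap K[X] (AdjoinRoot f) (C u)) :=
    h1.add (isAlgebraic_algebraMap _)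
  have h3 : IsAlgebraic ℚ[X] (AdjoinRoot.root f + algebraMap K[X] (AdjoinRoot f) (C u)) :=
    h2.restrictScalars_of_isIntegral ℚ[X]
  obtain ⟨G₀, hG₀, hz⟩ := h3
  have hmk : AdjoinRoot.mk f (up u G₀) = 0 := by
    rw [← AdjoinRoot.aeval_eq, up, aeval_comp, map_add, aeval_X, aeval_C]
    have h4 : mapRingHom (algebraMap ℚ K) = algebraMap ℚ[X] K[X] := rfl
    rw [h4, aeval_map_algebraMap]
    exact hz
  have hdvd : f ∣ upHom u G₀ := (AdjoinRoot.mk_eq_zero).mp hmk
  obtain ⟨s, hs, v, hv⟩ := WfDvdMonoid.exists_factors G₀ hG₀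
  rw [← hv, map_mul, map_multiset_prod] at hdvd
  have hnu : ¬ f ∣ upHom u (v : ℚ[X][X]) := fun h =>
    hf.not_isUnit (isUnit_of_dvd_unit h (v.isUnit.map (upHom u)))
  obtain ⟨G, hGs, hG⟩ := hfp.exists_mem_multiset_map_dvd ((hfp.dvd_or_dvd hdvd).resolve_right hnu)
  refine ⟨G, hs G hGs, ?_, hG⟩
  by_contra hcon
  have hG0 : G.natDegree = 0 := by omega
  obtain ⟨a, ha⟩ := natDegree_eq_zero.mp hG0
  have h5 : upHom u G = C (a.map (algebraMap ℚ K)) := by
    rw [← ha, upHom_apply, up, map_C, C_comp]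
    rfl
  have ha0 : a.map (algebraMap ℚ K) ≠ 0 := by
    rw [Ne, Polynomial.map_eq_zero]
    rintro rfl
    exact (hs G hGs).ne_zero (by rw [← ha, C_0])
  rw [h5] at hG
  have h6 := natDegree_le_of_dvd hG (C_ne_zero.mpr ha0)
  rw [natDegree_C] at h6
  omega

end Generic

/-- An irreducible polynomial of positive degree does not vanish at any `t`. -/
theorem spQ_ne_zero {G : ℚ[X][X]} (hG : Irreducible G) (hd : 0 < G.natDegree) (t : ℚ) :
    spQ G t ≠ 0 := by
  intro h
  have hprim : G.IsPrimitive := hG.isPrimitive (by omega)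
  have h1 : C (X - C t) ∣ G := by
    rw [C_dvd_iff_dvd_coeff]
    intro i
    rw [dvd_iff_isRoot]
    have h2 := congrArg (fun p : ℚ[X] => p.coeff i) h
    simpa [spQ, coeff_map] using h2
  exact (irreducible_X_sub_C t).not_isUnit (hprim _ h1)

section Degree

variable {K : Type*} [Field K] [NumberField K]

/-- The conjugates `f^σ(t, Z - σ u)` divide `G(t, Z)`. -/
theorem conj_dvd {f : K[X][X]} {G : ℚ[X][X]} {u : K} (hdvd : f ∣ up u G) (t : ℚ) (σ : K →+* ℂ) :
    ((f.map (evalRingHom (t : K))).map σ).comp (X - C (σ u)) ∣ (spQ G t).map (algebraMap ℚ ℂ) := by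
  have h1 := Polynomial.map_dvd (evalRingHom (t : K)) hdvd
  rw [map_up] at h1
  have h2 := map_dvd (compRingHom (X - C (σ u))) (Polynomial.map_dvd σ h1)
  rw [coe_compRingHom_apply, coe_compRingHom_apply, Polynomial.map_comp, comp_assoc,
    Polynomial.map_add, map_X, map_C, add_comp, X_comp, C_comp, sub_add_cancel, comp_X] at h2
  have h3 : ((spQ G t).map (algebraMap ℚ K)).map σ = (spQ G t).map (algebraMap ℚ ℂ) := by
    rw [Polynomial.map_map]
    congr 1
    exact RingHom.ext_rat _ _
  rwa [h3] at h2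

/-- **The degree of `G`** is at least `d [K : ℚ]` for generic `u`. -/
theorem le_natDegree {f : K[X][X]} {G : ℚ[X][X]} {u : K} (hG : Irreducible G)
    (hGd : 0 < G.natDegree) (hdvd : f ∣ up u G) {t : ℚ}
    (ht : (f.map (evalRingHom (t : K))).natDegree = f.natDegree)
    (hgen : ∀ σ τ : K →+* ℂ, σ ≠ τ → ∀ α β : ℂ,
      ((f.map (evalRingHom (t : K))).map σ).eval α = 0 →
      ((f.map (evalRingHom (t : K))).map τ).eval β = 0 → α + σ u ≠ β + τ u) :
    f.natDegree * Module.finrank ℚ K ≤ G.natDegree := by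
  classical
  set p : (K →+* ℂ) → ℂ[X] := fun σ =>
    ((f.map (evalRingHom (t : K))).map σ).comp (X - C (σ u)) with hp
  have hpd : ∀ σ, (p σ).natDegree = f.natDegree := by
    intro σ
    rw [hp]
    simp only
    rw [natDegree_comp, natDegree_X_sub_C, mul_one, natDegree_map, ht]
  have hQ0 : (spQ G t).map (algebraMap ℚ ℂ) ≠ 0 := by
    rw [Ne, Polynomial.map_eq_zero]
    exact spQ_ne_zero hG hGd t
  have hcop : ((Finset.univ : Finset (K →+* ℂ)) : Set (K →+* ℂ)).Pairwise
      (Function.onFun IsCoprime p) := by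
    intro σ _ τ _ hστ
    change IsCoprime (p σ) (p τ)
    rw [Polynomial.isCoprime_iff_aeval_ne_zero_of_isAlgClosed ℂ ℂ]
    intro a
    by_contra hcon
    rw [not_or, not_not, not_not] at hcon
    obtain ⟨h1, h2⟩ := hcon
    rw [coe_aeval_eq_eval] at h1 h2
    simp only [hp, eval_comp, eval_sub, eval_X, eval_C] at h1 h2
    exact hgen σ τ hστ _ _ h1 h2 (by ring)
  have hprod : ∏ σ : K →+* ℂ, p σ ∣ (spQ G t).map (algebraMap ℚ ℂ) :=
    Finset.prod_dvd_of_coprime hcop fun σ _ => conj_dvd hdvd t σ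
  have hp0 : ∀ σ ∈ (Finset.univ : Finset (K →+* ℂ)), p σ ≠ 0 := fun σ _ h0 =>
    hQ0 (zero_dvd_iff.mp (h0 ▸ conj_dvd hdvd t σ))
  have h1 := natDegree_le_of_dvd hprod hQ0
  rw [natDegree_prod _ _ hp0, Finset.sum_congr rfl fun σ _ => hpd σ, Finset.sum_const,
    Finset.card_univ, NumberField.Embeddings.card K ℂ, smul_eq_mul, natDegree_map] at h1
  rw [mul_comm]
  exact h1.trans natDegree_map_le

/-- a generic multiple of a primitive element -/
theorem exists_generic {f : K[X][X]} (t : ℚ) (h0 : f.map (evalRingHom (t : K)) ≠ 0) :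
    ∃ u : K, ∀ σ τ : K →+* ℂ, σ ≠ τ → ∀ α β : ℂ,
      ((f.map (evalRingHom (t : K))).map σ).eval α = 0 →
      ((f.map (evalRingHom (t : K))).map τ).eval β = 0 → α + σ u ≠ β + τ u := by
  classical
  obtain ⟨θ, hθ⟩ := Field.exists_primitive_element ℚ K
  have hinj : ∀ σ τ : K →+* ℂ, σ θ = τ θ → σ = τ := by
    intro σ τ h
    have h1 : RingHom.toRatAlgHom σ = RingHom.toRatAlgHom τ := by
      refine (Field.primitive_element_iff_algHom_eq_of_eval ℚ ℂ
        (fun x => IsAlgClosed.splits _) θ (RingHom.toRatAlgHom σ)).mp hθ (RingHom.toRatAlgHom τ) h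
    ext x
    exact congrArg (fun φ : K →ₐ[ℚ] ℂ => φ x) h1
  set T : Finset ℂ := Finset.univ.biUnion fun σ : K →+* ℂ => Finset.univ.biUnion fun τ : K →+* ℂ =>
    ((f.map (evalRingHom (t : K))).map σ).roots.toFinset.biUnion fun α =>
      ((f.map (evalRingHom (t : K))).map τ).roots.toFinset.image fun β =>
        (β - α) / (σ θ - τ θ) with hT
  obtain ⟨_, ⟨c, rfl⟩, hc⟩ := (Set.infinite_range_of_injective
    (Rat.cast_injective (α := ℂ))).exists_notMem_finset T
  refine ⟨(c : K) * θ, fun σ τ hστ α β hα hβ heq => hc ?_⟩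
  have hne : σ θ - τ θ ≠ 0 := sub_ne_zero.mpr fun h => hστ (hinj σ τ h)
  have h0σ : ∀ σ : K →+* ℂ, (f.map (evalRingHom (t : K))).map σ ≠ 0 := fun σ => by
    rwa [Ne, Polynomial.map_eq_zero]
  rw [hT]
  refine Finset.mem_biUnion.mpr ⟨σ, Finset.mem_univ _, Finset.mem_biUnion.mpr ⟨τ,
    Finset.mem_univ _, Finset.mem_biUnion.mpr ⟨α, ?_, Finset.mem_image.mpr ⟨β, ?_, ?_⟩⟩⟩⟩
  · rw [Multiset.mem_toFinset, mem_roots (h0σ σ)]
    exact hα
  · rw [Multiset.mem_toFinset, mem_roots (h0σ τ)]
    exact hβ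
  · rw [div_eq_iff hne]
    rw [map_mul, map_mul, map_ratCast, map_ratCast] at heq
    linear_combination -heq

end Degree

section Special

variable {K : Type*} [Field K] [NumberField K]

/-- **The specialization**: if `G(t, Z)` is irreducible over `ℚ` of degree at least `d [K : ℚ]`,
`f(t, X)` is irreducible over `K`. -/
theorem irreducible_of {f : K[X][X]} {G : ℚ[X][X]} {u : K} (hd : 0 < f.natDegree)
    (hdvd : f ∣ up u G) (hdeg : f.natDegree * Module.finrank ℚ K ≤ G.natDegree) {t : ℚ}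
    (ht : (f.map (evalRingHom (t : K))).natDegree = f.natDegree)
    (hG : Irreducible (spQ G t)) (hGd : (spQ G t).natDegree = G.natDegree) :
    Irreducible (f.map (evalRingHom (t : K))) := by
  set q := f.map (evalRingHom (t : K)) with hq
  have hnu : ¬ IsUnit q := fun h => by
    have := natDegree_eq_zero_of_isUnit h
    omega
  have hq0 : q ≠ 0 := by
    intro h0
    rw [h0, natDegree_zero] at ht
    omega
  obtain ⟨g, hg, h, hgh⟩ := WfDvdMonoid.exists_irreducible_factor hnu hq0
  -- an irreducible factor has the full degree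
  have hg0 : g ≠ 0 := hg.ne_zero
  have hfact : Fact (Irreducible g) := ⟨hg⟩
  have hfin : FiniteDimensional K (AdjoinRoot g) := (AdjoinRoot.powerBasis hg0).finite
  have hfr : Module.finrank K (AdjoinRoot g) = g.natDegree := by
    rw [(AdjoinRoot.powerBasis hg0).finrank, AdjoinRoot.powerBasis_dim]
  have hfinQ : FiniteDimensional ℚ (AdjoinRoot g) := FiniteDimensional.trans ℚ K (AdjoinRoot g)
  have htower : Module.finrank ℚ K * g.natDegree = Module.finrank ℚ (AdjoinRoot g) := by
    rw [← hfr, Module.finrank_mul_finrank]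
  set ζ : AdjoinRoot g := AdjoinRoot.root g + algebraMap K (AdjoinRoot g) u with hζ
  have hroot : aeval ζ (spQ G t) = 0 := by
    have h1 := Polynomial.map_dvd (evalRingHom (t : K)) hdvd
    rw [map_up] at h1
    have h2 : g ∣ ((spQ G t).map (algebraMap ℚ K)).comp (X + C u) :=
      (Dvd.intro _ hgh.symm).trans h1
    have h3 := (AdjoinRoot.mk_eq_zero (f := g)).mpr h2
    rw [← AdjoinRoot.aeval_eq, aeval_comp, map_add, aeval_X, aeval_C, aeval_map_algebraMap] at h3
    exact h3
  have hmin : (minpoly ℚ ζ).natDegree = G.natDegree := by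
    rw [← hGd]
    have h1 : Associated (minpoly ℚ ζ) (spQ G t) :=
      (minpoly.irreducible (Algebra.IsIntegral.isIntegral ζ)).associated_of_dvd hG
        (minpoly.dvd ℚ ζ hroot)
    exact natDegree_eq_of_degree_eq (degree_eq_degree_of_associated h1)
  have hle : G.natDegree ≤ Module.finrank ℚ K * g.natDegree := by
    rw [← hmin, htower]
    exact minpoly.natDegree_le ζ
  have hpos : 0 < Module.finrank ℚ K := Module.finrank_pos
  have hgd : q.natDegree ≤ g.natDegree := by
    rw [ht]
    have h4 : f.natDegree * Module.finrank ℚ K ≤ g.natDegree * Module.finrank ℚ K := by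
      rw [mul_comm g.natDegree]
      exact hdeg.trans hle
    exact Nat.le_of_mul_le_mul_right h4 hpos
  have hh : IsUnit h := by
    have hh0 : h ≠ 0 := fun h0 => hq0 (by rw [hgh, h0, mul_zero])
    have h5 : q.natDegree = g.natDegree + h.natDegree := by
      rw [hgh, natDegree_mul hg0 hh0]
    have h6 : h.natDegree = 0 := by omega
    rw [isUnit_iff_degree_eq_zero, degree_eq_natDegree hh0, h6]
    rfl
  rw [hgh]
  exact (irreducible_mul_isUnit hh).mpr hg

end Special

/-- **Hilbert's irreducibility theorem over number fields**: for finitely many irreducible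
polynomials `f(t, X) ∈ K[t][X]` of positive degree in `X` there are infinitely many RATIONAL numbers
`t` such that all `f(t, X) ∈ K[X]` are irreducible of the same degree. -/
theorem hilbert_irreducibility_numberField (K : Type*) [Field K] [NumberField K]
    (F : Finset K[X][X]) (hF : ∀ f ∈ F, Irreducible f ∧ 0 < f.natDegree) :
    {t : ℚ | ∀ f ∈ F, Irreducible (f.map (evalRingHom (t : K))) ∧
      (f.map (evalRingHom (t : K))).natDegree = f.natDegree}.Infinite := by
  classical
  have hdegt : ∀ (f : K[X][X]) (t : ℚ), f.leadingCoeff.eval (t : K) ≠ 0 →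
      (f.map (evalRingHom (t : K))).natDegree = f.natDegree := fun f t h =>
    natDegree_map_of_leadingCoeff_ne_zero (evalRingHom (t : K)) h
  have hbadfin : ∀ f : K[X][X], f ≠ 0 → {t : ℚ | f.leadingCoeff.eval (t : K) = 0}.Finite := by
    intro f hf
    have h1 : {x : K | IsRoot f.leadingCoeff x}.Finite :=
      finite_setOfPred_isRoot (leadingCoeff_ne_zero.mpr hf)
    exact h1.preimage (Rat.cast_injective (α := K)).injOn
  have key : ∀ f : K[X][X], Irreducible f → 0 < f.natDegree → ∃ G : ℚ[X][X], Irreducible G ∧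
      0 < G.natDegree ∧ ∀ t : ℚ, f.leadingCoeff.eval (t : K) ≠ 0 → Irreducible (spQ G t) ∧
        (spQ G t).natDegree = G.natDegree → Irreducible (f.map (evalRingHom (t : K))) := by
    intro f hf hd
    obtain ⟨t₁, ht₁⟩ := (hbadfin f hf.ne_zero).exists_notMem
    have ht₁' : f.leadingCoeff.eval (t₁ : K) ≠ 0 := ht₁
    have h0 : f.map (evalRingHom (t₁ : K)) ≠ 0 := by
      intro h0
      have := hdegt f t₁ ht₁'
      rw [h0, natDegree_zero] at this
      omega
    obtain ⟨u, hu⟩ := exists_generic t₁ h0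
    obtain ⟨G, hG, hGd, hdvd⟩ := exists_dvd hf hd u
    have hle := le_natDegree hG hGd hdvd (hdegt f t₁ ht₁') hu
    exact ⟨G, hG, hGd, fun t ht hGt => irreducible_of hd hdvd hle (hdegt f t ht) hGt.1 hGt.2⟩
  choose! G hG using key
  have h1 := hilbert_irreducibility (F.image G) fun g hg => by
    obtain ⟨f, hf, rfl⟩ := Finset.mem_image.mp hg
    exact ⟨(hG f (hF f hf).1 (hF f hf).2).1, (hG f (hF f hf).1 (hF f hf).2).2.1⟩
  have h2 : (⋃ f ∈ F, {t : ℚ | f.leadingCoeff.eval (t : K) = 0}).Finite :=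
    F.finite_toSet.biUnion fun f hf => hbadfin f (hF f hf).1.ne_zero
  refine (h1.sdiff h2).mono ?_
  rintro t ⟨ht, hnot⟩ f hf
  have h3 : f.leadingCoeff.eval (t : K) ≠ 0 := fun h0 =>
    hnot (Set.mem_biUnion (Finset.mem_coe.mpr hf) h0)
  exact ⟨(hG f (hF f hf).1 (hF f hf).2).2.2 t h3 (ht (G f) (Finset.mem_image_of_mem G hf)),
    hdegt f t h3⟩

end Fermat.Agent.Cor.HIT.NF
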