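import Fermat.Agent.Corollaries.HIT.Defs

/-!
# Rational roots of the specializations

Two consequences of Hilbert's irreducibility theorem. `f ∈ ℚ[t][X]` with `f(t, X)` having a rational
root for all but finitely many rational `t`: then `f` has a divisor of degree one in `X`. `P ∈ ℚ[t]`
with `P(t)` an `n`-th power for all but finitely many rational `t`: then `P` is an `n`-th power.
-/

set_option autoImplicit false

open Polynomial Filter Topology UniqueFactorizationMonoid

namespace Fermat.Agent.Cor.HIT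

theorem spQ_mul (f g : ℚ[X][X]) (t : ℚ) : spQ (f * g) t = spQ f t * spQ g t := by
  rw [spQ, Polynomial.map_mul]
  rfl

theorem spQ_eq_zero_finite {c : ℚ[X][X]} (hc : c ≠ 0) (hd : c.natDegree = 0) :
    {t : ℚ | spQ c t = 0}.Finite := by
  obtain ⟨a, rfl⟩ := natDegree_eq_zero.mp hd
  have ha : a ≠ 0 := fun h => hc (by rw [h, C_0])
  refine (finite_setOfPred_isRoot ha).subset fun t ht => ?_
  have h1 : spQ (C a) t = C (a.eval t) := by rw [spQ, map_C, coe_evalRingHom]
  rw [Set.mem_ofPred_eq, h1, C_eq_zero] at ht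
  exact ht

/-- **A polynomial whose specializations have rational roots.** -/
theorem exists_dvd_of_root (H : HilbertStmt) {f : ℚ[X][X]} (hf : f ≠ 0)
    (h : {t : ℚ | ∀ x : ℚ, (spQ f t).eval x ≠ 0}.Finite) :
    ∃ g : ℚ[X][X], g ∣ f ∧ g.natDegree = 1 := by
  classical
  by_contra hno
  push Not at hno
  let F : Finset ℚ[X][X] := (normalizedFactors f).toFinset.filter fun g => 0 < g.natDegree
  let Z : Finset ℚ[X][X] := (normalizedFactors f).toFinset.filter fun g => g.natDegree = 0
  have hF := H F fun g hg => by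
    rw [Finset.mem_filter, Multiset.mem_toFinset] at hg
    exact ⟨irreducible_of_normalized_factor g hg.1, hg.2⟩
  have hZ : (⋃ c ∈ Z, {t : ℚ | spQ c t = 0}).Finite := by
    refine Set.Finite.biUnion Z.finite_toSet fun c hc => ?_
    rw [Finset.mem_coe, Finset.mem_filter, Multiset.mem_toFinset] at hc
    exact spQ_eq_zero_finite (irreducible_of_normalized_factor c hc.1).ne_zero hc.2
  obtain ⟨t, ht, htn⟩ := (hF.sdiff (h.union hZ)).nonempty
  simp only [Set.mem_union, Set.mem_ofPred_eq, Set.mem_iUnion, not_or, not_exists, not_forall,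
    not_not] at htn
  obtain ⟨⟨x, hx⟩, hz⟩ := htn
  have hprod : ∀ m : Multiset ℚ[X][X], (spQ m.prod t).eval x = 0 → ∃ g ∈ m, (spQ g t).eval x = 0 := by
    intro m
    induction m using Multiset.induction_on with
    | empty =>
      intro h1
      rw [Multiset.prod_zero, spQ, Polynomial.map_one, eval_one] at h1
      exact absurd h1 one_ne_zero
    | cons a m ih =>
      intro h1
      rw [Multiset.prod_cons, spQ_mul, eval_mul] at h1
      rcases mul_eq_zero.mp h1 with h2 | h2
      · exact ⟨a, Multiset.mem_cons_self a m, h2⟩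
      · obtain ⟨g, hg, hg'⟩ := ih h2
        exact ⟨g, Multiset.mem_cons_of_mem hg, hg'⟩
  obtain ⟨u, hu⟩ := (prod_normalizedFactors hf).symm
  have hx' : (spQ (normalizedFactors f).prod t).eval x = 0 := by
    rw [← hu, spQ_mul, eval_mul, hx, zero_mul]
  obtain ⟨g, hg, hgx⟩ := hprod _ hx'
  rcases Nat.eq_zero_or_pos g.natDegree with h0 | h0
  · refine hz g (by rw [Finset.mem_filter, Multiset.mem_toFinset]; exact ⟨hg, h0⟩) ?_
    obtain ⟨a, rfl⟩ := natDegree_eq_zero.mp h0
    rw [spQ, map_C, eval_C] at hgx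
    rw [spQ, map_C, hgx, C_0]
  · obtain ⟨h1, h2⟩ := ht g (by rw [Finset.mem_filter, Multiset.mem_toFinset]; exact ⟨hg, h0⟩)
    have h3 := natDegree_eq_of_degree_eq_some (degree_eq_one_of_irreducible_of_root h1 hgx)
    exact hno g (dvd_of_mem_normalizedFactors hg) (by rw [← h2, h3]; rfl)

/-- **A polynomial whose values are `n`-th powers is an `n`-th power.** -/
theorem exists_pow_eq (H : HilbertStmt) {P : ℚ[X]} {n : ℕ} (hn : n ≠ 0)
    (h : {t : ℚ | ∀ x : ℚ, x ^ n ≠ P.eval t}.Finite) : ∃ Q : ℚ[X], Q ^ n = P := by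
  classical
  have hf : (X ^ n - C P : ℚ[X][X]) ≠ 0 := X_pow_sub_C_ne_zero (Nat.pos_of_ne_zero hn) P
  have hsp : ∀ t : ℚ, spQ (X ^ n - C P) t = X ^ n - C (P.eval t) := fun t => by
    rw [spQ, Polynomial.map_sub, Polynomial.map_pow, map_X, map_C, coe_evalRingHom]
  obtain ⟨g, ⟨q, hq⟩, hg⟩ := exists_dvd_of_root H hf (h.subset fun t ht x hx => by
    refine ht x ?_
    rw [hsp, eval_sub, eval_pow, eval_X, eval_C, hx, sub_self])
  have hu : g.leadingCoeff * q.leadingCoeff = 1 := by
    rw [← leadingCoeff_mul, ← hq, leadingCoeff_X_pow_sub_C (Nat.pos_of_ne_zero hn)]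
  refine ⟨-(g.coeff 0) * q.leadingCoeff, ?_⟩
  have hg0 : g.eval (-(g.coeff 0) * q.leadingCoeff) = 0 := by
    rw [leadingCoeff, hg] at hu
    rw [eq_X_add_C_of_natDegree_le_one hg.le] 
    simp only [eval_add, eval_mul, eval_C, eval_X, coeff_add, coeff_C_mul, coeff_X_zero, coeff_C_zero]
    linear_combination -(g.coeff 0) * hu
  have h1 : (X ^ n - C P : ℚ[X][X]).eval (-(g.coeff 0) * q.leadingCoeff) = 0 := by
    rw [hq, eval_mul, hg0, zero_mul]
  rw [eval_sub, eval_pow, eval_X, eval_C] at h1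
  exact sub_eq_zero.mp h1

end Fermat.Agent.Cor.HIT
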